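import Fermat.Agent.EllTorsion.Pairing

/-!
# Equivariance of the pairing under automorphisms of the field

An automorphism `σ` of the field fixing the coefficients of the curve acts on the coordinate ring
(`coordMap`), carries the normalised functions of torsion points to one another
(`torsFun_coordMap`) and hence commutes with the pairing (`wPair_map`).
-/

noncomputable section

open WeierstrassCurve Polynomial
open scoped Polynomial.Bivariate

namespace FLTAgent.EllTorsion

variable {K : Type*} [Field K] (W : Affine K) (σ : K →+* K)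
  (hW : σ W.a₁ = W.a₁ ∧ σ W.a₂ = W.a₂ ∧ σ W.a₃ = W.a₃ ∧ σ W.a₄ = W.a₄ ∧ σ W.a₆ = W.a₆)

/-- The action of a coefficient automorphism on the coordinate ring. -/
def coordMap : W.CoordinateRing →+* W.CoordinateRing :=
  AdjoinRoot.lift ((AdjoinRoot.of W.polynomial).comp (mapRingHom σ)) (AdjoinRoot.root W.polynomial)
    (by
      obtain ⟨h1, h2, h3, h4, h6⟩ := hW
      have h : W.polynomial.map (mapRingHom σ) = W.polynomial := by
        simp [Affine.polynomial, h1, h2, h3, h4, h6]
      rw [← eval₂_map, h]
      exact AdjoinRoot.eval₂_root _)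

theorem coordMap_mk (q : K[X][Y]) : coordMap W σ hW (Affine.CoordinateRing.mk W q) =
    Affine.CoordinateRing.mk W (q.map (mapRingHom σ)) := by
  rw [coordMap, AdjoinRoot.lift_mk, ← eval₂_map, ← AdjoinRoot.algebraMap_eq, ← aeval_def,
    AdjoinRoot.aeval_eq]

theorem coordMap_el (a b : K[X]) :
    coordMap W σ hW (el W a b) = el W (a.map σ) (b.map σ) := by
  simp only [el_eq, map_add, map_mul, coordMap_mk, map_C, map_X, coe_mapRingHom]

theorem top_coordMap (f : W.CoordinateRing) : top (coordMap W σ hW f) = (top f).map σ := by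
  obtain ⟨a, b, rfl⟩ := exists_el f
  simp [coordMap_el, top_el, map_expand]

variable [DecidableEq K] {W σ}
include hW

theorem torsFun_coordMap {p : ℕ} {x y : K} {h : W.Nonsingular x y}
    {h' : W.Nonsingular (σ x) (σ y)} (hT : p • Affine.Point.some x y h = 0)
    (hT' : p • Affine.Point.some (σ x) (σ y) h' = 0) :
    coordMap W σ hW (torsFun p (Affine.Point.some x y h)) =
      torsFun p (Affine.Point.some (σ x) (σ y) h') := by
  obtain ⟨hn, hs⟩ := torsFun_spec hT
  refine IsTorsFun.unique (p := p) ?_ (torsFun_spec hT')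
  refine ⟨?_, ?_⟩
  · rw [Normalised, top_coordMap, leadingCoeff_map, hn, map_one]
  · rw [← Set.image_singleton, ← Ideal.map_span, hs, Ideal.map_pow]
    congr 1
    simp only [ptIdeal, Affine.CoordinateRing.XYIdeal, Ideal.map_span, Set.image_pair,
      Affine.CoordinateRing.XClass, Affine.CoordinateRing.YClass, coordMap_mk, Polynomial.map_sub,
      map_C, map_X, coe_mapRingHom]

omit [DecidableEq K] in
theorem pev_coordMap {x y : K} (h : W.Nonsingular x y) (h' : W.Nonsingular (σ x) (σ y))
    (f : W.CoordinateRing) :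
    pev (Affine.Point.some (σ x) (σ y) h') (coordMap W σ hW f) =
      σ (pev (Affine.Point.some x y h) f) := by
  obtain ⟨a, b, rfl⟩ := exists_el f
  simp [coordMap_el, eval_map, eval₂_at_apply]

theorem wPair_map {p : ℕ} {x y x₂ y₂ : K} {h : W.Nonsingular x y} {h₂ : W.Nonsingular x₂ y₂}
    {h' : W.Nonsingular (σ x) (σ y)} {h₂' : W.Nonsingular (σ x₂) (σ y₂)}
    (hS : p • Affine.Point.some x y h = 0) (hT : p • Affine.Point.some x₂ y₂ h₂ = 0)
    (hS' : p • Affine.Point.some (σ x) (σ y) h' = 0)
    (hT' : p • Affine.Point.some (σ x₂) (σ y₂) h₂' = 0) :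
    wPair p (Affine.Point.some (σ x) (σ y) h') (Affine.Point.some (σ x₂) (σ y₂) h₂') =
      σ (wPair p (Affine.Point.some x y h) (Affine.Point.some x₂ y₂ h₂)) := by
  rw [wPair, wPair, ← torsFun_coordMap hW hS hS', ← torsFun_coordMap hW hT hT',
    pev_coordMap hW h₂ h₂', pev_coordMap hW h h', map_pow, map_div₀]

end FLTAgent.EllTorsion

end
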