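import Fermat.Agent.EllTorsion.RatFn
import Mathlib.RingTheory.Polynomial.Resultant.Basic

/-!
# Periodic rational functions factor through multiplication by `n`

`descend`: a function of points which is almost everywhere `A(x)/D(x)` and invariant under
translation by the `n`-torsion is almost everywhere a rational function of `x(n Q)`. The proof uses
that `Φₙ = c ΨSqₙ` has `n ^ 2` distinct roots for almost all `c` (`exists_finset_card_roots`).
-/

noncomputable section

open WeierstrassCurve Polynomial Filter

namespace FLTAgent.EllTorsion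

variable {K : Type*} [Field K] [DecidableEq K] [IsAlgClosed K] [CharZero K] {W : Affine K}
  [W.IsElliptic]

/-- For almost all `c` the equation `Φₙ = c ΨSqₙ` has `n²` distinct roots. -/
theorem exists_finset_card_roots {n : ℕ} (hn : n ≠ 0) :
    ∃ bad : Finset K, ∀ c ∉ bad, (W.Φ n - C c * W.ΨSq n).roots.toFinset.card = n ^ 2 := by
  classical
  set F := W.Φ n with hF
  set G := W.ΨSq n with hG
  set Wr := derivative F * G - F * derivative G with hWr
  refine ⟨Wr.roots.toFinset.image fun x => F.eval x / G.eval x, fun c hc => ?_⟩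
  simp only [Finset.mem_image, Multiset.mem_toFinset, not_exists, not_and] at hc
  obtain ⟨hm, hdeg⟩ := monic_Φ_sub_ΨSq (W := W) n c
  have hsep : (F - C c * G).Separable := by
    refine (separable_def _).mpr (isCoprime_of_forall_eval fun x ⟨hx, hx'⟩ => ?_)
    simp only [eval_sub, eval_mul, eval_C, derivative_sub, derivative_C_mul,
      sub_eq_zero] at hx hx'
    have hGx : G.eval x ≠ 0 := by
      intro h0
      rw [h0, mul_zero] at hx
      exact eval_Φ_ΨSq_ne_zero_nat n x ⟨hx, h0⟩
    refine hc x ((mem_roots (wronskian_Φ_ΨSq_ne_zero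
      (Nat.cast_ne_zero.mpr hn))).mpr ?_) ?_
    · simp only [IsRoot.def, eval_sub, eval_mul]
      linear_combination (norm := (simp only [F, G]; ring1))
        G.eval x * hx' - (derivative G).eval x * hx
    · rw [hx, mul_div_cancel_right₀ _ hGx]
  rw [Multiset.toFinset_card_of_nodup (nodup_roots hsep),
    ← (IsAlgClosed.splits _).natDegree_eq_card_roots, hdeg]

/-- A rational function invariant under translations by `n`-torsion, and of the form `A(x)/D(x)`,
is a rational function of `x(n Q)`. -/
theorem descend {n : ℕ} (hn : n ≠ 0) {φ : W.Point → K} {A D : K[X]} (hD : D ≠ 0)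
    (hφ : ∀ᶠ Q in cofinite, φ Q * D.eval (px Q) = A.eval (px Q))
    (hper : ∀ T : W.Point, n • T = 0 → ∀ᶠ Q in cofinite, φ (Q + T) = φ Q) :
    ∃ u v : K[X], v ≠ 0 ∧
      ∀ᶠ Q in cofinite, φ Q * v.eval (px (n • Q)) = u.eval (px (n • Q)) := by
  classical
  obtain ⟨hΦm, hΦd⟩ := monic_Φ_nat (W := W) n
  set F := W.Φ n with hFdef
  set G := W.ΨSq n with hGdef
  set H : K[X][X] := F.map C - C (X : K[X]) * G.map C with hH
  have hspec : ∀ (c : K) (P : K[X]), (P.map C).map (evalRingHom c) = P := fun c P => by
    rw [Polynomial.map_map, show (evalRingHom c).comp C = RingHom.id K by ext; simp,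
      Polynomial.map_id]
  have hHspec : ∀ c : K, H.map (evalRingHom c) = F - C c * G := fun c => by
    rw [hH, Polynomial.map_sub, Polynomial.map_mul, hspec, hspec, map_C, coe_evalRingHom, eval_X]
  have hlt : (C (X : K[X]) * G.map C).degree < (F.map C).degree := by
    refine lt_of_le_of_lt (degree_mul_le _ _) ?_
    rw [degree_C X_ne_zero, zero_add, degree_map_eq_of_injective C_injective,
      degree_map_eq_of_injective C_injective]
    exact degree_ΨSq_lt W n hΦm hΦd
  have hHm : H.Monic := (hΦm.map C).sub_of_left hlt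
  have hHd : H.natDegree = n ^ 2 := by
    rw [hH, natDegree_eq_of_degree_eq (degree_sub_eq_left_of_degree_lt hlt),
      natDegree_map_eq_of_injective C_injective, hΦd]
  set D' : K[X][X] := D.map C with hD'
  have hN0 : H.natDegree ≠ 0 := by rw [hHd]; exact pow_ne_zero 2 hn
  obtain ⟨u, w, -, -, huw⟩ :=
    exists_mul_add_mul_eq_C_resultant H D' le_rfl le_rfl (Or.inl hN0)
  set v : K[X] := resultant H D' H.natDegree D'.natDegree with hv
  -- `v` is nonzero
  have hv0 : v ≠ 0 := by
    obtain ⟨c, hc⟩ := Infinite.exists_notMem_finset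
      (D.roots.toFinset.image fun x => F.eval x / G.eval x)
    simp only [Finset.mem_image, Multiset.mem_toFinset, not_exists, not_and] at hc
    intro h0
    have h := congrArg (Polynomial.eval c) h0
    rw [eval_zero, hv, ← coe_evalRingHom, ← resultant_map_map, hHspec, hHd,
      natDegree_map_eq_of_injective C_injective, hspec,
      ← (monic_Φ_sub_ΨSq (W := W) n c).2, resultant_eq_prod_eval _ _ _ le_rfl
        (IsAlgClosed.splits _), (monic_Φ_sub_ΨSq (W := W) n c).1.leadingCoeff, one_pow, one_mul,
      Multiset.prod_eq_zero_iff, Multiset.mem_map] at h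
    obtain ⟨x, hx, hx0⟩ := h
    have hxr := (mem_roots'.mp hx).2
    rw [IsRoot.def, eval_sub, eval_mul, eval_C, sub_eq_zero] at hxr
    refine hc x ((mem_roots hD).mpr hx0) ?_
    have hGx : G.eval x ≠ 0 := by
      intro h0
      exact eval_Φ_ΨSq_ne_zero_nat n x ⟨by rw [hxr, h0, mul_zero], h0⟩
    rw [hxr, mul_div_cancel_right₀ _ hGx]
  set R : K[X][X] := (A.map C * w) %ₘ H with hR
  have hRd : R.natDegree < n ^ 2 :=
    hHd ▸ natDegree_modByMonic_lt _ hHm (fun h => hN0 (by rw [h, natDegree_one]))
  -- the basic relation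
  have hrel : ∀ᶠ Q in cofinite,
      φ Q * v.eval (px (n • Q)) = (R.map (evalRingHom (px (n • Q)))).eval (px Q) := by
    filter_upwards [hφ, eventually_nsmul_ne hn (0 : W.Point), eventually_ne' 0]
      with Q hQ hnQ hQ0
    obtain ⟨x, y, hns, rfl⟩ := exists_some_of_ne_zero hQ0
    obtain ⟨x', y', hns', he⟩ := exists_some_of_ne_zero hnQ
    have hx := x_zsmul_some (n := (n : ℤ)) (h := hns) (by rw [natCast_zsmul]; exact he)
    rw [he]
    change φ _ * v.eval x' = (R.map (evalRingHom x')).eval x
    let ev : K[X][X] →+* K := (evalRingHom x).comp (mapRingHom (evalRingHom x'))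
    have hev : ∀ P : K[X][X], ev P = (P.map (evalRingHom x')).eval x := fun P => rfl
    have hH0 : ev H = 0 := by
      rw [hev, hHspec, eval_sub, eval_mul, eval_C, sub_eq_zero]
      exact hx.symm
    have h1 : ev D' * ev w = v.eval x' := by
      have h := congrArg ev huw
      rw [map_add, map_mul, map_mul, hH0, zero_mul, zero_add] at h
      rw [h, hev, map_C, eval_C]
      rfl
    have h2 : ev R = ev (A.map C) * ev w := by
      have h := congrArg ev (modByMonic_add_div (A.map C * w) H)
      rw [map_add, map_mul, map_mul, hH0, zero_mul, add_zero] at h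
      exact h
    rw [← hev, h2, ← h1, hev, hev (A.map C), hD', hspec, hspec, ← mul_assoc]
    congr 1
  obtain ⟨bad, hbad⟩ := exists_finset_card_roots (W := W) hn
  have htor := finite_torsion_set (W := W) hn
  have hbadev : ∀ᶠ Q : W.Point in cofinite, px (n • Q) ∉ bad :=
    (tendsto_nsmul hn).eventually (tendsto_px.eventually bad.finite_toSet.eventually_cofinite_notMem)
  have htrans : ∀ᶠ Q : W.Point in cofinite, ∀ T ∈ htor.toFinset,
      φ (Q + T) = φ Q ∧ φ (Q + T) * v.eval (px (n • (Q + T))) =
        (R.map (evalRingHom (px (n • (Q + T))))).eval (px (Q + T)) := by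
    refine (eventually_all_finset _).mpr fun T hT => ?_
    exact (hper T (by simpa using hT)).and ((tendsto_add_const T).eventually hrel)
  -- the fibre argument
  have hcoef : ∀ i, 1 ≤ i → R.coeff i = 0 := by
    intro i hi
    refine poly_eq_zero_of_eventually (W := W) (tendsto_nsmul hn) ?_
    filter_upwards [hbadev, htrans, eventually_nsmul_ne hn (0 : W.Point)] with Q hc hQ hnQ
    obtain ⟨x', y', hns', he⟩ := exists_some_of_ne_zero hnQ
    set c := px (n • Q) with hcdef
    set P := R.map (evalRingHom c) - C (φ Q * v.eval c) with hP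
    have hPd : P.natDegree < n ^ 2 := by
      refine lt_of_le_of_lt (natDegree_sub_le _ _) (max_lt (natDegree_map_le.trans_lt hRd) ?_)
      rw [natDegree_C]
      positivity
    have hroots : ∀ x ∈ (F - C c * G).roots.toFinset, P.eval x = 0 := by
      intro x hx
      have hxr := (mem_roots'.mp (Multiset.mem_toFinset.mp hx)).2
      obtain ⟨y, hns⟩ := exists_nonsingular (W := W) x
      have hcx : c = x' := by rw [hcdef, he]; rfl
      rw [hcx] at hxr
      obtain ⟨Q', hQ'x, hQ'⟩ : ∃ Q' : W.Point, px Q' = x ∧ n • Q' = n • Q := by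
        rcases nsmul_eq_or_eq_neg hns' hns hxr with e | e
        · exact ⟨_, rfl, e.trans he.symm⟩
        · refine ⟨-Affine.Point.some x y hns, px_neg _, ?_⟩
          rw [neg_nsmul, e, neg_neg, he]
      have hTmem : Q' - Q ∈ htor.toFinset := by simp [nsmul_sub, hQ']
      obtain ⟨hp1, hp2⟩ := hQ (Q' - Q) hTmem
      rw [add_sub_cancel] at hp1 hp2
      rw [hQ', hp1, hQ'x] at hp2
      rw [hP, eval_sub, eval_C, ← hp2, sub_self]
    have hP0 : P = 0 := by
      refine eq_zero_of_natDegree_lt_card_of_eval_eq_zero' P _ hroots ?_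
      rw [hbad c hc]; exact hPd
    have := congrArg (fun q => q.coeff i) hP0
    simpa [hP, coeff_C, show i ≠ 0 by omega] using this
  refine ⟨R.coeff 0, v, hv0, ?_⟩
  filter_upwards [hrel] with Q hQ
  rw [hQ]
  conv_lhs => rw [eq_C_of_natDegree_le_zero (p := R) (natDegree_le_iff_coeff_eq_zero.mpr
    fun i hi => hcoef i hi)]
  simp

end FLTAgent.EllTorsion

end
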