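import Fermat.Agent.EllTorsion.GFun
import Fermat.Agent.EllTorsion.Descent

/-!
# Nondegeneracy of the Weil pairing

`exists_wPair_ne_one`: for odd `p ≥ 3` and a nonzero `p`-torsion point `S` some `p`-torsion point
pairs nontrivially with it. Otherwise `g`, with `g ^ p = f_S ∘ [p]`, would be periodic
(`gFun_periodic_all`); descending the symmetric functions of `g(Q)`, `g(-Q)` through
multiplication by `p` gives a polynomial identity in which a linear factor times a square equals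
`b² Ψ₂Sq`, impossible as `Ψ₂Sq` has three simple roots.
-/

noncomputable section

open WeierstrassCurve Polynomial Filter

namespace FLTAgent.EllTorsion

section Lucas

variable {R : Type*} [CommRing R]

/-- `aᵏ + bᵏ` in terms of `a + b` and `ab`. -/
def powerSum (s m : R) : ℕ → R
  | 0 => 2
  | 1 => s
  | k + 2 => s * powerSum s m (k + 1) - m * powerSum s m k

/-- `(aᵏ - bᵏ)/(a - b)` in terms of `a + b` and `ab`. -/
def powerQuot (s m : R) : ℕ → R
  | 0 => 0
  | 1 => 1
  | k + 2 => s * powerQuot s m (k + 1) - m * powerQuot s m k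

theorem powerSum_eq (a b : R) (k : ℕ) : powerSum (a + b) (a * b) k = a ^ k + b ^ k := by
  induction k using Nat.twoStepInduction with
  | zero => simp [powerSum]; norm_num
  | one => simp [powerSum]
  | more k ih1 ih2 => rw [powerSum, ih1, ih2]; ring

theorem powerQuot_eq (a b : R) (k : ℕ) :
    (a - b) * powerQuot (a + b) (a * b) k = a ^ k - b ^ k := by
  induction k using Nat.twoStepInduction with
  | zero => simp [powerQuot]
  | one => simp [powerQuot]
  | more k ih1 ih2 => rw [powerQuot]; linear_combination (a + b) * ih2 - a * b * ih1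

theorem powerSum_scale (t s m : R) (k : ℕ) :
    powerSum (t * s) (t ^ 2 * m) k = t ^ k * powerSum s m k := by
  induction k using Nat.twoStepInduction with
  | zero => simp [powerSum]
  | one => simp [powerSum]
  | more k ih1 ih2 => simp only [powerSum, ih1, ih2]; ring

theorem map_powerSum {S : Type*} [CommRing S] (f : R →+* S) (s m : R) (k : ℕ) :
    f (powerSum s m k) = powerSum (f s) (f m) k := by
  induction k using Nat.twoStepInduction with
  | zero => simp [powerSum, map_ofNat]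
  | one => simp [powerSum]
  | more k ih1 ih2 => simp only [powerSum, map_sub, map_mul, ih1, ih2]

theorem map_powerQuot {S : Type*} [CommRing S] (f : R →+* S) (s m : R) (k : ℕ) :
    f (powerQuot s m k) = powerQuot (f s) (f m) k := by
  induction k using Nat.twoStepInduction with
  | zero => simp [powerQuot]
  | one => simp [powerQuot]
  | more k ih1 ih2 => simp only [powerQuot, map_sub, map_mul, ih1, ih2]

theorem dvd_powerSum_sub_pow (r w M : R) (k : ℕ) (hk : 1 ≤ k) :
    w ∣ powerSum r (M * w ^ 2) k - r ^ k := by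
  induction k, hk using Nat.le_induction with
  | base => simp [powerSum]
  | succ k hk ih =>
    obtain ⟨j, rfl⟩ : ∃ j, k = j + 1 := ⟨k - 1, by omega⟩
    obtain ⟨z, hz⟩ := ih
    refine ⟨r * z - M * w * powerSum r (M * w ^ 2) j, ?_⟩
    simp only [powerSum]
    linear_combination r * hz

end Lucas

section Field

variable {K : Type*} [Field K] [DecidableEq K] {W : Affine K}

omit [DecidableEq K] in
theorem sq_two_mul_py {R : W.Point} (hR : R ≠ 0) :
    (2 * py R + W.a₁ * px R + W.a₃) ^ 2 = W.Ψ₂Sq.eval (px R) := by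
  have he := (W.equation_iff _ _).mp (equation_of_ne_zero hR)
  simp only [Ψ₂Sq, b₂, b₄, b₆, eval_add, eval_mul, eval_C, eval_X, eval_pow]
  linear_combination 4 * he

variable [IsAlgClosed K] [CharZero K] [W.IsElliptic]

theorem three_roots : ∃ s : Finset K, s.card = 3 ∧ ∀ r ∈ s, W.Ψ₂Sq.eval r = 0 ∧
    rootMultiplicity r W.Ψ₂Sq = 1 := by
  classical
  have hne : W.Ψ₂Sq ≠ 0 := W.Ψ₂Sq_ne_zero (by norm_num)
  have hdeg : W.Ψ₂Sq.natDegree = 3 := W.natDegree_Ψ₂Sq (by norm_num)
  have hcard := natCard_torsionBy (W := W) 2 (by norm_num)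
  have : Finite (Submodule.torsionBy ℤ W.Point (2 : ℕ)) :=
    Nat.finite_of_card_ne_zero (hcard ▸ by norm_num)
  have := Fintype.ofFinite (Submodule.torsionBy ℤ W.Point (2 : ℕ))
  let s : Finset (Submodule.torsionBy ℤ W.Point (2 : ℕ)) := Finset.univ.erase 0
  have hs : s.card = 3 := by
    rw [Finset.card_erase_of_mem (Finset.mem_univ _), Finset.card_univ,
      ← Nat.card_eq_fintype_card, hcard]
    norm_num
  have h0 : ∀ P ∈ s, (P : W.Point) ≠ 0 := fun P hP h =>
    (Finset.mem_erase.mp hP).1 (Subtype.ext h)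
  have h2 : ∀ P : Submodule.torsionBy ℤ W.Point (2 : ℕ), (P : W.Point) + P = 0 := fun P => by
    have h := P.2
    rw [Submodule.mem_torsionBy_iff, natCast_zsmul, two_nsmul] at h
    exact h
  have hinj : Set.InjOn (fun P : Submodule.torsionBy ℤ W.Point (2 : ℕ) => px (P : W.Point)) s := by
    intro P hP Q hQ h
    rcases eq_or_eq_neg_of_px_eq (h0 P hP) (h0 Q hQ) h with e | e
    · exact Subtype.ext e
    · exact Subtype.ext (e.trans (neg_eq_iff_add_eq_zero.mpr (h2 Q)))
  let rs : Finset K :=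
    s.image fun P : Submodule.torsionBy ℤ W.Point (2 : ℕ) => px (P : W.Point)
  have hrs : rs.card = 3 := by rw [Finset.card_image_of_injOn hinj, hs]
  have hroot : ∀ r ∈ rs, W.Ψ₂Sq.eval r = 0 := by
    intro r hr
    obtain ⟨P, hP, rfl⟩ := Finset.mem_image.mp hr
    obtain ⟨x, y, hn, he⟩ := exists_some_of_ne_zero (h0 P hP)
    have h := h2 P
    rw [he, ← two_nsmul, nsmul_some_eq_zero_iff, Nat.cast_ofNat, ΨSq_two] at h
    rw [he]
    exact h
  refine ⟨rs, hrs, fun r hr => ⟨hroot r hr, ?_⟩⟩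
  have hsub : rs ⊆ W.Ψ₂Sq.roots.toFinset := fun x hx =>
    Multiset.mem_toFinset.mpr ((mem_roots hne).mpr (hroot x hx))
  have h1 := Finset.card_le_card hsub
  have h3 := W.Ψ₂Sq.roots.toFinset_card_le
  have h4 := card_roots' W.Ψ₂Sq
  rw [← count_roots]
  refine Multiset.count_eq_one_of_mem ?_ (Multiset.mem_toFinset.mp (hsub hr))
  exact Multiset.toFinset_card_eq_card_iff_nodup.mp (by omega)

theorem nsmul_eq_nsmul_mod_of_nsmul_eq_zero {n : ℕ} {P : W.Point} (h : n • P = 0) (j : ℕ) :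
    j • P = (j % n) • P := by
  conv_lhs => rw [← Nat.mod_add_div j n, add_nsmul, mul_nsmul, h, nsmul_zero, add_zero]

theorem eq_C_mul_of_pow_eq_pow {a b : K[X]} {n : ℕ} (hn : n ≠ 0) (hb : b ≠ 0)
    (h : a ^ n = b ^ n) : ∃ ζ : K, ζ ≠ 0 ∧ a = C ζ * b := by
  obtain ⟨k, hk⟩ := (IsIntegrallyClosed.pow_dvd_pow_iff hn).mp (h ▸ dvd_rfl : b ^ n ∣ a ^ n)
  rw [hk, mul_pow, mul_eq_left₀ (pow_ne_zero n hb)] at h
  obtain ⟨c, hc, rfl⟩ := Polynomial.isUnit_iff.mp
    ((isUnit_pow_iff hn).mp (h ▸ isUnit_one))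
  exact ⟨c, hc.ne_zero, by rw [hk, mul_comm]⟩

theorem poly_eq_of_eventually {n : ℕ} (hn : n ≠ 0) {a b : K[X]}
    (h : ∀ᶠ Q : W.Point in cofinite, a.eval (px (n • Q)) = b.eval (px (n • Q))) : a = b :=
  sub_eq_zero.mp (poly_eq_zero_of_eventually (W := W) (tendsto_nsmul hn)
    (h.mono fun Q hQ => by rw [eval_sub, hQ, sub_self]))

variable {p : ℕ} {S : W.Point}

/-- If `e(S, T) = 1` for all `T` outside the line of `S` then `g` is periodic. -/
theorem gFun_periodic_all (hp : Odd p) (hS : p • S = 0) (hS0 : S ≠ 0) (h3 : 3 ≤ p)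
    (he : ∀ T : W.Point, p • T = 0 → (∀ k : ℕ, T ≠ k • S) → wPair p S T = 1)
    {T : W.Point} (hT : p • T = 0) : ∀ᶠ Q in cofinite, gFun p S (Q + T) = gFun p S Q := by
  have main : ∀ T : W.Point, p • T = 0 → (∀ k : ℕ, T ≠ k • S) →
      ∀ᶠ Q in cofinite, gFun p S (Q + T) = gFun p S Q := fun T hT hk =>
    gFun_periodic hp hS hS0 hT (fun h => hk 0 (by rw [h, zero_nsmul]))
      (fun h => hk 1 (by rw [h, one_nsmul])) (he T hT hk)
  by_cases hmem : ∀ k : ℕ, T ≠ k • S
  · exact main T hT hmem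
  push Not at hmem
  obtain ⟨k, rfl⟩ := hmem
  -- some torsion point lies off the line
  obtain ⟨T₀, hT₀, hoff⟩ : ∃ T₀ : W.Point, p • T₀ = 0 ∧ ∀ j : ℕ, T₀ ≠ j • S := by
    by_contra hc
    push Not at hc
    have hcard := natCard_torsionBy (W := W) p (Nat.cast_ne_zero.mpr (by omega))
    have hex : ∀ P : Submodule.torsionBy ℤ W.Point p, ∃ j : Fin p, (P : W.Point) = (j : ℕ) • S := by
      intro P
      obtain ⟨j, hj⟩ := hc P (by rw [← natCast_zsmul]; exact P.2)
      exact ⟨⟨j % p, Nat.mod_lt _ (by omega)⟩,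
        hj.trans (nsmul_eq_nsmul_mod_of_nsmul_eq_zero hS j)⟩
    choose F hF using hex
    have hinj : Function.Injective F := fun P Q h => Subtype.ext (by rw [hF P, hF Q, h])
    have := Nat.card_le_card_of_injective F hinj
    rw [hcard, Nat.card_eq_fintype_card, Fintype.card_fin] at this
    nlinarith
  have h2 : p • (k • S - T₀) = 0 := by rw [nsmul_sub, hT, hT₀, sub_zero]
  have hoff2 : ∀ j : ℕ, k • S - T₀ ≠ j • S := fun j hj => hoff (k + (p - 1) * j) (by
    have h1 : (j + (p - 1) * j) • S = 0 := by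
      rw [show j + (p - 1) * j = p * j by
        obtain ⟨q, rfl⟩ : ∃ q, p = q + 1 := ⟨p - 1, by omega⟩
        rw [Nat.add_sub_cancel]; ring, mul_nsmul, hS, nsmul_zero]
    rw [add_nsmul] at h1 ⊢
    rw [eq_neg_of_add_eq_zero_right h1, ← hj]
    abel)
  filter_upwards [(tendsto_add_const (k • S - T₀)).eventually (main T₀ hT₀ hoff),
    main _ h2 hoff2] with Q ha hb
  rw [← hb, ← ha, add_assoc, sub_add_cancel]

/-- The pairing is not identically trivial. -/
theorem exists_wPair_ne_one (hp : Odd p) (hS : p • S = 0) (hS0 : S ≠ 0) (h3 : 3 ≤ p) :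
    ∃ T : W.Point, p • T = 0 ∧ (∀ k : ℕ, T ≠ k • S) ∧ wPair p S T ≠ 1 := by
  by_contra! he
  have hper := fun (T : W.Point) (hT : p • T = 0) => gFun_periodic_all hp hS hS0 h3 he hT
  have hp0 : p ≠ 0 := by omega
  set f := torsFun p S with hf
  set a := pA f with ha
  set b := pB f with hb
  set L : K[X] := C W.a₁ * X + C W.a₃ with hL
  -- the two symmetric functions
  obtain ⟨A₁, B₁, D₁, hD₁, hg⟩ := isRat_gFun hp hS hS0
  have hgneg := (tendsto_neg' (W := W)).eventually hg
  have hs₀ : ∀ᶠ Q : W.Point in cofinite,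
      (gFun p S Q + gFun p S (-Q)) * D₁.eval (px Q) = (2 * A₁ - B₁ * L).eval (px Q) := by
    filter_upwards [hg, hgneg, eventually_ne' 0] with Q h1 h2 h0
    rw [px_neg, py_neg h0, Affine.negY] at h2
    simp only [hL, eval_sub, eval_mul, eval_add, eval_ofNat, eval_C, eval_X]
    linear_combination h1 + h2
  have hm₀ : ∀ᶠ Q : W.Point in cofinite,
      (gFun p S Q * gFun p S (-Q)) * (D₁ ^ 2).eval (px Q) =
        (A₁ ^ 2 - A₁ * B₁ * L -
          B₁ ^ 2 * (X ^ 3 + C W.a₂ * X ^ 2 + C W.a₄ * X + C W.a₆)).eval (px Q) := by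
    filter_upwards [hg, hgneg, eventually_ne' 0] with Q h1 h2 h0
    rw [px_neg, py_neg h0, Affine.negY] at h2
    have he := (W.equation_iff _ _).mp (equation_of_ne_zero h0)
    simp only [hL, eval_sub, eval_mul, eval_add, eval_pow, eval_C, eval_X]
    linear_combination gFun p S (-Q) * D₁.eval (px Q) * h1 +
      (A₁.eval (px Q) + B₁.eval (px Q) * py Q) * h2 - B₁.eval (px Q) ^ 2 * he
  have hper2 : ∀ T : W.Point, p • T = 0 → ∀ᶠ Q in cofinite,
      gFun p S (Q + T) = gFun p S Q ∧ gFun p S (-(Q + T)) = gFun p S (-Q) := fun T hT => by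
    filter_upwards [hper T hT, tendsto_neg'.eventually (hper (-T) (neg_torsion hT))] with Q h1 h2
    exact ⟨h1, by rwa [neg_add]⟩
  obtain ⟨r, w₀, hw₀, hs⟩ := descend hp0 hD₁ hs₀ fun T hT =>
    (hper2 T hT).mono fun Q hQ => by rw [hQ.1, hQ.2]
  obtain ⟨rm, wm, hwm, hm⟩ := descend hp0 (pow_ne_zero 2 hD₁) hm₀ fun T hT =>
    (hper2 T hT).mono fun Q hQ => by rw [hQ.1, hQ.2]
  have hpow : ∀ᶠ Q : W.Point in cofinite,
      gFun p S Q ^ p = pev (p • Q) f ∧ gFun p S (-Q) ^ p = pev (-(p • Q)) f ∧ p • Q ≠ 0 := by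
    filter_upwards [eventually_gen p S, tendsto_neg'.eventually (eventually_gen p S)] with Q h1 h2
    refine ⟨gFun_pow hp hS hS0 h1, ?_, (h1.mul (by omega) (Nat.le_succ p)).1⟩
    rw [gFun_pow hp hS hS0 h2, neg_nsmul]
  -- the product is `ζ (x(S) - X)`
  obtain ⟨ζ, hζ, hζe⟩ : ∃ ζ : K, ζ ≠ 0 ∧ rm = C ζ * ((C (px S) - X) * wm) := by
    refine eq_C_mul_of_pow_eq_pow hp0 (mul_ne_zero ?_ hwm) ?_
    · exact sub_ne_zero.mpr fun h => X_ne_C (px S) h.symm
    refine poly_eq_of_eventually (W := W) hp0 ?_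
    filter_upwards [hm, hpow] with Q hQ ⟨e1, e2, e0⟩
    rw [eval_pow, eval_pow, ← hQ, eval_mul, eval_sub, eval_C, eval_X, mul_pow, mul_pow, mul_pow,
      e1, e2, pev_mul_pev_neg hp hS hS0 e0]
  set M : K[X] := C ζ * (C (px S) - X) with hM
  have hmM : ∀ᶠ Q : W.Point in cofinite,
      gFun p S Q * gFun p S (-Q) = M.eval (px (p • Q)) := by
    filter_upwards [hm, (tendsto_nsmul hp0).eventually (eventually_eval_px_ne_zero hwm)]
      with Q hQ hw
    refine mul_right_cancel₀ hw ?_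
    rw [hQ, hζe, hM]
    simp only [eval_mul, eval_sub, eval_C, eval_X]
    ring
  -- make the fraction for the sum reduced
  obtain ⟨r', w', g₀, hcop, hr', hw'⟩ := exists_reduced_frac (r := r) hw₀
  have hg₀ : g₀ ≠ 0 := by rintro rfl; simp at hw'; exact hw₀ hw'
  have hw'0 : w' ≠ 0 := by rintro rfl; simp at hw'; exact hw₀ hw'
  have hs' : ∀ᶠ Q : W.Point in cofinite,
      (gFun p S Q + gFun p S (-Q)) * w'.eval (px (p • Q)) = r'.eval (px (p • Q)) := by
    filter_upwards [hs, (tendsto_nsmul hp0).eventually (eventually_eval_px_ne_zero hg₀)]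
      with Q hQ hg0
    refine mul_right_cancel₀ hg0 ?_
    rw [hr', hw', eval_mul, eval_mul] at hQ
    linear_combination hQ
  -- the trace of `f` shows the denominator is constant
  have htr : powerSum r' (M * w' ^ 2) p = w' ^ p * (2 * a - b * L) := by
    refine poly_eq_of_eventually (W := W) hp0 ?_
    filter_upwards [hs', hmM, hpow] with Q hQ hQm ⟨e1, e2, e0⟩
    rw [← coe_evalRingHom, map_powerSum, coe_evalRingHom, eval_mul, eval_pow, ← hQ, ← hQm,
      mul_comm _ (eval _ w'), mul_comm (gFun p S Q * gFun p S (-Q)), powerSum_scale, powerSum_eq,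
      e1, e2, eval_mul, eval_pow, pev_eq e0, pev_eq (neg_ne_zero.mpr e0), px_neg, py_neg e0,
      Affine.negY, ← ha, ← hb]
    simp only [hL, eval_sub, eval_mul, eval_add, eval_ofNat, eval_C, eval_X]
    ring
  have hw'unit : IsUnit w' := by
    have hdvd : w' ∣ r' ^ p := by
      have h1 := dvd_powerSum_sub_pow r' w' M p (by omega)
      have h2 : w' ∣ powerSum r' (M * w' ^ 2) p :=
        htr ▸ dvd_mul_of_dvd_left (dvd_pow_self w' hp0) _
      simpa using dvd_sub h2 h1
    exact (hcop.pow_left (m := p)).symm.isUnit_of_dvd' dvd_rfl hdvd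
  obtain ⟨cw, hcw, rfl⟩ := Polynomial.isUnit_iff.mp hw'unit
  set S₀ : K[X] := C cw⁻¹ * r' with hS₀
  have hsS : ∀ᶠ Q : W.Point in cofinite,
      gFun p S Q + gFun p S (-Q) = S₀.eval (px (p • Q)) := by
    filter_upwards [hs'] with Q hQ
    rw [hS₀, eval_mul, eval_C, ← hQ, eval_C]
    field_simp [hcw.ne_zero]
  -- the difference
  have hdiff : (S₀ ^ 2 - 4 * M) * powerQuot S₀ M p ^ 2 = b ^ 2 * W.Ψ₂Sq := by
    refine poly_eq_of_eventually (W := W) hp0 ?_
    filter_upwards [hsS, hmM, hpow] with Q hQ hQm ⟨e1, e2, e0⟩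
    have hq := powerQuot_eq (gFun p S Q) (gFun p S (-Q)) p
    rw [e1, e2, pev_eq e0, pev_eq (neg_ne_zero.mpr e0), px_neg, py_neg e0, Affine.negY, ← ha,
      ← hb] at hq
    simp only [eval_mul, eval_pow, eval_sub, eval_ofNat]
    rw [← sq_two_mul_py e0, ← coe_evalRingHom, map_powerQuot, coe_evalRingHom, ← hQ, ← hQm]
    have hq2 := congrArg (· ^ 2) hq
    simp only [mul_pow] at hq2
    linear_combination hq2
  have hb0 : b ≠ 0 := by
    intro h0
    have h := natDegree_top_torsFun hS hS0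
    have hel : torsFun p S = el W a 0 := by rw [← h0]; exact (el_pA_pB _).symm
    rw [hel, top_el, map_zero, zero_mul, add_zero, natDegree_expand] at h
    obtain ⟨m, hm⟩ := hp
    omega
  -- degrees
  have hne : W.Ψ₂Sq ≠ 0 := W.Ψ₂Sq_ne_zero (by norm_num)
  have hrhs : b ^ 2 * W.Ψ₂Sq ≠ 0 := mul_ne_zero (pow_ne_zero 2 hb0) hne
  have hl0 : S₀ ^ 2 - 4 * M ≠ 0 := left_ne_zero_of_mul (hdiff.symm ▸ hrhs)
  have hU0 : powerQuot S₀ M p ≠ 0 := fun h => hrhs (by rw [← hdiff, h]; simp)
  have hdeg := congrArg natDegree hdiff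
  rw [natDegree_mul hl0 (pow_ne_zero 2 hU0), natDegree_mul (pow_ne_zero 2 hb0) hne, natDegree_pow,
    natDegree_pow, W.natDegree_Ψ₂Sq (by norm_num)] at hdeg
  have h4M : (4 * M).natDegree = 1 := by
    rw [hM, show (4 : K[X]) = C 4 from (map_ofNat C 4).symm, ← mul_assoc, ← C_mul,
      natDegree_C_mul (mul_ne_zero (by norm_num) hζ)]
    compute_degree!
  have hS₀d : S₀.natDegree = 0 := by
    by_contra hd
    have : (S₀ ^ 2 - 4 * M).natDegree = 2 * S₀.natDegree := by
      rw [natDegree_sub_eq_left_of_natDegree_lt (by rw [natDegree_pow, h4M]; omega), natDegree_pow]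
    omega
  have hl1 : (S₀ ^ 2 - 4 * M).natDegree = 1 := by
    rw [natDegree_sub_eq_right_of_natDegree_lt (by rw [natDegree_pow, h4M]; omega), h4M]
  obtain ⟨rs, hrs, hroots⟩ := three_roots (W := W)
  obtain ⟨r₀, hr₀, hnr⟩ : ∃ r₀ ∈ rs, (S₀ ^ 2 - 4 * M).eval r₀ ≠ 0 := by
    by_contra! hall
    have h := eq_zero_of_natDegree_lt_card_of_eval_eq_zero' (S₀ ^ 2 - 4 * M) rs hall
      (by rw [hl1, hrs]; norm_num)
    exact hl0 h
  have hmult := congrArg (rootMultiplicity r₀) hdiff
  rw [rootMultiplicity_mul (mul_ne_zero hl0 (pow_ne_zero 2 hU0)),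
    rootMultiplicity_mul hrhs, rootMultiplicity_eq_zero hnr, (hroots r₀ hr₀).2, zero_add,
    ← count_roots, ← count_roots, roots_pow, roots_pow, Multiset.count_nsmul,
    Multiset.count_nsmul] at hmult
  omega
where
  exists_reduced_frac {r w : K[X]} (hw : w ≠ 0) : ∃ r' w' g : K[X],
      IsCoprime r' w' ∧ r = r' * g ∧ w = w' * g := by
    obtain ⟨r', w', g, hcop, h1, h2⟩ :=
      UniqueFactorizationMonoid.exists_reduced_factors' r w hw
    exact ⟨r', w', g, isCoprime_of_dvd _ _ (fun h => by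
      rw [h.2, mul_zero] at h2; exact hw h2.symm) (fun z hz _ ha hb => hz (hcop ha hb)),
      by rw [← h1, mul_comm], by rw [← h2, mul_comm]⟩

end Field

end FLTAgent.EllTorsion

end
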