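import Mathlib.LinearAlgebra.Determinant
import Mathlib.LinearAlgebra.FiniteDimensional.Lemmas
import Mathlib.Algebra.Field.ZMod
import Mathlib.Tactic.LinearCombination
import Mathlib.Tactic.FieldSimp

/-!
# An alternating function on independent pairs in a plane over `ZMod p` transforms by the
determinant

`PairAxioms` lists the properties used; `PairAxioms.comb` computes the value at two combinations
of an independent pair, and `PairAxioms.map_linearMap` gives
`e (g S) (g T) = e S T ^ det g`.
-/

noncomputable section

namespace FLTAgent.EllTorsion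

variable {p : ℕ} [Fact p.Prime] {V K : Type*} [AddCommGroup V] [Module (ZMod p) V] [Field K]

/-- The hypotheses satisfied by the square of Miller's expression. -/
structure PairAxioms (e : V → V → K) : Prop where
  swap : ∀ S T, e T S = (e S T)⁻¹
  ne_zero : ∀ S T, LinearIndependent (ZMod p) ![S, T] → e S T ≠ 0
  neg : ∀ S T, LinearIndependent (ZMod p) ![S, T] → e S (-T) = (e S T)⁻¹
  step : ∀ S T, LinearIndependent (ZMod p) ![S, T] → e S (S + T) = e S T
  add : ∀ S T, LinearIndependent (ZMod p) ![S, T] → ∀ j : ℕ, (j : ZMod p) ≠ 0 →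
    ((j + 1 : ℕ) : ZMod p) ≠ 0 → e S ((j + 1) • T) = e S (j • T) * e S T

variable {e : V → V → K} (h : PairAxioms (p := p) e)

omit [Field K] in
theorem indep_comb {S T : V} (hi : LinearIndependent (ZMod p) ![S, T]) {a b c d : ZMod p}
    (hd : a * d - b * c ≠ 0) :
    LinearIndependent (ZMod p) ![a • S + b • T, c • S + d • T] :=
  LinearIndependent.pair_iff.mpr fun u v huv => by
    have h0 : (u * a + v * c) • S + (u * b + v * d) • T = 0 := by
      rw [← huv]; simp only [smul_add, add_smul, smul_smul]; abel
    obtain ⟨e1, e2⟩ := LinearIndependent.pair_iff.mp hi _ _ h0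
    have hu : u * (a * d - b * c) = 0 := by linear_combination d * e1 - c * e2
    have hv : v * (a * d - b * c) = 0 := by linear_combination a * e2 - b * e1
    exact ⟨(mul_eq_zero.mp hu).resolve_right hd, (mul_eq_zero.mp hv).resolve_right hd⟩

include h

theorem PairAxioms.smul_right {S T : V} (hi : LinearIndependent (ZMod p) ![S, T]) (j : ℕ)
    (h0 : 1 ≤ j) (hj : j < p) : e S (j • T) = e S T ^ j := by
  induction j, h0 using Nat.le_induction with
  | base => rw [one_nsmul, pow_one]
  | succ j h1 ih =>
    have hne : ∀ i : ℕ, 0 < i → i < p → (i : ZMod p) ≠ 0 := fun i hi0 hip h' =>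
      absurd (Nat.le_of_dvd hi0 ((ZMod.natCast_eq_zero_iff i p).mp h')) (by omega)
    rw [h.add S T hi j (hne j h1 (by omega)) (hne (j + 1) (by omega) hj), ih (by omega), pow_succ]

theorem PairAxioms.pow_eq_one {S T : V} (hi : LinearIndependent (ZMod p) ![S, T]) :
    e S T ^ p = 1 := by
  have hp := (Fact.out : p.Prime).two_le
  have h1 := h.smul_right hi (p - 1) (by omega) (by omega)
  rw [← Nat.cast_smul_eq_nsmul (ZMod p), Nat.cast_sub (by omega), ZMod.natCast_self, Nat.cast_one,
    zero_sub, neg_one_smul, h.neg S T hi] at h1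
  rw [show p = p - 1 + 1 by omega, pow_succ, ← h1, inv_mul_cancel₀ (h.ne_zero S T hi)]

theorem PairAxioms.add_smul_left {S T : V} (hi : LinearIndependent (ZMod p) ![S, T]) (i : ℕ) :
    e S (i • S + T) = e S T := by
  induction i with
  | zero => rw [zero_nsmul, zero_add]
  | succ i ih =>
    have hi' : LinearIndependent (ZMod p) ![S, i • S + T] := by
      have := indep_comb hi (a := 1) (b := 0) (c := (i : ZMod p)) (d := 1) (by simp)
      simpa [Nat.cast_smul_eq_nsmul] using this
    rw [succ_nsmul', add_assoc, h.step S _ hi', ih]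

theorem PairAxioms.comb_right {S T : V} (hi : LinearIndependent (ZMod p) ![S, T]) (a b : ZMod p)
    (hb : b ≠ 0) : e S (a • S + b • T) = e S T ^ b.val := by
  have hi' : LinearIndependent (ZMod p) ![S, b • T] := by
    have := indep_comb hi (a := 1) (b := 0) (c := 0) (d := b) (by simpa using hb)
    simpa using this
  rw [← ZMod.natCast_zmod_val a, Nat.cast_smul_eq_nsmul, h.add_smul_left hi']
  have hb' : 1 ≤ b.val := Nat.one_le_iff_ne_zero.mpr fun h0 => hb ((ZMod.val_eq_zero b).mp h0)
  rw [← h.smul_right hi b.val hb' (ZMod.val_lt b), ← Nat.cast_smul_eq_nsmul (ZMod p),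
    ZMod.natCast_zmod_val]

theorem PairAxioms.comb {S T : V} (hi : LinearIndependent (ZMod p) ![S, T]) (a b c d : ZMod p)
    (hd : a * d - b * c ≠ 0) :
    e (a • S + b • T) (c • S + d • T) = e S T ^ (a * d - b * c).val := by
  have hne := h.ne_zero S T hi
  have hpow := h.pow_eq_one hi
  set w := e S T
  have pmul : ∀ x y : ZMod p, (w ^ x.val) ^ y.val = w ^ (x * y).val := fun x y => by
    rw [← pow_mul, pow_eq_pow_mod _ hpow, ← ZMod.val_mul]
  have pneg : ∀ x : ZMod p, (w ^ x.val)⁻¹ = w ^ (-x).val := fun x => by
    refine inv_eq_of_mul_eq_one_right ?_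
    rw [← pow_add, pow_eq_pow_mod _ hpow, ← ZMod.val_add, add_neg_cancel, ZMod.val_zero, pow_zero]
  by_cases hb : b = 0
  · subst hb
    have hswap : LinearIndependent (ZMod p) ![T, S] := LinearIndependent.pair_symm_iff.mp hi
    rw [zero_mul, sub_zero] at hd ⊢
    have ha := left_ne_zero_of_mul hd
    have hd' := right_ne_zero_of_mul hd
    have hU : LinearIndependent (ZMod p) ![a • S, T] := by
      have := indep_comb hi (a := a) (b := 0) (c := 0) (d := 1) (by simpa using ha)
      simpa using this
    have hw : e (a • S) T = w ^ a.val := by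
      have h1 : e T (a • S) = e T S ^ a.val := by simpa using h.comb_right hswap 0 a ha
      rw [h.swap T (a • S), h1, h.swap S T, inv_pow, inv_inv]
    rw [zero_smul, add_zero, show c • S + d • T = (c / a) • (a • S) + d • T by
      rw [smul_smul, div_mul_cancel₀ _ ha], h.comb_right hU _ _ hd', hw, pmul]
  · have hU : LinearIndependent (ZMod p) ![a • S + b • T, S] := by
      have := indep_comb hi (a := a) (b := b) (c := 1) (d := 0) (by simpa using hb)
      simpa using this
    have hc : c - a * d / b ≠ 0 := by
      intro h0; apply hd; field_simp at h0; linear_combination -h0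
    have he : c • S + d • T = (d / b) • (a • S + b • T) + (c - a * d / b) • S := by
      rw [smul_add, smul_smul, smul_smul, div_mul_cancel₀ _ hb, sub_smul,
        show d / b * a = a * d / b by ring]
      abel
    rw [he, h.comb_right hU _ _ hc, h.swap S (a • S + b • T), h.comb_right hi a b hb, pneg, pmul]
    congr 2
    field_simp
    ring

/-- Transformation of the pairing under a linear automorphism. -/
theorem PairAxioms.map_linearMap (hfin : Module.finrank (ZMod p) V = 2) {S T : V}
    (hi : LinearIndependent (ZMod p) ![S, T]) (g : V →ₗ[ZMod p] V)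
    (hg : LinearMap.det g ≠ 0) :
    e (g S) (g T) = e S T ^ (LinearMap.det g).val := by
  let bas := basisOfLinearIndependentOfCardEqFinrank hi (by rw [hfin, Fintype.card_fin])
  have hbas : ⇑bas = ![S, T] := coe_basisOfLinearIndependentOfCardEqFinrank _ _
  have hrepr : ∀ v, v = bas.repr v 0 • S + bas.repr v 1 • T := fun v => by
    conv_lhs => rw [← bas.sum_repr v]
    simp [Fin.sum_univ_two, hbas]
  have hdet : LinearMap.det g =
      bas.repr (g S) 0 * bas.repr (g T) 1 - bas.repr (g S) 1 * bas.repr (g T) 0 := by
    rw [← LinearMap.det_toMatrix bas, Matrix.det_fin_two]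
    simp only [LinearMap.toMatrix_apply, hbas, Matrix.cons_val_zero, Matrix.cons_val_one,
      Matrix.cons_val_fin_one]
    ring
  rw [hdet] at hg ⊢
  conv_lhs => rw [hrepr (g S), hrepr (g T)]
  exact h.comb hi _ _ _ _ hg

end FLTAgent.EllTorsion

end
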