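import Fermat.Agent.EllTorsion.Galois
import Fermat.Agent.EllTorsion.Nondeg
import Fermat.Agent.EllTorsion.PairingLinAlg
import Fermat.Agent.EllTorsion.Equivariance
import Fermat.Prelude.Def_FreyPackage_DetCyclotomic

/-!
# The determinant of the mod `p` representation is the cyclotomic character

`galoisRepDetEqCyclotomic`: for an elliptic curve over `ℚ` and a prime `p`, the determinant of the
Galois action on `p`-torsion is the mod `p` cyclotomic character. For odd `p` the square of
Miller's expression satisfies `PairAxioms` (`pairAxioms`), is nontrivial on some basis and commutes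
with automorphisms, so a linear map raises it to the power of its determinant.
`det_galoisRepModuleEnd` restates this for `galoisRepModuleEnd`.
-/

noncomputable section

open WeierstrassCurve WeierstrassCurve.Affine.Point
open scoped WeierstrassCurve.Affine

namespace FLTAgent.EllTorsion

local notation "Qbar" => AlgebraicClosure ℚ

theorem card_rootsOfUnity_Qbar (p : ℕ) [Fact p.Prime] :
    Nat.card (rootsOfUnity p Qbar) = p :=
  IsAlgClosed.card_rootsOfUnity_eq Qbar p

section Axioms

variable {K : Type*} [Field K] [DecidableEq K] [IsAlgClosed K] {W : Affine K} [W.IsElliptic]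
  {p : ℕ} [Fact p.Prime] [Module (ZMod p) (Submodule.torsionBy ℤ W.Point p)]

omit [IsAlgClosed K] [W.IsElliptic] in
theorem coe_torsion_nsmul_eq_zero (P : Submodule.torsionBy ℤ W.Point p) :
    p • (P : W.Point) = 0 := by
  rw [← natCast_zsmul]
  exact P.2

omit [IsAlgClosed K] [W.IsElliptic] in
theorem coe_comb_ne_zero {S T : Submodule.torsionBy ℤ W.Point p}
    (hi : LinearIndependent (ZMod p) ![S, T]) (a b : ZMod p) (h : a ≠ 0 ∨ b ≠ 0) :
    ((a • S + b • T : Submodule.torsionBy ℤ W.Point p) : W.Point) ≠ 0 := fun h0 => by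
  obtain ⟨ha, hb⟩ := LinearIndependent.pair_iff.mp hi a b (Subtype.ext h0)
  exact h.elim (fun h => h ha) (fun h => h hb)

omit [IsAlgClosed K] [W.IsElliptic] in
/-- A nontrivial multiple of `T` avoids `0`, `S` and `-S`. -/
theorem coe_smul_avoid {S T : Submodule.torsionBy ℤ W.Point p}
    (hi : LinearIndependent (ZMod p) ![S, T]) (c : ZMod p) (hc : c ≠ 0) :
    ((c • T : Submodule.torsionBy ℤ W.Point p) : W.Point) ≠ 0 ∧
      ((c • T : Submodule.torsionBy ℤ W.Point p) : W.Point) ≠ S ∧
      ((c • T : Submodule.torsionBy ℤ W.Point p) : W.Point) ≠ -(S : W.Point) := by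
  refine ⟨fun h => ?_, fun h => ?_, fun h => ?_⟩
  · exact coe_comb_ne_zero hi 0 c (Or.inr hc) (by simpa using h)
  · exact coe_comb_ne_zero hi (-1) c (Or.inr hc) (by simp [h])
  · exact coe_comb_ne_zero hi 1 c (Or.inr hc) (by simp [h])

/-- The pairing on torsion points satisfies the axioms. -/
theorem pairAxioms (hp : Odd p) :
    PairAxioms (p := p) (fun S T : Submodule.torsionBy ℤ W.Point p =>
      wPair p (S : W.Point) (T : W.Point)) where
  swap S T := wPair_swap _ _
  ne_zero S T hi := by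
    obtain ⟨h1, h2, -⟩ := coe_smul_avoid hi 1 one_ne_zero
    simp only [one_smul] at h1 h2
    have hS : (S : W.Point) ≠ 0 := by
      simpa using coe_comb_ne_zero hi 1 0 (Or.inl one_ne_zero)
    exact wPair_ne_zero hp.pos.ne' (coe_torsion_nsmul_eq_zero S) hS (coe_torsion_nsmul_eq_zero T) h1 h2
  neg S T hi := by
    obtain ⟨h1, h2, h3⟩ := coe_smul_avoid hi 1 one_ne_zero
    simp only [one_smul] at h1 h2 h3
    have hS : (S : W.Point) ≠ 0 := by
      simpa using coe_comb_ne_zero hi 1 0 (Or.inl one_ne_zero)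
    simpa using wPair_neg_right hp (coe_torsion_nsmul_eq_zero S) hS (coe_torsion_nsmul_eq_zero T)
      h1 h2 h3
  step S T hi := by
    obtain ⟨h1, h2, h3⟩ := coe_smul_avoid hi 1 one_ne_zero
    simp only [one_smul] at h1 h2 h3
    have hS : (S : W.Point) ≠ 0 := by
      simpa using coe_comb_ne_zero hi 1 0 (Or.inl one_ne_zero)
    have hsum : (S : W.Point) + T ≠ 0 := fun h => h3 (eq_neg_of_add_eq_zero_right h)
    have hsum1 : (S : W.Point) + T ≠ S := fun h => h1 (by simpa using h)
    have hsum2 : (S : W.Point) + T ≠ -(S : W.Point) := fun h => by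
      refine coe_comb_ne_zero hi 2 1 (Or.inr one_ne_zero) ?_
      rw [eq_neg_iff_add_eq_zero] at h
      simp only [two_smul, one_smul, Submodule.coe_add]
      rw [← h]; abel
    have hST : p • ((S : W.Point) + T) = 0 := by
      rw [nsmul_add, coe_torsion_nsmul_eq_zero, coe_torsion_nsmul_eq_zero, add_zero]
    have hmul := wPair_mul_eq_one hp (coe_torsion_nsmul_eq_zero S) hS (A := (T : W.Point))
      (B := -((S : W.Point) + T)) (coe_torsion_nsmul_eq_zero T) (neg_torsion hST) (by abel) h1
      (neg_ne_zero.mpr hsum) h2 h3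
      (fun h => hsum2 (neg_eq_iff_eq_neg.mp h)) (fun h => hsum1 (neg_injective h))
    rw [wPair_neg_right hp (coe_torsion_nsmul_eq_zero S) hS hST hsum hsum1 hsum2] at hmul
    exact (eq_of_mul_inv_eq_one hmul).symm
  add S T hi j hj hj1 := by
    obtain ⟨h1, h2, -⟩ := coe_smul_avoid hi 1 one_ne_zero
    simp only [one_smul] at h1 h2
    obtain ⟨a1, a2, -⟩ := coe_smul_avoid hi _ hj
    obtain ⟨b1, b2, b3⟩ := coe_smul_avoid hi _ hj1
    simp only [Nat.cast_smul_eq_nsmul, AddSubmonoidClass.coe_nsmul] at a1 a2 b1 b2 b3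
    have hS : (S : W.Point) ≠ 0 := by
      simpa using coe_comb_ne_zero hi 1 0 (Or.inl one_ne_zero)
    simp only [AddSubmonoidClass.coe_nsmul]
    rw [succ_nsmul] at b1 b2 b3 ⊢
    refine wPair_add_right hp (coe_torsion_nsmul_eq_zero S) hS ?_ (coe_torsion_nsmul_eq_zero T)
      a1 h1 b1 a2 h2 b2 b3
    rw [← mul_nsmul', mul_comm, mul_nsmul', coe_torsion_nsmul_eq_zero, nsmul_zero]

end Axioms

/-- The determinant of the representation on `E[p]` is the mod `p` cyclotomic character. -/
theorem galoisRepDetEqCyclotomic (W : WeierstrassCurve ℚ) [W.IsElliptic] (p : ℕ) [Fact p.Prime]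
    (hp : Nat.card (rootsOfUnity p Qbar) = p) :
    GaloisRepDetEqCyclotomic (K := Qbar) ℚ W p hp := by
  rcases (Fact.out : p.Prime).eq_two_or_odd' with rfl | hodd
  · exact galoisRepDetEqCyclotomic_two hp
  have : (W⁄Qbar).IsElliptic := inferInstanceAs (W.map (algebraMap ℚ Qbar)).IsElliptic
  have hprime : p.Prime := Fact.out
  have h3 : 3 ≤ p := by
    obtain ⟨m, hm⟩ := hodd
    have := hprime.two_le
    omega
  intro σ
  -- a basis on which the pairing is nontrivial
  have := nontrivial_torsionBy_rat W p hprime.two_le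
  obtain ⟨S, hS⟩ := exists_ne (0 : Submodule.torsionBy ℤ (W⁄Qbar).Point p)
  have hS0 : (S : (W⁄Qbar).Point) ≠ 0 := fun h => hS (Subtype.ext h)
  obtain ⟨T₀, hT₀, hoff, hne⟩ :=
    exists_wPair_ne_one hodd (coe_torsion_nsmul_eq_zero S) hS0 h3
  let T : Submodule.torsionBy ℤ (W⁄Qbar).Point p :=
    ⟨T₀, by rw [Submodule.mem_torsionBy_iff, natCast_zsmul]; exact hT₀⟩
  have hi : LinearIndependent (ZMod p) ![S, T] := by
    refine (LinearIndependent.pair_iff' hS).mpr fun a h => hoff a.val ?_
    have := congrArg Subtype.val h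
    rw [← ZMod.natCast_zmod_val a, Nat.cast_smul_eq_nsmul, AddSubmonoidClass.coe_nsmul] at this
    exact this.symm
  have hax := pairAxioms (W := W⁄Qbar) (p := p) hodd
  set g := galoisRepDet (S := ℚ) (K := Qbar) W p σ with hg
  -- the image under `σ`
  have hwp := hax.pow_eq_one hi
  have hdet := hax.map_linearMap (finrank_torsionBy_rat W p) hi
    (galoisRepModuleEnd (K := Qbar) ℚ W p σ) (by
      have h : LinearMap.det (galoisRepModuleEnd (K := Qbar) ℚ W p σ) = (g : ZMod p) := by
        rw [hg, galoisRepDet_apply, LinearEquiv.coe_det]; rfl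
      rw [h]
      exact g.ne_zero)
  have hgdet : LinearMap.det (galoisRepModuleEnd (K := Qbar) ℚ W p σ) = (g : ZMod p) := by
    rw [hg, galoisRepDet_apply, LinearEquiv.coe_det]; rfl
  rw [hgdet] at hdet
  set w := wPair p (S : (W⁄Qbar).Point) (T : (W⁄Qbar).Point) with hw
  have hmap : wPair p ((galoisRepModuleEnd (K := Qbar) ℚ W p σ S :) : (W⁄Qbar).Point)
      ((galoisRepModuleEnd (K := Qbar) ℚ W p σ T :) : (W⁄Qbar).Point) = σ w := by
    have hσ : ∀ x : ℚ, σ (algebraMap ℚ Qbar x) = algebraMap ℚ Qbar x := σ.commutes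
    rw [galoisRepModuleEnd_apply, galoisRepModuleEnd_apply]
    change wPair p (σ • (S : (W⁄Qbar).Point)) (σ • (T : (W⁄Qbar).Point)) = _
    have hTne : (T : (W⁄Qbar).Point) ≠ 0 := fun h => hoff 0 (by rw [zero_nsmul]; exact h)
    obtain ⟨x, y, h, hSe⟩ := exists_some_of_ne_zero hS0
    obtain ⟨x₂, y₂, h₂, hTe⟩ := exists_some_of_ne_zero hTne
    have hsS : p • (σ • (S : (W⁄Qbar).Point)) = 0 := by
      rw [← natCast_zsmul]; exact smul_mem_torsionBy σ S.2
    have hsT : p • (σ • (T : (W⁄Qbar).Point)) = 0 := by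
      rw [← natCast_zsmul]; exact smul_mem_torsionBy σ T.2
    have pS := coe_torsion_nsmul_eq_zero S
    have pT := coe_torsion_nsmul_eq_zero T
    rw [hw]
    rw [hSe] at hsS pS ⊢
    rw [hTe] at hsT pT ⊢
    exact wPair_map (W := W⁄Qbar) (σ := (σ : Qbar →+* Qbar))
      (by refine ⟨?_, ?_, ?_, ?_, ?_⟩ <;> exact hσ _) pS pT hsS hsT
  rw [hmap] at hdet
  -- the action on the root of unity
  have hw1 : w ≠ 1 := hne
  have hwu : w ≠ 0 := hax.ne_zero S T hi
  have hmem : Units.mk0 w hwu ∈ rootsOfUnity p Qbar := by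
    rw [mem_rootsOfUnity]
    exact Units.ext (by rw [Units.val_pow_eq_pow_val]; exact hwp)
  have hχ := modularCyclotomicCharacter.spec Qbar hp (σ : Qbar ≃+* Qbar) hmem
  rw [Units.val_mk0] at hχ
  change σ w = _ at hχ
  rw [hχ] at hdet
  have hord : orderOf w = p := orderOf_eq_prime hwp hw1
  apply Units.ext
  apply ZMod.val_injective p
  have hprim : IsPrimitiveRoot w p := hord ▸ IsPrimitiveRoot.orderOf w
  exact (hprim.pow_inj (ZMod.val_lt _) (ZMod.val_lt _) hdet).symm

/-- Version with `LinearMap.det` of `galoisRepModuleEnd`. -/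
theorem det_galoisRepModuleEnd (W : WeierstrassCurve ℚ) [W.IsElliptic] (p : ℕ) [Fact p.Prime]
    (σ : Qbar ≃ₐ[ℚ] Qbar) :
    LinearMap.det (galoisRepModuleEnd (K := Qbar) ℚ W p σ) =
      ((modularCyclotomicCharacter Qbar (card_rootsOfUnity_Qbar p)
        (σ : Qbar ≃+* Qbar) : (ZMod p)ˣ) : ZMod p) := by
  rw [← galoisRepDetEqCyclotomic W p (card_rootsOfUnity_Qbar p) σ, galoisRepDet_apply,
    LinearEquiv.coe_det]
  rfl

end FLTAgent.EllTorsion

end
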