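import Fermat.Agent.EllTorsion.Card
import Fermat.Prelude.Def_FLTPrelim_GaloisRep
import Fermat.Prelude.Def_EllipticCurve_FrobeniusTrace
import Fermat.Prelude.Def_GaloisRep_Residual
import Mathlib.FieldTheory.KrullTopology

/-!
# Torsion of an elliptic curve over `ℚ` as a Galois module

The `n`-torsion over the algebraic closure has `n ^ 2` elements (`natCard_torsionBy_rat`), rank `2`
for prime `n` (`finrank_torsionBy_rat`), and the Galois action on it factors through a finite
extension (`galoisRepModuleEnd_factorsThroughFiniteLevel`), so has open kernel and stabilisers.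

`W⁄(AlgebraicClosure ℚ)` is `W.map (algebraMap ℚ _)`; for an integral model `W₀` use these
results with `W := W₀.map (Int.castRingHom ℚ)` and `isElliptic_map_rat`.
-/

noncomputable section

open WeierstrassCurve WeierstrassCurve.Affine.Point Polynomial
open scoped WeierstrassCurve.Affine

namespace FLTAgent.EllTorsion

local notation "Qbar" => AlgebraicClosure ℚ

theorem isElliptic_of_Δ_ne_zero {K : Type*} [Field K] {W : WeierstrassCurve K} (h : W.Δ ≠ 0) :
    W.IsElliptic :=
  (isElliptic_iff _).mpr (isUnit_iff_ne_zero.mpr h)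

theorem isElliptic_map_rat {W : WeierstrassCurve ℤ} (h : W.Δ ≠ 0) :
    (W.map (Int.castRingHom ℚ)).IsElliptic :=
  isElliptic_of_Δ_ne_zero (by rw [map_Δ]; exact Int.cast_ne_zero.mpr h)

variable (W : WeierstrassCurve ℚ) [W.IsElliptic]

theorem natCard_torsionBy_rat (n : ℕ) (hn : n ≠ 0) :
    Nat.card (Submodule.torsionBy ℤ (W⁄Qbar).Point n) = n ^ 2 := by
  have : (W⁄Qbar).IsElliptic := inferInstanceAs (W.map (algebraMap ℚ Qbar)).IsElliptic
  exact natCard_torsionBy (W := W⁄Qbar) n (Nat.cast_ne_zero.mpr hn)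

theorem finite_torsionBy_rat (n : ℕ) (hn : n ≠ 0) :
    Finite (Submodule.torsionBy ℤ (W⁄Qbar).Point n) :=
  Nat.finite_of_card_ne_zero (natCard_torsionBy_rat W n hn ▸ pow_ne_zero 2 hn)

theorem nontrivial_torsionBy_rat (n : ℕ) (hn : 2 ≤ n) :
    Nontrivial (Submodule.torsionBy ℤ (W⁄Qbar).Point n) := by
  have := finite_torsionBy_rat W n (by omega)
  exact Finite.one_lt_card_iff_nontrivial.mp
    (natCard_torsionBy_rat W n (by omega) ▸ Nat.one_lt_pow (by norm_num) (by omega))

theorem finrank_torsionBy_rat (p : ℕ) [Fact p.Prime] :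
    Module.finrank (ZMod p) (Submodule.torsionBy ℤ (W⁄Qbar).Point p) = 2 := by
  have hp := Fact.out (p := p.Prime)
  have := finite_torsionBy_rat W p hp.ne_zero
  have h := Module.natCard_eq_pow_finrank (K := ZMod p)
    (V := Submodule.torsionBy ℤ (W⁄Qbar).Point p)
  rw [natCard_torsionBy_rat W p hp.ne_zero, Nat.card_zmod] at h
  exact (Nat.pow_right_injective hp.two_le h).symm

theorem moduleFinite_torsionBy_rat (p : ℕ) [Fact p.Prime] :
    Module.Finite (ZMod p) (Submodule.torsionBy ℤ (W⁄Qbar).Point p) :=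
  Module.finite_of_finrank_eq_succ (finrank_torsionBy_rat W p)

/-- A finite extension whose fixing group acts trivially on the `n`-torsion. -/
theorem exists_finiteLevel_smul_eq (n : ℕ) (hn : n ≠ 0) :
    ∃ L : IntermediateField ℚ Qbar, FiniteDimensional ℚ L ∧
      ∀ σ : Qbar ≃ₐ[ℚ] Qbar, (∀ x ∈ L, σ x = x) →
        ∀ P : Submodule.torsionBy ℤ (W⁄Qbar).Point n, σ • P = P := by
  have := finite_torsionBy_rat W n hn
  have := Fintype.ofFinite (Submodule.torsionBy ℤ (W⁄Qbar).Point n)
  let coords : (W⁄Qbar).Point → Finset Qbar := fun P => match P with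
    | .zero => ∅
    | .some x y _ => {x, y}
  let T : Finset Qbar :=
    Finset.univ.biUnion fun P : Submodule.torsionBy ℤ (W⁄Qbar).Point n => coords P.1
  refine ⟨IntermediateField.adjoin ℚ (T : Set Qbar),
    IntermediateField.finiteDimensional_adjoin fun x _ =>
      ((AlgebraicClosure.isAlgebraic ℚ).isAlgebraic x).isIntegral,
    fun σ hσ P => ?_⟩
  have hT : ∀ x ∈ coords P.1, σ x = x := fun x hx =>
    hσ x (IntermediateField.subset_adjoin ℚ _ (Finset.mem_biUnion.mpr ⟨P, Finset.mem_univ P, hx⟩))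
  apply Subtype.ext
  change σ • (P : (W⁄Qbar).Point) = P
  obtain ⟨Q, hQ⟩ := P
  rcases Q with _ | ⟨x, y, h⟩
  · rfl
  · change Affine.Point.some (σ x) (σ y) _ = Affine.Point.some x y h
    simp only [coords] at hT
    simp only [hT x (by simp), hT y (by simp)]

/-- The action on the `n`-torsion factors through a finite extension of `ℚ`. -/
theorem galoisRepModuleEnd_factorsThroughFiniteLevel (n : ℕ) (hn : n ≠ 0) :
    GaloisFactorsThroughFiniteLevel
      (galoisRepModuleEnd (K := Qbar) ℚ W n) := by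
  obtain ⟨L, hL, h⟩ := exists_finiteLevel_smul_eq W n hn
  exact ⟨L, hL, fun σ hσ => LinearMap.ext fun P => h σ hσ P⟩

/-- The kernel of the action on the `n`-torsion is open. -/
theorem isOpen_ker_galoisRepModuleEnd (n : ℕ) (hn : n ≠ 0) :
    IsOpen ((galoisRepModuleEnd (K := Qbar) ℚ W n).ker : Set (Qbar ≃ₐ[ℚ] Qbar)) := by
  obtain ⟨L, hL, h⟩ := exists_finiteLevel_smul_eq W n hn
  refine Subgroup.isOpen_mono (H₁ := L.fixingSubgroup) ?_
    (IntermediateField.fixingSubgroup_isOpen L)
  intro σ hσ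
  exact LinearMap.ext fun P =>
    h σ (fun x hx => (IntermediateField.mem_fixingSubgroup_iff L σ).mp hσ x hx) P

/-- The stabiliser of every torsion point is open. -/
theorem isOpen_stabilizer_torsionBy (n : ℕ) (hn : n ≠ 0)
    (P : Submodule.torsionBy ℤ (W⁄Qbar).Point n) :
    IsOpen (MulAction.stabilizer (Qbar ≃ₐ[ℚ] Qbar) P : Set (Qbar ≃ₐ[ℚ] Qbar)) := by
  refine Subgroup.isOpen_mono ?_ (isOpen_ker_galoisRepModuleEnd W n hn)
  intro σ hσ
  exact LinearMap.congr_fun hσ P

end FLTAgent.EllTorsion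

end
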