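import Fermat.Agent.EllTorsion.MulX
import Mathlib.AlgebraicGeometry.EllipticCurve.DivisionPolynomial.Degree
import Mathlib.FieldTheory.IsAlgClosed.AlgebraicClosure

/-!
# Multiplication by `n` on the `x`-coordinate

For an elliptic curve over a field, `x(n P) = Φₙ(x) / ΨSqₙ(x)` (`x_zsmul_some`), numerator and
denominator are coprime (`isCoprime_Φ_ΨSq`), and `n P = 0` is the vanishing of `ΨSqₙ`
(`zsmul_some_eq_zero_iff`), or of `preΨₙ` for odd `n`.
-/

noncomputable section

open WeierstrassCurve Polynomial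

namespace FLTAgent.EllTorsion

variable {K : Type*} [Field K] [DecidableEq K] {W : Affine K} [W.IsElliptic]

/-- The numerator and denominator of the multiplication map have no common zero. -/
theorem isCoprime_Φ_ΨSq (n : ℤ) : IsCoprime (W.Φ n) (W.ΨSq n) := by
  rw [← Polynomial.isCoprime_map (algebraMap K (AlgebraicClosure K)), ← map_Φ, ← map_ΨSq]
  classical
  refine isCoprime_of_forall_eval fun x => ?_
  obtain ⟨m, rfl | rfl⟩ := Int.eq_nat_or_neg n
  · exact eval_Φ_ΨSq_ne_zero_nat m x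
  · rw [Φ_neg, ΨSq_neg]
    exact eval_Φ_ΨSq_ne_zero_nat m x

/-- `n P = 0` iff `ΨSqₙ` vanishes at `x(P)`. -/
theorem zsmul_some_eq_zero_iff (n : ℤ) {x y : K} (h : W.Nonsingular x y) :
    n • Affine.Point.some x y h = 0 ↔ (W.ΨSq n).eval x = 0 := by
  obtain ⟨m, rfl | rfl⟩ := Int.eq_nat_or_neg n
  · rw [natCast_zsmul]
    exact (xRepIs_nsmul m h).eq_zero_iff
  · rw [neg_zsmul, natCast_zsmul, neg_eq_zero, ΨSq_neg]
    exact (xRepIs_nsmul m h).eq_zero_iff

/-- Natural-number version of `zsmul_some_eq_zero_iff`. -/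
theorem nsmul_some_eq_zero_iff (n : ℕ) {x y : K} (h : W.Nonsingular x y) :
    n • Affine.Point.some x y h = 0 ↔ (W.ΨSq n).eval x = 0 := by
  exact (xRepIs_nsmul n h).eq_zero_iff

/-- For odd `n`, `n P = 0` iff `preΨₙ` vanishes at `x(P)`. -/
theorem nsmul_some_eq_zero_iff_preΨ' {n : ℕ} (hn : Odd n) {x y : K} (h : W.Nonsingular x y) :
    n • Affine.Point.some x y h = 0 ↔ (W.preΨ' n).eval x = 0 := by
  rw [nsmul_some_eq_zero_iff, ΨSq_ofNat, if_neg (Nat.not_even_iff_odd.mpr hn), mul_one,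
    eval_pow, sq_eq_zero_iff]

/-- The formula for the `x`-coordinate of a multiple of a point. -/
theorem x_zsmul_some (n : ℤ) {x y x' y' : K} {h : W.Nonsingular x y} {h' : W.Nonsingular x' y'}
    (he : n • Affine.Point.some x y h = Affine.Point.some x' y' h') :
    x' * (W.ΨSq n).eval x = (W.Φ n).eval x := by
  obtain ⟨m, rfl | rfl⟩ := Int.eq_nat_or_neg n
  · rw [natCast_zsmul] at he
    exact (he ▸ xRepIs_nsmul m h).mul_eq
  · rw [neg_zsmul, natCast_zsmul, neg_eq_iff_eq_neg, Affine.Point.neg_some] at he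
    rw [ΨSq_neg, Φ_neg]
    exact (he ▸ xRepIs_nsmul m h).mul_eq

end FLTAgent.EllTorsion

end
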