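import Mathlib.AlgebraicGeometry.EllipticCurve.Affine.AddSubMap

/-!
# Correctness of the addition-and-subtraction map on `x`-coordinates

`sym2x_add_sub`: for all points `P`, `Q` of an elliptic curve over a field, the quadratic map
`addSubMap` sends the symmetric pair of `x(P)`, `x(Q)` to that of `x(P + Q)`, `x(P - Q)` up to a
nonzero scalar. The chord and tangent cases are computed from the slope formulas; the three
components have no common zero (`asm_eq_zero`).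
-/

noncomputable section

open WeierstrassCurve

namespace FLTAgent.EllTorsion

variable {R : Type*} [CommRing R] (W : WeierstrassCurve R)

/-- `addSubMap` evaluated, first component. -/
def asmA (s t u : R) : R := s ^ 2 - W.b₄ * s * u - W.b₆ * t * u - W.b₈ * u ^ 2

/-- `addSubMap` evaluated, second component. -/
def asmB (s t u : R) : R := 2 * t * s + W.b₂ * s * u + W.b₄ * t * u + W.b₆ * u ^ 2

/-- `addSubMap` evaluated, third component. -/
def asmD (s t u : R) : R := t ^ 2 - 4 * s * u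

theorem eval_addSubMap (s t u : R) :
    (fun i => (addSubMap W i).eval ![s, t, u]) = ![asmA W s t u, asmB W s t u, asmD s t u] := by
  ext i
  fin_cases i <;> simp [addSubMap, asmA, asmB, asmD]

theorem asm_eq_zero [IsReduced R] [W.IsElliptic] {s t u : R} (hA : asmA W s t u = 0)
    (hB : asmB W s t u = 0) (hD : asmD s t u = 0) : s = 0 ∧ t = 0 ∧ u = 0 := by
  by_contra h
  have hne : (![s, t, u] : Fin 3 → R) ≠ 0 := by
    intro he
    exact h ⟨by simpa using congrFun he 0, by simpa using congrFun he 1,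
      by simpa using congrFun he 2⟩
  refine addSubMap_ne_zero W hne ?_
  rw [eval_addSubMap, hA, hB, hD]
  ext i; fin_cases i <;> simp

theorem map_asmA {S : Type*} [CommRing S] (f : R →+* S) (s t u : R) :
    f (asmA W s t u) = asmA (W.map f) (f s) (f t) (f u) := by
  simp [asmA]

theorem map_asmB {S : Type*} [CommRing S] (f : R →+* S) (s t u : R) :
    f (asmB W s t u) = asmB (W.map f) (f s) (f t) (f u) := by
  simp [asmB, map_ofNat]

theorem map_asmD {S : Type*} [CommRing S] (f : R →+* S) (s t u : R) :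
    f (asmD s t u) = asmD (f s) (f t) (f u) := by
  simp [asmD, map_ofNat]

section Field

variable {K : Type*} [Field K] [DecidableEq K] {W : Affine K}

open Affine

/-- The product of the `x`-coordinates of sum and difference, cleared of denominators. -/
theorem addX_mul_addX {x₁ y₁ x₂ y₂ : K} (h₁ : W.Equation x₁ y₁) (h₂ : W.Equation x₂ y₂)
    (hx : x₁ ≠ x₂) :
    W.addX x₁ x₂ (W.slope x₁ x₂ y₁ y₂) * W.addX x₁ x₂ (W.slope x₁ x₂ y₁ (W.negY x₂ y₂)) *
        asmD (x₁ * x₂) (x₁ + x₂) 1 = asmA W (x₁ * x₂) (x₁ + x₂) 1 := by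
  have hd : x₁ - x₂ ≠ 0 := sub_ne_zero.mpr hx
  have hsq : asmD (x₁ * x₂) (x₁ + x₂) (1 : K) = (x₁ - x₂) ^ 2 := by simp only [asmD]; ring
  have e : ∀ z : K, W.addX x₁ x₂ (W.slope x₁ x₂ y₁ z) * (x₁ - x₂) ^ 2 =
      (y₁ - z) ^ 2 + W.a₁ * (y₁ - z) * (x₁ - x₂) - (W.a₂ + x₁ + x₂) * (x₁ - x₂) ^ 2 := by
    intro z
    rw [slope_of_X_ne hx]
    simp only [addX]
    field_simp
    ring
  rw [hsq]
  refine mul_right_cancel₀ (pow_ne_zero 2 hd) ?_
  rw [mul_comm (W.addX x₁ x₂ _) (W.addX x₁ x₂ _), mul_assoc, mul_assoc,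
    show ∀ u v d : K, u * (v * (d * d)) = (u * d) * (v * d) from fun u v d => by ring, e, e]
  simp only [negY, asmA, b₄, b₆, b₈]
  rw [equation_iff] at h₁ h₂
  linear_combination
    ((y₁ ^ 2 + W.a₁ * x₁ * y₁ + W.a₃ * y₁) +
      (x₁ ^ 3 + W.a₂ * x₁ ^ 2 + W.a₄ * x₁ + W.a₆) -
      2 * (y₂ ^ 2 + W.a₁ * x₂ * y₂ + W.a₃ * y₂) - 2 * (W.a₂ + x₁ + x₂) * (x₁ - x₂) ^ 2 +
      (W.a₁ * x₁ + W.a₃) * (W.a₁ * x₂ + W.a₃) - (W.a₁ * x₂ + W.a₃) ^ 2) * h₁ +
    ((y₂ ^ 2 + W.a₁ * x₂ * y₂ + W.a₃ * y₂) +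
      (x₂ ^ 3 + W.a₂ * x₂ ^ 2 + W.a₄ * x₂ + W.a₆) -
      2 * (x₁ ^ 3 + W.a₂ * x₁ ^ 2 + W.a₄ * x₁ + W.a₆) - 2 * (W.a₂ + x₁ + x₂) * (x₁ - x₂) ^ 2 +
      (W.a₁ * x₁ + W.a₃) * (W.a₁ * x₂ + W.a₃) - (W.a₁ * x₁ + W.a₃) ^ 2) * h₂

theorem addX_add_addX {x₁ y₁ x₂ y₂ : K} (h₁ : W.Equation x₁ y₁) (h₂ : W.Equation x₂ y₂)
    (hx : x₁ ≠ x₂) :
    (W.addX x₁ x₂ (W.slope x₁ x₂ y₁ y₂) + W.addX x₁ x₂ (W.slope x₁ x₂ y₁ (W.negY x₂ y₂))) *
        asmD (x₁ * x₂) (x₁ + x₂) 1 = asmB W (x₁ * x₂) (x₁ + x₂) 1 := by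
  have hd : x₁ - x₂ ≠ 0 := sub_ne_zero.mpr hx
  have hsq : asmD (x₁ * x₂) (x₁ + x₂) (1 : K) = (x₁ - x₂) ^ 2 := by simp only [asmD]; ring
  rw [hsq, slope_of_X_ne hx, slope_of_X_ne hx]
  simp only [addX, negY, asmB, b₂, b₄, b₆]
  rw [equation_iff] at h₁ h₂
  field_simp
  linear_combination 2 * h₁ + 2 * h₂

omit [DecidableEq K] in
theorem asmB_self_eq_sq {x y : K} (h : W.Equation x y) :
    asmB W (x * x) (x + x) 1 = (y - W.negY x y) ^ 2 := by
  rw [equation_iff] at h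
  simp only [negY, asmB, b₂, b₄, b₆]
  linear_combination -4 * h

theorem addX_self {x y : K} (h : W.Equation x y) (hy : y ≠ W.negY x y) :
    W.addX x x (W.slope x x y y) * asmB W (x * x) (x + x) 1 = asmA W (x * x) (x + x) 1 := by
  rw [slope_of_Y_ne rfl hy, asmB_self_eq_sq h]
  have hz : y - W.negY x y ≠ 0 := sub_ne_zero.mpr hy
  rw [equation_iff] at h
  simp only [addX, asmA, b₄, b₆, b₈]
  field_simp
  simp only [negY]
  linear_combination (-W.a₁ ^ 2 - 4 * (W.a₂ + 2 * x)) * h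

variable [W.IsElliptic]

private theorem sym2x_double_aux {x y : K} (h : W.Nonsingular x y) :
    ∃ c : K, c ≠ 0 ∧ (Point.some x y h + Point.some x y h).sym2x 0 =
      c • ![asmA W (x * x) (x + x) 1, asmB W (x * x) (x + x) 1, asmD (x * x) (x + x) 1] := by
  have hD : asmD (x * x) (x + x) (1 : K) = 0 := by simp only [asmD]; ring
  by_cases hy : y = W.negY x y
  · have hB : asmB W (x * x) (x + x) 1 = 0 := by
      rw [asmB_self_eq_sq h.left, ← hy, sub_self, sq, mul_zero]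
    have hA : asmA W (x * x) (x + x) 1 ≠ 0 := fun hA =>
      one_ne_zero (asm_eq_zero W hA hB hD).2.2
    refine ⟨(asmA W (x * x) (x + x) 1)⁻¹, inv_ne_zero hA, ?_⟩
    rw [Point.add_self_of_Y_eq hy, Point.sym2x_zero_zero, hB, hD]
    simp [hA]
  · have hB : asmB W (x * x) (x + x) 1 ≠ 0 := by
      rw [asmB_self_eq_sq h.left]
      exact pow_ne_zero 2 (sub_ne_zero.mpr hy)
    refine ⟨(asmB W (x * x) (x + x) 1)⁻¹, inv_ne_zero hB, ?_⟩
    rw [Point.add_self_of_Y_ne hy, Point.sym2x_some_zero, hD, ← addX_self h.left hy]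
    ext i
    fin_cases i <;> simp [hB]
    exact (mul_div_cancel_right₀ _ hB).symm.trans (by ring)

/-- `addSubMap` computes the `x`-coordinates of `P + Q` and `P - Q`. -/
theorem sym2x_add_sub (P Q : W.Point) :
    ∃ c : K, c ≠ 0 ∧ (P + Q).sym2x (P - Q) =
      c • fun i => (addSubMap W i).eval (P.sym2x Q) := by
  rcases P with _ | ⟨x₁, y₁, h₁⟩ <;> rcases Q with _ | ⟨x₂, y₂, h₂⟩
  · refine ⟨1, one_ne_zero, ?_⟩
    rw [← Point.zero_def, add_zero, sub_zero, Point.sym2x_zero_zero, eval_addSubMap]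
    simp [asmA, asmB, asmD]
  · refine ⟨1, one_ne_zero, ?_⟩
    rw [← Point.zero_def, zero_add, zero_sub, Point.sym2x_neg_right, Point.sym2x_some_some,
      Point.sym2x_zero_some, eval_addSubMap]
    simp [asmA, asmB, asmD]
    exact ⟨by ring, by ring⟩
  · refine ⟨1, one_ne_zero, ?_⟩
    rw [← Point.zero_def, add_zero, sub_zero, Point.sym2x_some_some,
      Point.sym2x_some_zero, eval_addSubMap]
    simp [asmA, asmB, asmD]
    exact ⟨by ring, by ring⟩
  · rw [Point.sym2x_some_some, eval_addSubMap]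
    by_cases hx : x₁ = x₂
    · subst hx
      rcases (Point.X_eq_iff (h₁ := h₁) (h₂ := h₂)).mp rfl with he | he
      · obtain ⟨c, hc, hd⟩ := sym2x_double_aux h₁
        refine ⟨c, hc, ?_⟩
        rw [← he, sub_self, hd]
      · obtain ⟨c, hc, hd⟩ := sym2x_double_aux h₂
        refine ⟨c, hc, ?_⟩
        rw [he, neg_add_cancel, sub_eq_add_neg, ← neg_add, Point.sym2x_comm,
          Point.sym2x_neg_left, hd]
    · have hD : asmD (x₁ * x₂) (x₁ + x₂) (1 : K) ≠ 0 := by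
        rw [show asmD (x₁ * x₂) (x₁ + x₂) (1 : K) = (x₁ - x₂) ^ 2 by simp [asmD]; ring]
        exact pow_ne_zero 2 (sub_ne_zero.mpr hx)
      refine ⟨(asmD (x₁ * x₂) (x₁ + x₂) 1)⁻¹, inv_ne_zero hD, ?_⟩
      rw [Point.add_of_X_ne hx, sub_eq_add_neg, Point.neg_some, Point.add_of_X_ne hx,
        Point.sym2x_some_some, ← addX_mul_addX h₁.left h₂.left hx,
        ← addX_add_addX h₁.left h₂.left hx]
      ext i
      fin_cases i <;> simp [hD] <;> field_simp

end Field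

end FLTAgent.EllTorsion

end
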