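import Fermat.Agent.EllTorsion.Mul
import Mathlib.Algebra.Module.Torsion.Basic
import Mathlib.FieldTheory.Separable

/-!
# The number of torsion points

`natCard_torsionBy`: an elliptic curve over an algebraically closed field has `n ^ 2` points of
`n`-torsion when `n` is invertible there. The fibre of multiplication by `n` over a suitable point
is read off from the roots of `Φₙ - c ΨSqₙ` (`exists_natCard_fibre`); multiplication by a nonzero
`n` is surjective (`nsmul_surjective`).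
-/

noncomputable section

open WeierstrassCurve Polynomial

namespace FLTAgent.EllTorsion

variable {K : Type*} [Field K] [DecidableEq K] [IsAlgClosed K] {W : Affine K} [W.IsElliptic]

omit [DecidableEq K] [IsAlgClosed K] [W.IsElliptic] in
theorem monic_Φ_nat (n : ℕ) : (W.Φ n).Monic ∧ (W.Φ n).natDegree = n ^ 2 := by
  have h := natDegree_Φ W (n : ℤ)
  rw [Int.natAbs_natCast] at h
  refine ⟨?_, h⟩
  rw [Monic, leadingCoeff, h]
  have h1 := coeff_Φ W (n : ℤ)
  rwa [Int.natAbs_natCast] at h1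

omit [DecidableEq K] [IsAlgClosed K] [W.IsElliptic] in
/-- `Φₙ - c ΨSqₙ` is monic of degree `n²`. -/
theorem monic_Φ_sub_ΨSq (n : ℕ) (c : K) :
    (W.Φ n - C c * W.ΨSq n).Monic ∧ (W.Φ n - C c * W.ΨSq n).natDegree = n ^ 2 := by
  obtain ⟨hm, hd⟩ := monic_Φ_nat (W := W) n
  have hlt : (C c * W.ΨSq n).degree < (W.Φ n).degree := by
    rw [← smul_eq_C_mul]
    exact (degree_smul_le c _).trans_lt (degree_ΨSq_lt W n hm hd)
  exact ⟨hm.sub_of_left hlt,
    (natDegree_eq_of_degree_eq (degree_sub_eq_left_of_degree_lt hlt)).trans hd⟩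

omit [DecidableEq K] in
theorem Ψ₂Sq_ne_zero' : W.Ψ₂Sq ≠ 0 := by
  classical
  intro h
  have hu := isCoprime_Φ_ΨSq (W := W) 2
  rw [ΨSq_two, h, isCoprime_zero_right] at hu
  have h1 := natDegree_eq_zero_of_isUnit hu
  have h2 := natDegree_Φ W (2 : ℤ)
  rw [h1] at h2
  simp at h2

omit [DecidableEq K] [IsAlgClosed K] in
theorem wronskian_Φ_ΨSq_ne_zero {n : ℕ} (hn : (n : K) ≠ 0) :
    derivative (W.Φ n) * W.ΨSq n - W.Φ n * derivative (W.ΨSq n) ≠ 0 := by
  rcases eq_or_ne n 1 with rfl | h1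
  · simp
  have hn0 : n ≠ 0 := by rintro rfl; simp at hn
  obtain ⟨d, hd⟩ : ∃ d, n ^ 2 = d + 2 := ⟨n ^ 2 - 2, by
    have : 2 ^ 2 ≤ n ^ 2 := Nat.pow_le_pow_left (by omega) 2
    omega⟩
  obtain ⟨hm, hdeg⟩ := monic_Φ_nat (W := W) n
  have hΨd : (W.ΨSq n).natDegree ≤ d + 1 := by
    have h := W.natDegree_ΨSq_le (n : ℤ)
    rw [Int.natAbs_natCast] at h
    omega
  have hΨc : (W.ΨSq n).coeff (d + 1) = ((d + 2 : ℕ) : K) := by
    have h := coeff_ΨSq W (n : ℤ)
    rw [Int.natAbs_natCast, Int.cast_natCast, hd, show d + 2 - 1 = d + 1 from rfl] at h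
    rw [← hd, Nat.cast_pow]
    exact h
  have hΦc : (W.Φ n).coeff (d + 2) = 1 := by rw [← hd, ← hdeg]; exact hm
  have hΦ'd : (derivative (W.Φ n)).natDegree ≤ d + 1 :=
    (natDegree_derivative_le _).trans (by omega)
  have hΨ'd : (derivative (W.ΨSq n)).natDegree ≤ d :=
    (natDegree_derivative_le _).trans (by omega)
  intro h
  have hc := congrArg (fun p : K[X] => p.coeff (d + 1 + (d + 1))) h
  simp only [coeff_sub, coeff_zero] at hc
  rw [coeff_mul_add_eq_of_natDegree_le hΦ'd hΨd, show d + 1 + (d + 1) = d + 2 + d by ring,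
    coeff_mul_add_eq_of_natDegree_le (by omega) hΨ'd, coeff_derivative, coeff_derivative, hΦc, hΨc] at hc
  have he : ((d + 2 : ℕ) : K) = 0 := by push_cast at hc ⊢; linear_combination hc
  rw [← hd, Nat.cast_pow] at he
  exact hn ((pow_eq_zero_iff (by norm_num)).mp he)

omit [IsAlgClosed K] in
theorem two_nsmul_some_ne_zero {c y : K} (h : W.Nonsingular c y) (hc : W.Ψ₂Sq.eval c ≠ 0) :
    Affine.Point.some c y h ≠ -Affine.Point.some c y h := by
  intro he
  have h2 : 2 • Affine.Point.some c y h = 0 := by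
    rw [two_nsmul]
    exact eq_neg_iff_add_eq_zero.mp he
  rw [nsmul_some_eq_zero_iff, Nat.cast_ofNat, ΨSq_two] at h2
  exact hc h2

omit [IsAlgClosed K] in
/-- A root of `Φₙ - c ΨSqₙ` is the abscissa of a point `P` with `n P = ±R`, `x(R) = c`. -/
theorem nsmul_eq_or_eq_neg {n : ℕ} {c x y y₀ : K} (h₀ : W.Nonsingular c y₀)
    (h : W.Nonsingular x y) (hr : (W.Φ n - C c * W.ΨSq n).eval x = 0) :
    n • Affine.Point.some x y h = Affine.Point.some c y₀ h₀ ∨
      n • Affine.Point.some x y h = -Affine.Point.some c y₀ h₀ := by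
  rw [eval_sub, eval_mul, eval_C, sub_eq_zero] at hr
  have hG : (W.ΨSq n).eval x ≠ 0 := by
    intro hG
    rw [hG, mul_zero] at hr
    exact eval_Φ_ΨSq_ne_zero_nat n x ⟨hr, hG⟩
  rcases hP : n • Affine.Point.some x y h with _ | ⟨x', y', h'⟩
  · exact absurd ((nsmul_some_eq_zero_iff n h).mp hP) hG
  · have hx := x_zsmul_some (n := (n : ℤ)) (h := h) (by rw [natCast_zsmul]; exact hP)
    rw [hr] at hx
    obtain rfl := mul_right_cancel₀ hG hx
    exact Affine.Point.X_eq_iff.mp rfl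

/-- For a generic target point the fibre of multiplication by `n` has `n²` elements. -/
theorem exists_natCard_fibre (n : ℕ) (hn : (n : K) ≠ 0) :
    ∃ R : W.Point, Nat.card {P : W.Point // n • P = R} = n ^ 2 := by
  classical
  set F := W.Φ n
  set G := W.ΨSq n
  set Wr := derivative F * G - F * derivative G with hWr
  let bad : Finset K :=
    (Wr * W.Ψ₂Sq).roots.toFinset.image (fun x => F.eval x / G.eval x) ∪ W.Ψ₂Sq.roots.toFinset
  obtain ⟨c, hc⟩ := Infinite.exists_notMem_finset bad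
  simp only [bad, Finset.mem_union, Finset.mem_image, Multiset.mem_toFinset, not_or,
    not_exists, not_and] at hc
  obtain ⟨y₀, h₀⟩ := exists_nonsingular (W := W) c
  refine ⟨Affine.Point.some c y₀ h₀, ?_⟩
  have hc2 : W.Ψ₂Sq.eval c ≠ 0 := fun h => hc.2 ((mem_roots Ψ₂Sq_ne_zero').mpr h)
  obtain ⟨hm, hdeg⟩ := monic_Φ_sub_ΨSq (W := W) n c
  set H := F - C c * G with hH
  have hsep : H.Separable := by
    refine separable_def H |>.mpr (isCoprime_of_forall_eval fun x ⟨hx, hx'⟩ => ?_)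
    simp only [hH, eval_sub, eval_mul, eval_C, derivative_sub, derivative_C_mul,
      sub_eq_zero] at hx hx'
    have hG : G.eval x ≠ 0 := by
      intro hG
      rw [hG, mul_zero] at hx
      exact eval_Φ_ΨSq_ne_zero_nat n x ⟨hx, hG⟩
    refine hc.1 x ((mem_roots (mul_ne_zero (wronskian_Φ_ΨSq_ne_zero hn) Ψ₂Sq_ne_zero')).mpr ?_) ?_
    · simp only [IsRoot.def, eval_mul, eval_sub]
      linear_combination (norm := (simp only [F, G]; ring1))
        W.Ψ₂Sq.eval x * (G.eval x * hx' - (derivative G).eval x * hx)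
    · rw [hx, mul_div_cancel_right₀ _ hG]
  have hcard : H.roots.toFinset.card = n ^ 2 := by
    rw [Multiset.toFinset_card_of_nodup (nodup_roots hsep),
      ← (IsAlgClosed.splits H).natDegree_eq_card_roots, hdeg]
  rw [← hcard, ← Fintype.card_coe, ← Nat.card_eq_fintype_card]
  have hne : ∀ P : {P : W.Point // n • P = Affine.Point.some c y₀ h₀},
      P.1.xRep 0 ∈ H.roots.toFinset := by
    rintro ⟨_ | ⟨x, y, h⟩, hP⟩
    · rw [← Affine.Point.zero_def, nsmul_zero] at hP
      exact absurd hP.symm (Affine.Point.some_ne_zero h₀)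
    · have hx := x_zsmul_some (n := (n : ℤ)) (h := h) (by rw [natCast_zsmul]; exact hP)
      rw [Multiset.mem_toFinset, mem_roots hm.ne_zero]
      simp only [Affine.Point.xRep_some, Matrix.cons_val_zero, IsRoot.def, hH, eval_sub, eval_mul,
        eval_C, F, G, ← hx, sub_self]
  refine Nat.card_congr (Equiv.ofBijective (fun P => (⟨P.1.xRep 0, hne P⟩ : H.roots.toFinset))
    ⟨?_, ?_⟩)
  · rintro ⟨P, hP⟩ ⟨Q, hQ⟩ he
    simp only [Subtype.mk.injEq] at he
    rcases P with _ | ⟨x, y, h⟩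
    · rw [← Affine.Point.zero_def, nsmul_zero] at hP
      exact absurd hP.symm (Affine.Point.some_ne_zero h₀)
    rcases Q with _ | ⟨x', y', h'⟩
    · rw [← Affine.Point.zero_def, nsmul_zero] at hQ
      exact absurd hQ.symm (Affine.Point.some_ne_zero h₀)
    simp only [Affine.Point.xRep_some, Matrix.cons_val_zero] at he
    subst he
    rcases (Affine.Point.X_eq_iff (h₁ := h) (h₂ := h')).mp rfl with heq | heq
    · exact Subtype.ext heq
    · exfalso
      rw [heq, neg_nsmul, hQ] at hP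
      exact two_nsmul_some_ne_zero h₀ hc2 hP.symm
  · rintro ⟨x, hx⟩
    rw [Multiset.mem_toFinset, mem_roots hm.ne_zero] at hx
    obtain ⟨y, h⟩ := exists_nonsingular (W := W) x
    rcases nsmul_eq_or_eq_neg h₀ h hx with he | he
    · exact ⟨⟨_, he⟩, by simp⟩
    · exact ⟨⟨-Affine.Point.some x y h, by rw [neg_nsmul, he, neg_neg]⟩,
        Subtype.ext (by simp only [Affine.Point.xRep_neg, Affine.Point.xRep_some,
          Matrix.cons_val_zero])⟩

/-- `#E(K)[n] = n²` for `K` algebraically closed and `n` invertible in `K`. -/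
theorem natCard_torsionBy (n : ℕ) (hn : (n : K) ≠ 0) :
    Nat.card (Submodule.torsionBy ℤ W.Point n) = n ^ 2 := by
  obtain ⟨R, hR⟩ := exists_natCard_fibre (W := W) n hn
  have hn0 : n ≠ 0 := by rintro rfl; simp at hn
  obtain ⟨⟨P₀, hP₀⟩⟩ := (Nat.card_pos_iff.mp (hR ▸ Nat.pos_of_ne_zero (pow_ne_zero 2 hn0))).1
  rw [← hR]
  refine Nat.card_congr ((Equiv.addRight P₀).subtypeEquiv fun P => ?_)
  rw [Submodule.mem_torsionBy_iff, natCast_zsmul, Equiv.coe_addRight, nsmul_add, hP₀,
    add_eq_right]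

/-- Multiplication by `n` is surjective. -/
theorem nsmul_surjective (n : ℕ) (hn : n ≠ 0) :
    Function.Surjective fun P : W.Point => n • P := by
  intro R
  rcases R with _ | ⟨c, y₀, h₀⟩
  · exact ⟨0, nsmul_zero n⟩
  obtain ⟨hm, hdeg⟩ := monic_Φ_sub_ΨSq (W := W) n c
  obtain ⟨x, hx⟩ := IsAlgClosed.exists_root (W.Φ n - C c * W.ΨSq n)
    (by rw [degree_eq_natDegree hm.ne_zero, hdeg]
        exact_mod_cast pow_ne_zero 2 hn)
  obtain ⟨y, h⟩ := exists_nonsingular (W := W) x
  rcases nsmul_eq_or_eq_neg h₀ h hx with he | he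
  · exact ⟨_, he⟩
  · exact ⟨-Affine.Point.some x y h, by simp only [neg_nsmul, he, neg_neg]⟩

end FLTAgent.EllTorsion

end
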