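import Mathlib.AlgebraicGeometry.EllipticCurve.Affine.Point
import Mathlib.Algebra.Polynomial.Expand

/-!
# The affine coordinate ring: evaluation, conjugation and the behaviour at infinity

Elements are written `el W a b = a + b Y`; `evalAt` evaluates at a point, `conj` is the involution
fixing `X`, and `top` records the leading behaviour at infinity (`X = t²`, `Y = t³`), which is
multiplicative in degree and leading coefficient (`top_mul`). Normalised generators of a principal
ideal are unique (`Normalised.eq_of_span`).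
-/

noncomputable section

open WeierstrassCurve Polynomial
open scoped Polynomial.Bivariate

namespace FLTAgent.EllTorsion

section Ring

variable {R : Type*} [CommRing R] (W : Affine R)

/-- The element `a + b Y` of the coordinate ring. -/
def el (a b : R[X]) : W.CoordinateRing :=
  a • (1 : W.CoordinateRing) + b • Affine.CoordinateRing.mk W Y

variable {W}

theorem el_eq (a b : R[X]) : el W a b =
    Affine.CoordinateRing.mk W (C a) + Affine.CoordinateRing.mk W (C b) *
      Affine.CoordinateRing.mk W Y := by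
  simp only [el, Affine.CoordinateRing.smul, mul_one]

theorem exists_el (f : W.CoordinateRing) : ∃ a b, f = el W a b := by
  obtain ⟨a, b, h⟩ := Affine.CoordinateRing.exists_smul_basis_eq f
  exact ⟨a, b, h.symm⟩

theorem el_inj {a b a' b' : R[X]} : el W a b = el W a' b' ↔ a = a' ∧ b = b' := by
  refine ⟨fun h => ?_, fun h => by rw [h.1, h.2]⟩
  have h0 : (a - a') • (1 : W.CoordinateRing) + (b - b') • Affine.CoordinateRing.mk W Y = 0 := by
    rw [sub_smul, sub_smul, sub_add_sub_comm, sub_eq_zero]
    exact h
  obtain ⟨h1, h2⟩ := Affine.CoordinateRing.smul_basis_eq_zero h0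
  exact ⟨sub_eq_zero.mp h1, sub_eq_zero.mp h2⟩

/-- The coefficient of `1`. -/
def pA (f : W.CoordinateRing) : R[X] := (exists_el f).choose

/-- The coefficient of `Y`. -/
def pB (f : W.CoordinateRing) : R[X] := (exists_el f).choose_spec.choose

theorem el_pA_pB (f : W.CoordinateRing) : el W (pA f) (pB f) = f :=
  (exists_el f).choose_spec.choose_spec.symm

@[simp] theorem pA_el (a b : R[X]) : pA (el W a b) = a :=
  (el_inj.mp (el_pA_pB (el W a b))).1

@[simp] theorem pB_el (a b : R[X]) : pB (el W a b) = b :=
  (el_inj.mp (el_pA_pB (el W a b))).2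

theorem el_add (a b a' b' : R[X]) : el W a b + el W a' b' = el W (a + a') (b + b') := by
  simp only [el, add_smul]; abel

theorem mk_C_eq_el (a : R[X]) : Affine.CoordinateRing.mk W (C a) = el W a 0 := by
  simp [el_eq]

theorem el_zero_zero : el W 0 0 = 0 := by simp [el]

theorem el_mul (a b a' b' : R[X]) : el W a b * el W a' b' =
    el W (a * a' + b * b' * (X ^ 3 + C W.a₂ * X ^ 2 + C W.a₄ * X + C W.a₆))
      (a * b' + b * a' - b * b' * (C W.a₁ * X + C W.a₃)) := by
  rw [el_eq a' b', mul_add, ← mul_assoc]
  simp only [el]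
  rw [Affine.CoordinateRing.smul_basis_mul_C, Affine.CoordinateRing.smul_basis_mul_C,
    Affine.CoordinateRing.smul_basis_mul_Y]
  simp only [add_smul, sub_smul]
  abel

/-- Evaluation at a point of the curve. -/
def evalAt {x y : R} (h : W.Equation x y) : W.CoordinateRing →+* R :=
  AdjoinRoot.lift (evalRingHom x) y (by rw [eval₂_evalRingHom]; exact h)

@[simp] theorem evalAt_el {x y : R} (h : W.Equation x y) (a b : R[X]) :
    evalAt h (el W a b) = a.eval x + b.eval x * y := by
  simp [el_eq, evalAt]

theorem eval₂_polynomial {S : Type*} [CommRing S] (W : Affine R) (φ : R[X] →+* S) (z : S) :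
    W.polynomial.eval₂ φ z = z ^ 2 + φ (C W.a₁ * X + C W.a₃) * z -
      φ (X ^ 3 + C W.a₂ * X ^ 2 + C W.a₄ * X + C W.a₆) := by
  simp [Affine.polynomial, eval₂_pow]

/-- Conjugation `Y ↦ -Y - a₁X - a₃`. -/
def conj (W : Affine R) : W.CoordinateRing →+* W.CoordinateRing :=
  AdjoinRoot.lift (AdjoinRoot.of _) (Affine.CoordinateRing.mk W W.negPolynomial) (by
    have h : Affine.CoordinateRing.mk W W.polynomial = 0 := AdjoinRoot.mk_self
    have h' : AdjoinRoot.root W.polynomial ^ 2 +
        AdjoinRoot.of W.polynomial (C W.a₁ * X + C W.a₃) * AdjoinRoot.root W.polynomial -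
        AdjoinRoot.of W.polynomial (X ^ 3 + C W.a₂ * X ^ 2 + C W.a₄ * X + C W.a₆) = 0 := by
      rw [← eval₂_polynomial]; exact AdjoinRoot.eval₂_root _
    rw [eval₂_polynomial, Affine.negPolynomial, map_sub, map_neg,
      show Affine.CoordinateRing.mk W Y = AdjoinRoot.root W.polynomial from AdjoinRoot.mk_X,
      show Affine.CoordinateRing.mk W (C (C W.a₁ * X + C W.a₃)) =
        AdjoinRoot.of W.polynomial (C W.a₁ * X + C W.a₃) from AdjoinRoot.mk_C _]
    linear_combination h')

theorem conj_el (a b : R[X]) :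
    conj W (el W a b) = el W (a - b * (C W.a₁ * X + C W.a₃)) (-b) := by
  simp only [el_eq, conj, map_add, map_mul, AdjoinRoot.lift_mk, eval₂_C, eval₂_X,
    ← AdjoinRoot.mk_C, Affine.negPolynomial, map_sub, map_neg]
  ring

@[simp] theorem conj_conj (f : W.CoordinateRing) : conj W (conj W f) = f := by
  obtain ⟨a, b, rfl⟩ := exists_el f
  simp only [conj_el, el_inj, neg_neg, and_true]
  ring

theorem evalAt_conj {x y : R} (h : W.Equation x y) (h' : W.Equation x (W.negY x y))
    (f : W.CoordinateRing) : evalAt h (conj W f) = evalAt h' f := by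
  obtain ⟨a, b, rfl⟩ := exists_el f
  simp [conj_el, Affine.negY]
  ring

end Ring

section Domain

variable {K : Type*} [Field K] {W : Affine K}

/-- The leading behaviour at infinity: substitute `X = t²`, `Y = t³` in normal form. -/
def top (f : W.CoordinateRing) : K[X] := expand K 2 (pA f) + expand K 2 (pB f) * X ^ 3

theorem top_el (a b : K[X]) : top (el W a b) = expand K 2 a + expand K 2 b * X ^ 3 := by
  simp [top]

theorem top_el_coeff_even (a b : K[X]) (k : ℕ) : (top (el W a b)).coeff (2 * k) = a.coeff k := by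
  rw [top_el, coeff_add, coeff_mul_X_pow', coeff_expand two_pos, coeff_expand two_pos,
    if_pos (dvd_mul_right 2 k), Nat.mul_div_cancel_left _ two_pos]
  split_ifs with h1 h2
  · omega
  · rw [add_zero]
  · rw [add_zero]

theorem top_el_coeff_odd (a b : K[X]) (k : ℕ) :
    (top (el W a b)).coeff (2 * k + 3) = b.coeff k := by
  rw [top_el, coeff_add, coeff_mul_X_pow', coeff_expand two_pos, coeff_expand two_pos,
    if_neg (by omega), if_pos (by omega), Nat.add_sub_cancel, if_pos (dvd_mul_right 2 k),
    Nat.mul_div_cancel_left _ two_pos, zero_add]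

theorem top_eq_zero_iff {f : W.CoordinateRing} : top f = 0 ↔ f = 0 := by
  obtain ⟨a, b, rfl⟩ := exists_el f
  constructor
  · intro h
    have ha : a = 0 := Polynomial.ext fun k => by
      rw [← top_el_coeff_even (W := W) a b, h, coeff_zero, coeff_zero]
    have hb : b = 0 := Polynomial.ext fun k => by
      rw [← top_el_coeff_odd (W := W) a b, h, coeff_zero, coeff_zero]
    rw [ha, hb, el_zero_zero]
  · intro h
    rw [← el_zero_zero, el_inj] at h
    simp [top_el, h.1, h.2]

theorem le_natDegree_top {a b : K[X]} (hb : b ≠ 0) :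
    b.natDegree * 2 + 3 ≤ (top (el W a b)).natDegree := by
  refine le_natDegree_of_ne_zero ?_
  rw [mul_comm, top_el_coeff_odd]
  exact leadingCoeff_ne_zero.mpr hb

theorem lead_of_degree_lt {p q : K[X]} (hp : p ≠ 0) (h : q.degree < p.degree) :
    (p + q).natDegree = p.natDegree ∧ (p + q).leadingCoeff = p.leadingCoeff :=
  ⟨natDegree_eq_of_degree_eq (degree_add_eq_left_of_degree_lt h),
    leadingCoeff_add_of_degree_lt' h⟩

theorem top_mul {f g : W.CoordinateRing} (hf : f ≠ 0) (hg : g ≠ 0) :
    (top (f * g)).natDegree = (top f).natDegree + (top g).natDegree ∧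
      (top (f * g)).leadingCoeff = (top f).leadingCoeff * (top g).leadingCoeff := by
  obtain ⟨a, b, rfl⟩ := exists_el f
  obtain ⟨a', b', rfl⟩ := exists_el g
  have hf' := mt top_eq_zero_iff.mp hf
  have hg' := mt top_eq_zero_iff.mp hg
  set δ : K[X] := expand K 2 (b * b') *
    (C W.a₂ * X ^ 4 + C W.a₄ * X ^ 2 + C W.a₆ - (C W.a₁ * X ^ 2 + C W.a₃) * X ^ 3) with hδ
  have e : top (el W a b * el W a' b') = top (el W a b) * top (el W a' b') + δ := by
    simp only [el_mul, top_el, hδ, map_add, map_sub, map_mul, map_pow, expand_X, expand_C]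
    ring
  have hlt : δ.degree < (top (el W a b) * top (el W a' b')).degree := by
    rw [degree_eq_natDegree (mul_ne_zero hf' hg'), natDegree_mul hf' hg']
    by_cases hd : δ = 0
    · rw [hd, degree_zero]; exact WithBot.bot_lt_coe _
    rw [degree_eq_natDegree hd, Nat.cast_lt]
    have hbb : b * b' ≠ 0 := fun h0 => hd (by rw [hδ, h0, map_zero, zero_mul])
    have h5 : (C W.a₂ * X ^ 4 + C W.a₄ * X ^ 2 + C W.a₆ -
        (C W.a₁ * X ^ 2 + C W.a₃) * X ^ 3 : K[X]).natDegree ≤ 5 := by compute_degree
    have h1 : δ.natDegree ≤ (b * b').natDegree * 2 + 5 := by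
      rw [hδ]
      refine natDegree_mul_le.trans (add_le_add ?_ h5)
      rw [natDegree_expand]
    rw [natDegree_mul (left_ne_zero_of_mul hbb) (right_ne_zero_of_mul hbb)] at h1
    have h2 := le_natDegree_top (W := W) (a := a) (left_ne_zero_of_mul hbb)
    have h3 := le_natDegree_top (W := W) (a := a') (right_ne_zero_of_mul hbb)
    omega
  rw [e]
  obtain ⟨e1, e2⟩ := lead_of_degree_lt (mul_ne_zero hf' hg') hlt
  exact ⟨e1.trans (natDegree_mul hf' hg'), e2.trans (leadingCoeff_mul _ _)⟩

theorem top_conj {f : W.CoordinateRing} (hf : f ≠ 0) :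
    (top (conj W f)).natDegree = (top f).natDegree ∧
      (top (conj W f)).leadingCoeff = (-1) ^ (top f).natDegree * (top f).leadingCoeff := by
  obtain ⟨a, b, rfl⟩ := exists_el f
  have hf' := mt top_eq_zero_iff.mp hf
  set δ : K[X] := -(expand K 2 b * (C W.a₁ * X ^ 2 + C W.a₃)) with hδ
  have e : top (conj W (el W a b)) = (top (el W a b)).comp (-X) + δ := by
    simp only [conj_el, top_el, hδ, map_sub, map_neg, map_mul, map_add,
      add_comp, mul_comp, pow_comp, X_comp, expand_eq_comp_X_pow, comp_assoc, C_comp]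
    ring
  have hd : ((top (el W a b)).comp (-X)).natDegree = (top (el W a b)).natDegree := by
    rw [natDegree_comp, natDegree_neg, natDegree_X, mul_one]
  have hlc : ((top (el W a b)).comp (-X)).leadingCoeff =
      (-1) ^ (top (el W a b)).natDegree * (top (el W a b)).leadingCoeff := by
    rw [leadingCoeff_comp (by simp), leadingCoeff_neg, leadingCoeff_X, mul_comm]
  have h0 : (top (el W a b)).comp (-X) ≠ 0 := by
    rw [← leadingCoeff_ne_zero, hlc]
    exact mul_ne_zero (pow_ne_zero _ (by norm_num)) (leadingCoeff_ne_zero.mpr hf')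
  have hlt : δ.degree < ((top (el W a b)).comp (-X)).degree := by
    rw [degree_eq_natDegree h0, hd]
    by_cases hδ0 : δ = 0
    · rw [hδ0, degree_zero]; exact WithBot.bot_lt_coe _
    rw [degree_eq_natDegree hδ0, Nat.cast_lt]
    have hb : b ≠ 0 := fun h => hδ0 (by rw [hδ, h, map_zero, zero_mul, neg_zero])
    have h2 : (C W.a₁ * X ^ 2 + C W.a₃ : K[X]).natDegree ≤ 2 := by compute_degree
    have h1 : δ.natDegree ≤ b.natDegree * 2 + 2 := by
      rw [hδ, natDegree_neg]
      refine natDegree_mul_le.trans (add_le_add ?_ h2)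
      rw [natDegree_expand]
    have h3 := le_natDegree_top (W := W) (a := a) hb
    omega
  rw [e]
  obtain ⟨e1, e2⟩ := lead_of_degree_lt h0 hlt
  exact ⟨e1.trans hd, e2.trans hlc⟩

/-- A nonzero element is normalised if its leading coefficient at infinity is `1`. -/
def Normalised (f : W.CoordinateRing) : Prop := (top f).leadingCoeff = 1

theorem Normalised.ne_zero {f : W.CoordinateRing} (h : Normalised f) : f ≠ 0 := by
  rintro rfl
  rw [Normalised, top_eq_zero_iff.mpr rfl, leadingCoeff_zero] at h
  exact zero_ne_one h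

theorem Normalised.mul {f g : W.CoordinateRing} (hf : Normalised f) (hg : Normalised g) :
    Normalised (f * g) := by
  rw [Normalised, (top_mul hf.ne_zero hg.ne_zero).2, hf, hg, mul_one]

theorem top_mk_C (a : K[X]) : top (Affine.CoordinateRing.mk W (C a)) = expand K 2 a := by
  rw [mk_C_eq_el, top_el, map_zero, zero_mul, add_zero]

theorem normalised_mk_C {a : K[X]} (ha : a.Monic) :
    Normalised (Affine.CoordinateRing.mk W (C a)) := by
  rw [Normalised, top_mk_C]
  exact ha.expand two_pos

theorem normalised_one : Normalised (1 : W.CoordinateRing) := by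
  simpa using normalised_mk_C (W := W) monic_one

theorem Normalised.pow {f : W.CoordinateRing} (hf : Normalised f) (n : ℕ) :
    Normalised (f ^ n) := by
  induction n with
  | zero => rw [pow_zero]; exact normalised_one
  | succ n ih => rw [pow_succ]; exact ih.mul hf

theorem normalised_XClass (x : K) : Normalised (Affine.CoordinateRing.XClass W x) :=
  normalised_mk_C (monic_X_sub_C x)

/-- The class of `Y - lam X - nu`. -/
def lineElt (W : Affine K) (lam nu : K) : W.CoordinateRing :=
  el W (-(C lam * X + C nu)) 1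

theorem normalised_lineElt (lam nu : K) : Normalised (lineElt W lam nu) := by
  rw [Normalised, lineElt, top_el]
  simp only [map_neg, map_add, map_mul, map_one, expand_C, expand_X, one_mul]
  rw [show -(C lam * X ^ 2 + C nu) + X ^ 3 = X ^ 3 - (C lam * X ^ 2 + C nu) by ring]
  refine (monic_X_pow 3).sub_of_left ?_
  rw [degree_X_pow]
  refine lt_of_le_of_lt (b := (2 : WithBot ℕ)) ?_ (by decide)
  compute_degree

theorem eq_C_of_isUnit {f : W.CoordinateRing} (hf : IsUnit f) :
    ∃ c : K, c ≠ 0 ∧ f = Affine.CoordinateRing.mk W (C (C c)) := by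
  obtain ⟨g, hg⟩ := isUnit_iff_exists_inv.mp hf
  have hf0 : f ≠ 0 := left_ne_zero_of_mul_eq_one hg
  have hg0 : g ≠ 0 := right_ne_zero_of_mul_eq_one hg
  have h := (top_mul hf0 hg0).1
  rw [hg, ← map_one (Affine.CoordinateRing.mk W), ← C_1, top_mk_C, map_one, natDegree_one] at h
  obtain ⟨a, b, rfl⟩ := exists_el f
  have hb : b = 0 := by
    by_contra hb
    have := le_natDegree_top (W := W) (a := a) hb
    omega
  subst hb
  rw [top_el, map_zero, zero_mul, add_zero, natDegree_expand] at h
  obtain ⟨c, rfl⟩ := natDegree_eq_zero.mp (show a.natDegree = 0 by omega)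
  refine ⟨c, ?_, (mk_C_eq_el _).symm⟩
  rintro rfl
  exact hf0 (by rw [C_0, el_zero_zero])

/-- Normalised generators of the same ideal are equal. -/
theorem Normalised.eq_of_span {f g : W.CoordinateRing} (hf : Normalised f) (hg : Normalised g)
    (h : Ideal.span {f} = Ideal.span {g}) : f = g := by
  obtain ⟨u, hu⟩ := Ideal.span_singleton_eq_span_singleton.mp h
  obtain ⟨c, hc, he⟩ := eq_C_of_isUnit u.isUnit
  have h2 : (top g).leadingCoeff = (top f).leadingCoeff * (top (u : W.CoordinateRing)).leadingCoeff :=
    hu ▸ (top_mul hf.ne_zero u.ne_zero).2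
  rw [hf, hg, he, top_mk_C, expand_C, leadingCoeff_C, one_mul] at h2
  rw [← hu, he, ← h2, C_1, C_1, map_one, mul_one]

theorem exists_smul_normalised {f : W.CoordinateRing} (hf : f ≠ 0) :
    ∃ c : K, c ≠ 0 ∧ Normalised (Affine.CoordinateRing.mk W (C (C c)) * f) := by
  have hl : (top f).leadingCoeff ≠ 0 := leadingCoeff_ne_zero.mpr (mt top_eq_zero_iff.mp hf)
  refine ⟨(top f).leadingCoeff⁻¹, inv_ne_zero hl, ?_⟩
  rw [Normalised, (top_mul ?_ hf).2, top_mk_C, expand_C, leadingCoeff_C, inv_mul_cancel₀ hl]
  rw [← top_eq_zero_iff.ne, top_mk_C, expand_C, C_ne_zero]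
  exact inv_ne_zero hl

end Domain

attribute [irreducible] top pA pB

end FLTAgent.EllTorsion

end
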