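import Fermat.Agent.EllTorsion.RatFn

/-!
# The `p`-th root of `f_S ∘ [p]`

`gFun p S` is built from Miller functions and satisfies `g(Q) ^ p = f_S(p Q)` for generic `Q`
(`gFun_pow`). It is a rational function (`isRat_gFun`), and translation by a torsion point `T`
multiplies it by Miller's ratio (`gFun_add`), so it is periodic when the pairing of `S` and `T`
is trivial (`gFun_periodic`).
-/

noncomputable section

open WeierstrassCurve Polynomial Filter

namespace FLTAgent.EllTorsion

variable {K : Type*} [Field K] [DecidableEq K] {W : Affine K}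

/-- The value at `S` of Miller's function of `Q`. -/
def millerVal (S Q : W.Point) (k : ℕ) : K := pev S (miller Q k).1 / pev S (miller Q k).2

/-- The function `g` with `g^p = f_S ∘ [p]`. -/
def gFun (p : ℕ) (S Q : W.Point) : K := pev Q (torsFun p S) / millerVal S Q p

omit [DecidableEq K] in
theorem pev_one {S : W.Point} (hS : S ≠ 0) : pev S (1 : W.CoordinateRing) = 1 := by
  obtain ⟨x, y, h, rfl⟩ := exists_some_of_ne_zero hS
  exact map_one _

theorem millerVal_succ {S : W.Point} (hS : S ≠ 0) (Q : W.Point) (k : ℕ) :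
    millerVal S Q (k + 1) =
      millerVal S Q k * (pev S (chord (k • Q) Q) / pev S (vert ((k + 1) • Q))) := by
  simp only [millerVal, miller]
  rw [pev_mul hS, pev_mul hS, mul_div_mul_comm]

omit [DecidableEq K] in
theorem millerVal_zero {S : W.Point} [DecidableEq K] (hS : S ≠ 0) (Q : W.Point) :
    millerVal S Q 0 = 1 := by
  simp [millerVal, miller, pev_one hS]

variable [IsAlgClosed K] [CharZero K] [W.IsElliptic] {p : ℕ} {S : W.Point}

/-- `Q` avoids everything bad for the first `p + 1` steps. -/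
def Gen (p : ℕ) (S Q : W.Point) : Prop :=
  ∀ j : ℕ, j ≤ p + 1 → j = 0 ∨ (j • Q ≠ 0 ∧ j • Q ≠ S ∧ j • Q ≠ -S)

theorem eventually_gen (p : ℕ) (S : W.Point) : ∀ᶠ Q : W.Point in cofinite, Gen p S Q := by
  have : ∀ j ∈ Finset.range (p + 2), ∀ᶠ Q : W.Point in cofinite,
      j = 0 ∨ (j • Q ≠ 0 ∧ j • Q ≠ S ∧ j • Q ≠ -S) := by
    intro j _
    rcases eq_or_ne j 0 with rfl | hj
    · exact .of_forall fun _ => Or.inl rfl
    · filter_upwards [eventually_nsmul_ne hj 0, eventually_nsmul_ne hj S,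
        eventually_nsmul_ne hj (-S)] with Q h1 h2 h3
      exact Or.inr ⟨h1, h2, h3⟩
  filter_upwards [(eventually_all_finset _).mpr this] with Q hQ j hj
  exact hQ j (Finset.mem_range.mpr (by omega))

omit [IsAlgClosed K] [CharZero K] [W.IsElliptic] in
theorem Gen.mul {Q : W.Point} (h : Gen p S Q) {j : ℕ} (h1 : 1 ≤ j) (h2 : j ≤ p + 1) :
    j • Q ≠ 0 ∧ j • Q ≠ S ∧ j • Q ≠ -S :=
  (h j h2).resolve_left (by omega)

omit [IsAlgClosed K] [CharZero K] [W.IsElliptic] in
theorem Gen.one {Q : W.Point} (h : Gen p S Q) : Q ≠ 0 ∧ Q ≠ S ∧ Q ≠ -S := by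
  simpa using h.mul le_rfl (by omega)

omit [IsAlgClosed K] [CharZero K] [W.IsElliptic] in
theorem pev_vert_ne_zero {Q : W.Point} (hS0 : S ≠ 0) (h : Q ≠ 0 ∧ Q ≠ S ∧ Q ≠ -S) :
    pev S (vert Q) ≠ 0 := by
  rw [pev_vert hS0 h.1, sub_ne_zero]
  intro he
  rcases eq_or_eq_neg_of_px_eq h.1 hS0 he.symm with e | e
  · exact h.2.1 e
  · exact h.2.2 e

variable (hp : Odd p) (hS : p • S = 0) (hS0 : S ≠ 0)
include hp hS hS0

omit [CharZero K] in
/-- The line through `kQ` and `Q` misses `S`, and the recursion for `f_S(kQ)`. -/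
theorem gen_step {σ : K} (hσ2 : σ ^ 2 = 1) (hσ : ∀ A B : W.Point, A ≠ 0 → B ≠ 0 → A + B ≠ 0 →
      pev A (torsFun p S) * pev B (torsFun p S) * pev (-(A + B)) (torsFun p S) =
        σ * pev S (chord A B) ^ p)
    {Q : W.Point} (hQ : Gen p S Q) {k : ℕ} (h1 : 1 ≤ k) (h2 : k ≤ p) :
    pev S (chord (k • Q) Q) ≠ 0 ∧
      pev ((k + 1) • Q) (torsFun p S) * (σ * pev S (chord (k • Q) Q) ^ p) =
        pev (k • Q) (torsFun p S) * pev Q (torsFun p S) * pev S (vert ((k + 1) • Q)) ^ p := by
  have hk := hQ.mul h1 (by omega)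
  have hk1 := hQ.mul (j := k + 1) (by omega) (by omega)
  have hsum : k • Q + Q = (k + 1) • Q := (succ_nsmul Q k).symm
  have r := hσ (k • Q) Q hk.1 hQ.one.1 (by rw [hsum]; exact hk1.1)
  rw [hsum] at r
  have v := pev_mul_pev_neg hp hS hS0 hk1.1
  rw [← pev_vert hS0 hk1.1] at v
  have nz : ∀ {U : W.Point}, U ≠ 0 → U ≠ S → pev U (torsFun p S) ≠ 0 := fun hU0 hU =>
    mt (pev_torsFun_eq_zero_iff hp.pos.ne' hS hS0 hU0).mp hU
  refine ⟨fun hc => ?_, ?_⟩
  · rw [hc, zero_pow hp.pos.ne', mul_zero] at r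
    exact mul_ne_zero (mul_ne_zero (nz hk.1 hk.2.1) (nz hQ.one.1 hQ.one.2.1))
      (nz (neg_ne_zero.mpr hk1.1) fun h => hk1.2.2 (neg_eq_iff_eq_neg.mp h)) r
  · rw [← r, ← v]; ring

omit [CharZero K] in
theorem millerVal_ne_zero {Q : W.Point} (hQ : Gen p S Q) {k : ℕ} (hk : k ≤ p + 1) :
    millerVal S Q k ≠ 0 := by
  obtain ⟨σ, hσ2, hσ⟩ := exists_reciprocity hp hS hS0
  induction k with
  | zero => rw [millerVal_zero hS0]; exact one_ne_zero
  | succ k ih =>
    rw [millerVal_succ hS0]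
    refine mul_ne_zero (ih (by omega))
      (div_ne_zero ?_ (pev_vert_ne_zero hS0 (hQ.mul (by omega) hk)))
    rcases Nat.eq_zero_or_pos k with rfl | hk0
    · rw [zero_nsmul, chord_zero_left]
      exact pev_vert_ne_zero hS0 hQ.one
    · exact (gen_step hp hS hS0 hσ2 hσ hQ hk0 (by omega)).1

omit [CharZero K] in
/-- `g(Q)^p = f_S(pQ)`. -/
theorem gFun_pow {Q : W.Point} (hQ : Gen p S Q) :
    gFun p S Q ^ p = pev (p • Q) (torsFun p S) := by
  obtain ⟨σ, hσ2, hσ⟩ := exists_reciprocity hp hS hS0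
  have main : ∀ k, 1 ≤ k → k ≤ p →
      pev (k • Q) (torsFun p S) * σ ^ (k + 1) * millerVal S Q k ^ p =
        pev Q (torsFun p S) ^ k := by
    intro k hk
    induction k, hk using Nat.le_induction with
    | base =>
      intro _
      rw [millerVal_succ hS0, millerVal_zero hS0, zero_nsmul, chord_zero_left, zero_add, one_nsmul,
        div_self (pev_vert_ne_zero hS0 hQ.one), mul_one, one_pow, mul_one, hσ2, mul_one, pow_one]
    | succ k hk ih =>
      intro hkp
      obtain ⟨-, hstep⟩ := gen_step hp hS hS0 hσ2 hσ hQ hk (by omega)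
      have hv := pow_ne_zero p (pev_vert_ne_zero hS0 (hQ.mul (j := k + 1) (by omega) (by omega)))
      rw [millerVal_succ hS0, mul_pow, div_pow, pow_succ (pev Q (torsFun p S)), ← ih (by omega)]
      field_simp
      linear_combination (σ ^ (k + 1) * millerVal S Q k ^ p) * hstep
  have h := main p hp.pos le_rfl
  obtain ⟨m, hm⟩ := hp
  rw [show σ ^ (p + 1) = 1 by
    rw [show p + 1 = 2 * (m + 1) by omega, pow_mul, hσ2, one_pow], mul_one] at h
  rw [gFun, div_pow, ← h, mul_div_assoc, div_self (pow_ne_zero _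
    (millerVal_ne_zero (⟨m, hm⟩ : Odd p) hS hS0 hQ (by omega))), mul_one]

omit [CharZero K] in
/-- Translation by a torsion point multiplies `g` by Miller's ratio. -/
theorem gFun_add {Q T : W.Point} (hQ : Gen p S Q) (hT : p • T = 0) (hT0 : T ≠ 0) (hTS : T ≠ S)
    (hQ' : Gen p S (Q + T)) :
    ∃ σ : K, σ ^ 2 = 1 ∧ gFun p S (Q + T) * (σ * pev S (torsFun p T)) =
      gFun p S Q * pev T (torsFun p S) := by
  obtain ⟨σ, hσ2, hσ⟩ := exists_reciprocity hp hS hS0
  refine ⟨σ, hσ2, ?_⟩
  have hq' := hQ'.one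
  -- ideal computation
  obtain ⟨nf, sf⟩ := torsFun_spec hT
  obtain ⟨nn, nd⟩ := normalised_miller Q p
  obtain ⟨nn', nd'⟩ := normalised_miller (Q + T) p
  have e₁ := ptIdeal_pow Q p
  have e₂ := ptIdeal_pow (Q + T) p
  rw [nsmul_add, hT, add_zero] at e₂
  have key : (miller Q p).1 * torsFun p T * vert (Q + T) ^ p * (miller (Q + T) p).2 =
      chord Q T ^ p * (miller (Q + T) p).1 * (miller Q p).2 := by
    refine eq_of_span_mul_ptIdeal (((nn.mul nf).mul ((normalised_vert _).pow p)).mul nd')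
      ((((normalised_chord _ _).pow p).mul nn').mul nd) (P := p • Q) ?_
    simp only [← Ideal.span_singleton_mul_span_singleton, ← Ideal.span_singleton_pow, sf]
    calc Ideal.span {(miller Q p).1} * ptIdeal T ^ p * Ideal.span {vert (Q + T)} ^ p *
          Ideal.span {(miller (Q + T) p).2} * ptIdeal (p • Q)
        = (Ideal.span {(miller Q p).1} * ptIdeal (p • Q)) * ptIdeal T ^ p *
            Ideal.span {vert (Q + T)} ^ p * Ideal.span {(miller (Q + T) p).2} := by ring
      _ = (ptIdeal Q * ptIdeal T * Ideal.span {vert (Q + T)}) ^ p *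
            Ideal.span {(miller Q p).2} * Ideal.span {(miller (Q + T) p).2} := by rw [← e₁]; ring
      _ = Ideal.span {chord Q T} ^ p * (ptIdeal (Q + T) ^ p * Ideal.span {(miller (Q + T) p).2}) *
            Ideal.span {(miller Q p).2} := by rw [ptIdeal_mul]; ring
      _ = _ := by rw [e₂]; ring
  have hk := congrArg (pev S) key
  simp only [pev_mul hS0, pev_pow hS0] at hk
  -- reciprocity
  have r := hσ Q T hQ.one.1 hT0 hq'.1
  have v := pev_mul_pev_neg hp hS hS0 hq'.1
  rw [← pev_vert hS0 hq'.1] at v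
  have hM : ∀ {R : W.Point}, Gen p S R →
      pev S (miller R p).1 ≠ 0 ∧ pev S (miller R p).2 ≠ 0 := fun hR =>
    div_ne_zero_iff.mp (millerVal_ne_zero hp hS hS0 hR (Nat.le_succ p))
  have nz : ∀ {U : W.Point}, U ≠ 0 → U ≠ S → pev U (torsFun p S) ≠ 0 := fun hU0 hU =>
    mt (pev_torsFun_eq_zero_iff hp.pos.ne' hS hS0 hU0).mp hU
  have hl : pev S (chord Q T) ^ p ≠ 0 := by
    intro hl
    rw [hl, mul_zero] at r
    exact mul_ne_zero (mul_ne_zero (nz hQ.one.1 hQ.one.2.1) (nz hT0 hTS))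
      (nz (neg_ne_zero.mpr hq'.1) fun h => hq'.2.2 (neg_eq_iff_eq_neg.mp h)) r
  obtain ⟨hn, hd⟩ := hM hQ
  obtain ⟨hn', hd'⟩ := hM hQ'
  have hv := pow_ne_zero p (pev_vert_ne_zero hS0 hq')
  simp only [gFun, millerVal]
  set a := pev Q (torsFun p S)
  set b := pev T (torsFun p S)
  set c := pev (Q + T) (torsFun p S)
  set c' := pev (-(Q + T)) (torsFun p S)
  set t := pev S (torsFun p T)
  set l := pev S (chord Q T) ^ p
  set w := pev S (vert (Q + T)) ^ p
  set n := pev S (miller Q p).1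
  set d := pev S (miller Q p).2
  set n' := pev S (miller (Q + T) p).1
  set d' := pev S (miller (Q + T) p).2
  field_simp
  refine mul_right_cancel₀ hv ?_
  linear_combination c * σ * hk + (a * b * n' * d) * v - (n' * d * c) * r

/-- If `e(S, T) = 1` then `g` is periodic under translation by `T`. -/
theorem gFun_periodic {T : W.Point} (hT : p • T = 0) (hT0 : T ≠ 0) (hTS : T ≠ S)
    (he : wPair p S T = 1) : ∀ᶠ Q in cofinite, gFun p S (Q + T) = gFun p S Q := by
  filter_upwards [eventually_gen p S, (tendsto_add_const T).eventually (eventually_gen p S)]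
    with Q hQ hQ'
  obtain ⟨σ, hσ2, hadd⟩ := gFun_add hp hS hS0 hQ hT hT0 hTS hQ'
  have ht : pev S (torsFun p T) ≠ 0 :=
    mt (pev_torsFun_eq_zero_iff hp.pos.ne' hT hT0 hS0).mp hTS.symm
  have hg : gFun p S Q ≠ 0 := div_ne_zero
    (mt (pev_torsFun_eq_zero_iff hp.pos.ne' hS hS0 hQ.one.1).mp hQ.one.2.1)
    (millerVal_ne_zero hp hS hS0 hQ (Nat.le_succ p))
  rw [wPair, div_pow, div_eq_one_iff_eq (pow_ne_zero 2 ht)] at he
  have hsq : gFun p S (Q + T) ^ 2 = gFun p S Q ^ 2 := by
    have h2 := congrArg (· ^ 2) hadd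
    simp only [mul_pow, hσ2, one_mul, he] at h2
    exact mul_right_cancel₀ (pow_ne_zero 2 ht) h2
  rcases sq_eq_sq_iff_eq_or_eq_neg.mp hsq with h | h
  · exact h
  · exfalso
    have hpow := gFun_pow hp hS hS0 hQ'
    rw [nsmul_add, hT, add_zero, ← gFun_pow hp hS hS0 hQ, h, hp.neg_pow] at hpow
    exact pow_ne_zero p hg (self_eq_neg.mp hpow.symm)

/-- `g` is a rational function. -/
theorem isRat_gFun : IsRat fun Q : W.Point => gFun p S Q := by
  have hM : ∀ k, k ≤ p → IsRat fun Q : W.Point => millerVal S Q k := by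
    intro k hk
    induction k with
    | zero => simp only [millerVal_zero hS0]; exact IsRat.const 1
    | succ k ih =>
      have hv : IsRat fun Q : W.Point => pev S (vert ((k + 1) • Q)) := by
        refine ((IsRat.const (px S)).sub (isRat_nsmul_coords (k + 1) (by omega)).1).congr ?_
        filter_upwards [eventually_nsmul_ne (show k + 1 ≠ 0 by omega) 0] with Q hQ
        rw [pev_vert hS0 hQ]
      have hv0 : ∀ᶠ Q : W.Point in cofinite, pev S (vert ((k + 1) • Q)) ≠ 0 :=
        (eventually_gen p S).mono fun Q hQ =>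
          pev_vert_ne_zero hS0 (hQ.mul (by omega) (by omega))
      have hc : IsRat fun Q : W.Point => pev S (chord (k • Q) Q) := by
        rcases Nat.eq_zero_or_pos k with rfl | hk0
        · refine ((IsRat.const (px S)).sub IsRat.px).congr ?_
          filter_upwards [eventually_ne' 0] with Q hQ
          rw [zero_nsmul, chord_zero_left, pev_vert hS0 hQ]
        · obtain ⟨hx, hy⟩ := isRat_nsmul_coords (W := W) k hk0
          have hs := isRat_slope hk0 hx hy
          refine (((IsRat.const (py S)).sub (hs.mul (IsRat.const (px S)))).sub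
            (hy.sub (hs.mul hx))).congr ?_
          filter_upwards [eventually_nsmul_ne (show k ≠ 0 by omega) 0, eventually_ne' 0,
            eventually_nsmul_ne (show k + 1 ≠ 0 by omega) 0] with Q h1 h2 h3
          rw [pev_chord hS0 h1 h2 (by rw [← succ_nsmul]; exact h3)]
      simp only [millerVal_succ hS0]
      exact (ih (by omega)).mul (hc.div hv hv0)
  have hf : IsRat fun Q : W.Point => pev Q (torsFun p S) := by
    refine ⟨pA (torsFun p S), pB (torsFun p S), 1, one_ne_zero, ?_⟩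
    filter_upwards [eventually_ne' 0] with Q hQ
    rw [eval_one, mul_one, pev_eq hQ]
  exact hf.div (hM p le_rfl)
    ((eventually_gen p S).mono fun Q hQ => millerVal_ne_zero hp hS hS0 hQ (Nat.le_succ p))

end FLTAgent.EllTorsion

end
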