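import Fermat.Agent.EllTorsion.MulXAux

/-!
# Mathlib's division polynomials compute `x(n P)`: characteristic zero

`isMulBy_Φ_ΨSq`: over an algebraically closed field of characteristic zero the pair
`(Φₙ, ΨSqₙ)` computes multiplication by `n` on `x`. The induction compares the relation between
`i`, `j`, `i + j`, `i - j` given by the group law (`IsMulBy.relation`) with the squared
recursions of the division polynomials.
-/

noncomputable section

open WeierstrassCurve Polynomial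

namespace FLTAgent.EllTorsion

section Ring

variable {R : Type*} [CommRing R] (W : WeierstrassCurve R)

theorem X_mul_ΨSq_sub_Φ_sq (n : ℤ) :
    (X * W.ΨSq n - W.Φ n) ^ 2 = W.ΨSq (n + 1) * W.ΨSq (n - 1) := by
  simp only [WeierstrassCurve.Φ, ΨSq, Int.even_add_one, Int.even_sub_one]
  split_ifs <;> ring

theorem Φ_ΨSq_sq_odd (m : ℤ) :
    (W.Φ (m + 1) * W.ΨSq m - W.ΨSq (m + 1) * W.Φ m) ^ 2 = W.ΨSq (2 * m + 1) := by
  rw [ΨSq_odd]
  simp only [WeierstrassCurve.Φ, ΨSq, Int.even_add_one, add_sub_cancel_right,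
    show m + 1 + 1 = m + 2 by ring]
  split_ifs <;> ring

theorem Φ_ΨSq_sq_even (m : ℤ) :
    (W.Φ (m + 1) * W.ΨSq (m - 1) - W.ΨSq (m + 1) * W.Φ (m - 1)) ^ 2 =
      W.ΨSq (2 * m) * W.Ψ₂Sq := by
  rw [ΨSq_even]
  simp only [WeierstrassCurve.Φ, ΨSq, Int.even_add_one, Int.even_sub_one, add_sub_cancel_right,
    sub_add_cancel, show m + 1 + 1 = m + 2 by ring, show m - 1 - 1 = m - 2 by ring]
  split_ifs <;> ring

theorem pairA_X_one : pairA W X 1 X 1 = W.Φ 2 := by
  rw [Φ_two]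
  simp only [pairA, asmA, map_b₄, map_b₆, map_b₈, map_mul, map_ofNat]
  ring

theorem pairB_X_one : pairB W X 1 X 1 = W.Ψ₂Sq := by
  simp only [pairB, asmB, Ψ₂Sq, map_b₂, map_b₄, map_b₆, map_mul, map_ofNat]
  ring

theorem pairA_two_one : pairA W (W.Φ 2) W.Ψ₂Sq X 1 = W.Φ 3 * X := by
  have hb : 4 * C W.b₈ = C W.b₂ * C W.b₆ - C W.b₄ ^ 2 := by
    rw [← map_mul, ← map_pow, ← map_sub, ← b_relation, map_mul, map_ofNat]
  rw [Φ_two, Φ_three]
  simp only [pairA, asmA, map_b₄, map_b₆, map_b₈, preΨ₄, Ψ₃, Ψ₂Sq, map_mul, map_sub, map_pow,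
    map_ofNat]
  grind

theorem degree_ΨSq_lt [Nontrivial R] (n : ℕ) {F : R[X]} (hF : F.Monic)
    (hd : F.natDegree = n ^ 2) : (W.ΨSq n).degree < F.degree := by
  rcases Nat.eq_zero_or_pos n with rfl | hn
  · rw [Nat.cast_zero, ΨSq_zero, degree_zero, bot_lt_iff_ne_bot, ne_eq, degree_eq_bot]
    exact hF.ne_zero
  refine (degree_le_natDegree).trans_lt ?_
  rw [degree_eq_natDegree hF.ne_zero, Nat.cast_lt, hd]
  have h := W.natDegree_ΨSq_le (n : ℤ)
  simp only [Int.natAbs_natCast] at h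
  have : 0 < n ^ 2 := pow_pos hn 2
  omega

theorem pair_eval_ne_zero {K : Type*} [Field K] {W : Affine K} [W.IsElliptic] {F G F' G' : K[X]} {x : K} (h : ¬(F.eval x = 0 ∧ G.eval x = 0))
    (h' : ¬(F'.eval x = 0 ∧ G'.eval x = 0)) :
    ¬((pairA W F G F' G').eval x = 0 ∧ (pairB W F G F' G').eval x = 0 ∧
      (pairD F G F' G').eval x = 0) := by
  rintro ⟨h1, h2, h3⟩
  rw [eval_pairA] at h1; rw [eval_pairB] at h2; rw [eval_pairD] at h3
  exact sym_ne_zero h h' (asm_eq_zero W h1 h2 h3)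

end Ring

section AlgClosed

variable {K : Type*} [Field K] [DecidableEq K] [IsAlgClosed K] {W : Affine K} [W.IsElliptic]

/-- The pair `F, G` computes `x(n P) = F(x)/G(x)`. -/
structure IsMulBy (W : Affine K) (n : ℕ) (F G : K[X]) : Prop where
  monic : F.Monic
  natDegree_eq : F.natDegree = n ^ 2
  ne_zero : ∀ x, ¬(F.eval x = 0 ∧ G.eval x = 0)
  rep : ∀ (x y : K) (h : W.Nonsingular x y),
    XRepIs (n • Affine.Point.some x y h) (F.eval x) (G.eval x)

theorem exists_nonsingular (x : K) : ∃ y, W.Nonsingular x y := by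
  obtain ⟨y, hy⟩ := IsAlgClosed.exists_root
    (X ^ 2 + C (W.a₁ * x + W.a₃) * X - C (x ^ 3 + W.a₂ * x ^ 2 + W.a₄ * x + W.a₆) : K[X])
    (by rw [show (X ^ 2 + C (W.a₁ * x + W.a₃) * X -
        C (x ^ 3 + W.a₂ * x ^ 2 + W.a₄ * x + W.a₆) : K[X]).degree = 2 by compute_degree!]
        decide)
  refine ⟨y, (Affine.equation_iff_nonsingular).mp ?_⟩
  rw [Affine.equation_iff]
  simp only [IsRoot.def, eval_sub, eval_add, eval_mul, eval_pow, eval_X, eval_C] at hy
  linear_combination hy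

theorem isMulBy_zero : IsMulBy W 0 1 0 :=
  ⟨monic_one, by simp, fun x => by simp, fun x y h => by simpa using xRepIs_zero⟩

theorem isMulBy_one : IsMulBy W 1 X 1 :=
  ⟨monic_X, by simp, fun x => by simp, fun x y h => by simpa using xRepIs_some h⟩

theorem rep_pair {i j k l : ℕ} (hk : k = i + j) (hl : i = j + l) {Fi Gi Fj Gj : K[X]}
    (hi : IsMulBy W i Fi Gi) (hj : IsMulBy W j Fj Gj) {x y : K} (h : W.Nonsingular x y)
    {a b a' b' : K} (hs : XRepIs (k • Affine.Point.some x y h) a b)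
    (hd : XRepIs (l • Affine.Point.some x y h) a' b') :
    ∃ c : K, c ≠ 0 ∧ a * a' = c * (pairA W Fi Gi Fj Gj).eval x ∧
      a * b' + b * a' = c * (pairB W Fi Gi Fj Gj).eval x ∧
      b * b' = c * (pairD Fi Gi Fj Gj).eval x := by
  simp only [eval_pairA, eval_pairB, eval_pairD]
  subst hk hl
  refine (hi.rep x y h).addSub (hj.rep x y h) ?_ ?_
  · rwa [← add_nsmul]
  · rwa [add_comm j l, add_nsmul, add_sub_cancel_right]

/-- The exact relation between `i`, `j`, `i + j` and `i - j`. -/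
theorem IsMulBy.relation {i j k l : ℕ} (hk : k = i + j) (hl : i = j + l)
    {Fi Gi Fj Gj Fk Gk Fl Gl : K[X]} (hi : IsMulBy W i Fi Gi) (hj : IsMulBy W j Fj Gj)
    (hgi : Gi.degree < Fi.degree) (hgj : Gj.degree < Fj.degree) (hk' : IsMulBy W k Fk Gk)
    (hl' : IsMulBy W l Fl Gl) :
    Fk * Fl = pairA W Fi Gi Fj Gj ∧ Fk * Gl + Gk * Fl = pairB W Fi Gi Fj Gj ∧
      Gk * Gl = pairD Fi Gi Fj Gj := by
  refine triple_eq_of_proportional (fun x => pair_eval_ne_zero (hi.ne_zero x) (hj.ne_zero x))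
    (fun x => ?_) (monic_pairA W hi.monic hj.monic hgi hgj).1 (hk'.monic.mul hl'.monic)
  obtain ⟨y, h⟩ := exists_nonsingular (W := W) x
  simpa using rep_pair hk hl hi hj h (hk'.rep x y h) (hl'.rep x y h)

/-- From multiplication by `m` and `m + 1` to multiplication by `m + 2`. -/
theorem IsMulBy.exists_next {m : ℕ} {Fm Gm F G : K[X]} (hm : IsMulBy W m Fm Gm)
    (hn : IsMulBy W (m + 1) F G) (hg : G.degree < F.degree) :
    ∃ F' G', IsMulBy W (m + 2) F' G' ∧ F' * Fm = pairA W F G X 1 ∧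
      F' * Gm + G' * Fm = pairB W F G X 1 ∧ G' * Gm = pairD F G X 1 := by
  have hone : (1 : K[X]).degree < (X : K[X]).degree := by simp
  obtain ⟨hA, hAd⟩ := monic_pairA W hn.monic monic_X hg hone
  set A := pairA W F G X 1 with hA'
  set B := pairB W F G X 1 with hB'
  set D := pairD F G X 1 with hD'
  have hpt : ∀ (x y : K) (h : W.Nonsingular x y), ∀ {a b : K},
      XRepIs ((m + 2) • Affine.Point.some x y h) a b →
      ∃ c : K, c ≠ 0 ∧ a * Fm.eval x = c * A.eval x ∧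
        a * Gm.eval x + b * Fm.eval x = c * B.eval x ∧ b * Gm.eval x = c * D.eval x :=
    fun x y h a b hr =>
      rep_pair (k := m + 2) (by ring) (l := m) (by ring) hn isMulBy_one h hr (hm.rep x y h)
  have hxrep : ∀ P : W.Point, XRepIs P (P.xRep 0) (P.xRep 1) :=
    fun P => ⟨1, one_ne_zero, by ext i; fin_cases i <;> simp⟩
  have hR : A * Gm ^ 2 - B * Fm * Gm + D * Fm ^ 2 = 0 := Polynomial.funext fun x => by
    obtain ⟨y, h⟩ := exists_nonsingular (W := W) x
    obtain ⟨c, hc, e1, e2, e3⟩ := hpt x y h (hxrep _)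
    simp only [eval_add, eval_sub, eval_mul, eval_pow, eval_zero]
    refine (mul_eq_zero.mp ?_).resolve_left hc
    linear_combination -(Gm.eval x ^ 2) * e1 + Fm.eval x * Gm.eval x * e2 - Fm.eval x ^ 2 * e3
  have hcop : IsCoprime Fm Gm := isCoprime_of_forall_eval hm.ne_zero
  obtain ⟨F', hF'⟩ : Fm ∣ A :=
    (hcop.pow_right (n := 2)).dvd_of_dvd_mul_right
      ⟨B * Gm - D * Fm, by linear_combination hR⟩
  have hR' : Gm * (B - F' * Gm) = Fm * D := by
    refine mul_left_cancel₀ hm.monic.ne_zero ?_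
    linear_combination -hR + Gm ^ 2 * hF'
  obtain ⟨G', hG'⟩ : Fm ∣ B - F' * Gm := hcop.dvd_of_dvd_mul_left ⟨D, hR'⟩
  have hD : D = G' * Gm := by
    refine mul_left_cancel₀ hm.monic.ne_zero ?_
    rw [← hR', hG']; ring
  have hB : B = F' * Gm + G' * Fm := by linear_combination hG'
  have hF'm : F'.Monic := hm.monic.of_mul_monic_left (hF' ▸ hA)
  have hne : ∀ x, ¬(F'.eval x = 0 ∧ G'.eval x = 0) := by
    rintro x ⟨h1, h2⟩
    refine pair_eval_ne_zero (W := W) (F' := X) (G' := 1) (hn.ne_zero x) (by simp) ?_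
    rw [← hA', ← hB', ← hD', hF', hB, hD]
    simp [h1, h2]
  refine ⟨F', G', ⟨hF'm, ?_, hne, fun x y h => ?_⟩, by rw [hF']; ring, hB.symm, hD.symm⟩
  · have h2 := hm.monic.natDegree_mul hF'm
    rw [← hF', hAd, hn.natDegree_eq, hm.natDegree_eq, natDegree_X] at h2
    zify at h2 ⊢
    linear_combination -h2
  · obtain ⟨c, hc, e1, e2, e3⟩ := hpt x y h (hxrep _)
    rw [hF'] at e1; rw [hB] at e2; rw [hD] at e3
    simp only [eval_add, eval_mul] at e1 e2 e3
    obtain ⟨ha, hb⟩ := sym_cancel (A := F'.eval x) (B := G'.eval x) (c := c) (hm.ne_zero x)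
      (by rw [e1]; ring) e2 e3
    refine ⟨c, hc, ?_⟩
    ext i; fin_cases i <;> simp [ha, hb]

theorem isMulBy_two : IsMulBy W 2 (W.Φ 2) (W.ΨSq 2) := by
  obtain ⟨F', G', h, h1, h2, -⟩ := isMulBy_zero.exists_next (W := W) isMulBy_one (by simp)
  rw [mul_one, pairA_X_one] at h1
  rw [mul_zero, zero_add, mul_one, pairB_X_one, ← ΨSq_two] at h2
  rwa [h1, h2] at h

theorem isMulBy_three : IsMulBy W 3 (W.Φ 3) (W.ΨSq 3) := by
  obtain ⟨F', G', h, h1, -, h3⟩ := isMulBy_one.exists_next (W := W) isMulBy_two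
    (degree_ΨSq_lt W 2 isMulBy_two.monic isMulBy_two.natDegree_eq)
  rw [ΨSq_two, pairA_two_one] at h1
  have hF := mul_right_cancel₀ X_ne_zero h1
  have h3' : G' = W.ΨSq 3 := by
    rw [mul_one] at h3
    rw [h3, pairD_eq, mul_one]
    have h2 := X_mul_ΨSq_sub_Φ_sq W (2 : ℤ)
    norm_num only at h2
    rw [ΨSq_one, mul_one] at h2
    rw [← h2]
    ring
  rwa [hF, h3'] at h

/-- The denominator at `N` from smaller indices. -/
theorem denom_eq_ΨSq [CharZero K] {N : ℕ} (hN : 4 ≤ N)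
    (ih : ∀ n, 2 * n ≤ N + 2 → IsMulBy W n (W.Φ n) (W.ΨSq n)) {F G : K[X]}
    (h : IsMulBy W N F G) : G = W.ΨSq N := by
  have hdeg : ∀ n : ℕ, 2 * n ≤ N + 2 → (W.ΨSq n).degree < (W.Φ n).degree := fun n hn =>
    degree_ΨSq_lt W n (ih n hn).monic (ih n hn).natDegree_eq
  rcases Nat.even_or_odd' N with ⟨m, rfl | rfl⟩
  · obtain ⟨m, rfl⟩ : ∃ j, m = j + 2 := ⟨m - 2, by omega⟩
    have h3 := (IsMulBy.relation (k := 2 * (m + 2)) (l := 2) (i := m + 3) (j := m + 1) (by ring)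
      (by ring) (ih (m + 3) (by omega)) (ih (m + 1) (by omega)) (hdeg (m + 3) (by omega))
      (hdeg (m + 1) (by omega)) h isMulBy_two).2.2
    rw [pairD_eq, show ((m + 3 : ℕ) : ℤ) = ((m : ℤ) + 2) + 1 by push_cast; ring,
      show ((m + 1 : ℕ) : ℤ) = ((m : ℤ) + 2) - 1 by push_cast; ring, Φ_ΨSq_sq_even,
      ΨSq_two] at h3
    rw [mul_right_cancel₀ (W.Ψ₂Sq_ne_zero (by norm_num)) h3]
    push_cast; rfl
  · have h3 := (IsMulBy.relation (k := 2 * m + 1) (l := 1) (i := m + 1) (j := m) (by ring)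
      (by ring) (ih (m + 1) (by omega)) (ih m (by omega)) (hdeg (m + 1) (by omega))
      (hdeg m (by omega)) h isMulBy_one).2.2
    rw [mul_one, pairD_eq, show ((m + 1 : ℕ) : ℤ) = (m : ℤ) + 1 by push_cast; rfl,
      Φ_ΨSq_sq_odd] at h3
    rw [h3]
    push_cast; rfl

theorem isMulBy_aux [CharZero K] (N : ℕ) (hN : 4 ≤ N) :
    (∀ n < N, IsMulBy W n (W.Φ n) (W.ΨSq n)) ∧ ∃ F, IsMulBy W N F (W.ΨSq N) := by
  induction N, hN using Nat.le_induction with
  | base =>
    have hsmall : ∀ n < 4, IsMulBy W n (W.Φ n) (W.ΨSq n) := by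
      intro n hn
      interval_cases n
      · simpa using isMulBy_zero
      · simpa using isMulBy_one
      · exact_mod_cast isMulBy_two
      · exact_mod_cast isMulBy_three
    refine ⟨hsmall, ?_⟩
    obtain ⟨F', G', h, -⟩ := (hsmall 2 (by norm_num)).exists_next (hsmall 3 (by norm_num))
      (degree_ΨSq_lt W 3 (hsmall 3 (by norm_num)).monic (hsmall 3 (by norm_num)).natDegree_eq)
    exact ⟨F', denom_eq_ΨSq le_rfl (fun n hn => hsmall n (by omega)) h ▸ h⟩
  | succ N hN ih =>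
    obtain ⟨hlt, F, hF⟩ := ih
    obtain ⟨M, rfl⟩ : ∃ M, N = M + 1 := ⟨N - 1, by omega⟩
    obtain ⟨F', G', h', -, -, hD⟩ := (hlt M (by omega)).exists_next hF
      (degree_ΨSq_lt W (M + 1) hF.monic hF.natDegree_eq)
    obtain rfl := denom_eq_ΨSq (by omega) (fun n hn => hlt n (by omega)) h'
    have hsq : (X * W.ΨSq (M + 1 : ℕ) - F) ^ 2 =
        (X * W.ΨSq (M + 1 : ℕ) - W.Φ (M + 1 : ℕ)) ^ 2 := by
      rw [X_mul_ΨSq_sub_Φ_sq, show ((M + 1 : ℕ) : ℤ) - 1 = (M : ℕ) by push_cast; ring,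
        show ((M + 1 : ℕ) : ℤ) + 1 = (M + 2 : ℕ) by push_cast; ring, hD, pairD_eq]
      ring
    have hF' : F = W.Φ (M + 1 : ℕ) := by
      rcases sq_eq_sq_iff_eq_or_eq_neg.mp hsq with he | he
      · linear_combination -he
      · exfalso
        obtain ⟨d, hd⟩ : ∃ d, (M + 1) ^ 2 = d + 1 := ⟨(M + 1) ^ 2 - 1, by
          have : 0 < (M + 1) ^ 2 := by positivity
          omega⟩
        have hc := congrArg (fun p : K[X] => p.coeff (d + 1)) he
        have hF1 : F.coeff (d + 1) = 1 := by rw [← hd, ← hF.natDegree_eq]; exact hF.monic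
        have hΦ : (W.Φ (M + 1 : ℕ)).coeff (d + 1) = 1 := by
          rw [← hd, ← coeff_Φ W ((M + 1 : ℕ) : ℤ), Int.natAbs_natCast]
        have hΨ : (W.ΨSq (M + 1 : ℕ)).coeff d = ((M + 1 : ℕ) : K) ^ 2 := by
          have h := coeff_ΨSq W ((M + 1 : ℕ) : ℤ)
          rwa [Int.natAbs_natCast, Int.cast_natCast, hd, Nat.add_sub_cancel] at h
        simp only [coeff_sub, coeff_neg, coeff_X_mul, hF1, hΦ, hΨ] at hc
        have hk : ((M + 1 : ℕ) : K) ^ 2 = 1 := by linear_combination hc / 2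
        have : ((M + 1) ^ 2 : ℕ) = 1 := by exact_mod_cast hk
        nlinarith
    subst hF'
    refine ⟨fun n hn => ?_, F', h'⟩
    rcases eq_or_lt_of_le (Nat.lt_succ_iff.mp hn) with rfl | hn'
    · exact hF
    · exact hlt n hn'

/-- Mathlib's division polynomials compute multiplication on `x`-coordinates. -/
theorem isMulBy_Φ_ΨSq [CharZero K] (n : ℕ) : IsMulBy W n (W.Φ n) (W.ΨSq n) :=
  (isMulBy_aux (n + 4) (by omega)).1 n (by omega)

end AlgClosed

end FLTAgent.EllTorsion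

end
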