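import Fermat.Agent.EllTorsion.Miller
import Fermat.Agent.EllTorsion.MulXChar0
import Mathlib.LinearAlgebra.Matrix.Determinant.Basic

/-!
# The norm along lines, and the reciprocity law for lines

`lineNorm` multiplies the values of a function at the three intersections with a line, defined as
a determinant at the companion matrix of the cubic. For the function of a `p`-torsion point it is
`± (y₀ - λ x₀ - ν) ^ p` (`exists_lineNorm_torsFun`), which gives the reciprocity law with the line
through two points (`pev_mul_pev_torsFun`).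
-/

noncomputable section

open WeierstrassCurve Polynomial Matrix
open scoped Polynomial.Bivariate

namespace FLTAgent.EllTorsion

section Companion

variable {R S : Type*} [CommRing R] [CommRing S]

/-- The companion matrix of `X³ + c₂X² + c₁X + c₀`. -/
def cubMatrix (c₂ c₁ c₀ : R) : Matrix (Fin 3) (Fin 3) R :=
  !![0, 0, -c₀; 1, 0, -c₁; 0, 1, -c₂]

/-- The cubic polynomial `X³ + c₂X² + c₁X + c₀`. -/
def cubPoly (c₂ c₁ c₀ : R) : R[X] := X ^ 3 + C c₂ * X ^ 2 + C c₁ * X + C c₀

theorem aeval_cubMatrix_cubPoly (c₂ c₁ c₀ : R) :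
    aeval (cubMatrix c₂ c₁ c₀) (cubPoly c₂ c₁ c₀) = 0 := by
  simp only [cubPoly, map_add, map_mul, aeval_X, aeval_C, Algebra.algebraMap_eq_smul_one,
    smul_mul_assoc, one_mul, pow_succ, pow_zero]
  ext i j
  fin_cases i <;> fin_cases j <;>
    simp [cubMatrix] <;> ring

theorem det_cubMatrix_sub (c₂ c₁ c₀ r : R) :
    (aeval (cubMatrix c₂ c₁ c₀) (X - C r)).det = -(cubPoly c₂ c₁ c₀).eval r := by
  simp [cubMatrix, cubPoly, Matrix.det_fin_three, Algebra.algebraMap_eq_smul_one]
  ring

theorem det_aeval_C (c₂ c₁ c₀ c : R) :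
    (aeval (cubMatrix c₂ c₁ c₀) (C c)).det = c ^ 3 := by
  simp [Algebra.algebraMap_eq_smul_one]

theorem det_aeval_map (g : R →+* S) (M : Matrix (Fin 3) (Fin 3) R) (q : R[X]) :
    g (aeval M q).det = (aeval (M.map g) (q.map g)).det := by
  rw [RingHom.map_det]
  congr 1
  induction q using Polynomial.induction_on' with
  | add a b ha hb => simp only [map_add, Polynomial.map_add, ha, hb]
  | monomial n a =>
    simp only [Polynomial.map_monomial, aeval_monomial, map_mul, map_pow,
      Algebra.algebraMap_eq_smul_one]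
    rw [show g.mapMatrix (a • (1 : Matrix (Fin 3) (Fin 3) R)) = g a • 1 by
      ext i j; by_cases h : i = j <;> simp [h]]
    rw [show g.mapMatrix M = M.map g from rfl]

end Companion

section Line

variable {K R S : Type*} [Field K] [CommRing R] [CommRing S] [Algebra K R] [Algebra K S]
  (W : Affine K)

/-- The restriction of a function to the line `Y = lam X + nu`. -/
def lineRestrict (lam nu : R) (f : W.CoordinateRing) : R[X] :=
  (pA f).map (algebraMap K R) + (pB f).map (algebraMap K R) * (C lam * X + C nu)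

/-- The companion matrix of the intersection with the line. -/
def lineMatrix (lam nu : R) : Matrix (Fin 3) (Fin 3) R :=
  cubMatrix (algebraMap K R W.a₂ - lam ^ 2 - algebraMap K R W.a₁ * lam)
    (algebraMap K R W.a₄ - 2 * lam * nu - algebraMap K R W.a₁ * nu - algebraMap K R W.a₃ * lam)
    (algebraMap K R W.a₆ - nu ^ 2 - algebraMap K R W.a₃ * nu)

/-- The cubic of the intersection with the line. -/
def lineCubic (lam nu : R) : R[X] :=
  cubPoly (algebraMap K R W.a₂ - lam ^ 2 - algebraMap K R W.a₁ * lam)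
    (algebraMap K R W.a₄ - 2 * lam * nu - algebraMap K R W.a₁ * nu - algebraMap K R W.a₃ * lam)
    (algebraMap K R W.a₆ - nu ^ 2 - algebraMap K R W.a₃ * nu)

/-- The product of the values of a function on the intersection with a line. -/
def lineNorm (lam nu : R) (f : W.CoordinateRing) : R :=
  (aeval (lineMatrix W lam nu) (lineRestrict W lam nu f)).det

theorem lineNorm_mul (lam nu : R) (f g : W.CoordinateRing) :
    lineNorm W lam nu (f * g) = lineNorm W lam nu f * lineNorm W lam nu g := by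
  have e : lineRestrict W lam nu f * lineRestrict W lam nu g = lineRestrict W lam nu (f * g) +
      lineCubic W lam nu * -((pB f).map (algebraMap K R) * (pB g).map (algebraMap K R)) := by
    obtain ⟨a, b, rfl⟩ := exists_el f
    obtain ⟨a', b', rfl⟩ := exists_el g
    simp only [el_mul, lineRestrict, pA_el, pB_el, lineCubic, cubPoly, Polynomial.map_add,
      Polynomial.map_sub, Polynomial.map_mul, Polynomial.map_pow, map_X, map_C, map_sub, map_mul,
      map_pow, map_ofNat]
    ring
  rw [lineNorm, lineNorm, lineNorm, ← det_mul, ← map_mul, e, map_add, map_mul,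
    show aeval (lineMatrix W lam nu) (lineCubic W lam nu) = 0 from aeval_cubMatrix_cubPoly _ _ _,
    zero_mul, add_zero]

theorem map_lineNorm (g : R →ₐ[K] S) (lam nu : R) (f : W.CoordinateRing) :
    g (lineNorm W lam nu f) = lineNorm W (g lam) (g nu) f := by
  rw [lineNorm, ← AlgHom.coe_toRingHom, det_aeval_map, lineNorm]
  congr 3
  · ext i j
    fin_cases i <;> fin_cases j <;> simp [lineMatrix, cubMatrix, map_ofNat]
  · simp [lineRestrict, Polynomial.map_map]

theorem lineNorm_mk_C_smul_pow (lam nu : R) (c r : K) (n : ℕ) :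
    lineNorm W lam nu (Affine.CoordinateRing.mk W (C (C c * (X - C r) ^ n))) =
      algebraMap K R c ^ 3 * (-(lineCubic W lam nu).eval (algebraMap K R r)) ^ n := by
  rw [lineNorm, lineRestrict, mk_C_eq_el, pA_el, pB_el]
  simp only [Polynomial.map_zero, zero_mul,
    add_zero, Polynomial.map_mul, Polynomial.map_pow, Polynomial.map_sub, map_C, map_X, map_mul,
    map_pow, det_mul, det_pow]
  rw [lineMatrix, det_aeval_C, det_cubMatrix_sub]
  rfl

theorem lineNorm_conj (lam nu : R) (f : W.CoordinateRing) :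
    lineNorm W lam nu (conj W f) =
      lineNorm W (-lam - algebraMap K R W.a₁) (-nu - algebraMap K R W.a₃) f := by
  obtain ⟨a, b, rfl⟩ := exists_el f
  have hM : lineMatrix W (-lam - algebraMap K R W.a₁) (-nu - algebraMap K R W.a₃) =
      lineMatrix W lam nu := by
    simp only [lineMatrix]
    congr 1 <;> ring
  have hS : lineRestrict W lam nu (conj W (el W a b)) =
      lineRestrict W (-lam - algebraMap K R W.a₁) (-nu - algebraMap K R W.a₃) (el W a b) := by
    simp only [lineRestrict, conj_el, pA_el, pB_el, Polynomial.map_sub, Polynomial.map_mul,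
      Polynomial.map_add, Polynomial.map_neg, map_C, map_X, map_sub, map_neg]
    ring
  rw [lineNorm, lineNorm, hM, hS]

end Line

section Field

variable {K : Type*} [Field K] [IsAlgClosed K] (W : Affine K)

theorem lineNorm_eq_roots (lam n : K) (f : W.CoordinateRing) :
    lineNorm W lam n f = (lineRestrict W lam n f).leadingCoeff ^ 3 *
      ((lineRestrict W lam n f).roots.map fun r => -(lineCubic W lam n).eval r).prod := by
  set h := lineRestrict W lam n f with hh
  have hs : (aeval (lineMatrix W lam n)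
      (h.roots.map fun r => (X : K[X]) - C r).prod).det =
      (h.roots.map fun r => -(lineCubic W lam n).eval r).prod := by
    induction h.roots using Multiset.induction with
    | empty => simp
    | cons a s ih =>
      rw [Multiset.map_cons, Multiset.prod_cons, map_mul, det_mul, ih, Multiset.map_cons,
        Multiset.prod_cons]
      congr 1
      exact det_cubMatrix_sub _ _ _ _
  conv_lhs => rw [lineNorm, ← hh, (IsAlgClosed.splits h).eq_prod_roots]
  rw [map_mul, det_mul, hs, lineMatrix, det_aeval_C]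

theorem lineNorm_eq_prod {lam n x₁ x₂ x₃ : K}
    (h : lineCubic W lam n = (X - C x₁) * (X - C x₂) * (X - C x₃)) (f : W.CoordinateRing) :
    lineNorm W lam n f = (lineRestrict W lam n f).eval x₁ * (lineRestrict W lam n f).eval x₂ *
      (lineRestrict W lam n f).eval x₃ := by
  set g := lineRestrict W lam n f with hg
  have e : ∀ x, g.eval x = g.leadingCoeff * (g.roots.map fun r => x - r).prod := by
    intro x
    conv_lhs => rw [(IsAlgClosed.splits g).eq_prod_roots]
    simp [eval_multiset_prod]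
  rw [lineNorm_eq_roots, ← hg, e x₁, e x₂, e x₃, h]
  rw [show (g.roots.map fun r => -eval r ((X - C x₁) * (X - C x₂) * (X - C x₃))).prod =
    (g.roots.map fun r => (x₁ - r) * (x₂ - r) * (x₃ - r)).prod from
      congrArg _ (Multiset.map_congr rfl fun r _ => by simp; ring)]
  rw [Multiset.prod_map_mul, Multiset.prod_map_mul]
  ring

theorem lineCubic_eq_slope [DecidableEq K] {x₁ y₁ x₂ y₂ : K} (h₁ : W.Equation x₁ y₁)
    (h₂ : W.Equation x₂ y₂) (hxy : ¬(x₁ = x₂ ∧ y₁ = W.negY x₂ y₂)) :
    lineCubic W (W.slope x₁ x₂ y₁ y₂) (y₁ - W.slope x₁ x₂ y₁ y₂ * x₁) =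
      (X - C x₁) * (X - C x₂) * (X - C (W.addX x₁ x₂ (W.slope x₁ x₂ y₁ y₂))) := by
  have h := W.addPolynomial_slope h₁ h₂ hxy
  rw [Affine.addPolynomial, Affine.polynomial, Affine.linePolynomial] at h
  simp only [eval_add, eval_sub, eval_mul, eval_pow, eval_C, eval_X] at h
  simp only [lineCubic, cubPoly, Algebra.algebraMap_self, RingHom.id_apply, map_sub, map_mul,
    map_pow, map_ofNat]
  linear_combination -h

end Field

section Torsion

variable {K : Type*} [Field K] [IsAlgClosed K] [DecidableEq K] {W : Affine K} [W.IsElliptic]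

theorem eval_lineCubic (lam n x : K) : (lineCubic W lam n).eval x =
    x ^ 3 + W.a₂ * x ^ 2 + W.a₄ * x + W.a₆ -
      ((lam * x + n) ^ 2 + W.a₁ * x * (lam * x + n) + W.a₃ * (lam * x + n)) := by
  simp [lineCubic, cubPoly]; ring

/-- A line meets the zero locus of `f_T` only at `T`. -/
theorem lineNorm_torsFun_eq_zero {p : ℕ} (hp : p ≠ 0) {x₀ y₀ : K} {h₀ : W.Nonsingular x₀ y₀}
    (hT : p • Affine.Point.some x₀ y₀ h₀ = 0) {lam n : K}
    (hz : lineNorm W lam n (torsFun p (Affine.Point.some x₀ y₀ h₀)) = 0) :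
    n = y₀ - lam * x₀ := by
  set g := lineRestrict W lam n (torsFun p (Affine.Point.some x₀ y₀ h₀)) with hg
  obtain ⟨x, hc, hx⟩ : ∃ x, (lineCubic W lam n).eval x = 0 ∧ g.eval x = 0 := by
    rw [lineNorm_eq_roots, ← hg, mul_eq_zero] at hz
    rcases hz with hz | hz
    · have hd : (lineCubic W lam n).degree = 3 := by
        simp only [lineCubic, cubPoly]; compute_degree!
      obtain ⟨x, hx⟩ := IsAlgClosed.exists_root (lineCubic W lam n) (by rw [hd]; decide)
      refine ⟨x, hx, ?_⟩
      rw [leadingCoeff_eq_zero.mp ((pow_eq_zero_iff (by norm_num)).mp hz), eval_zero]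
    · rw [Multiset.prod_eq_zero_iff, Multiset.mem_map] at hz
      obtain ⟨r, hr, hr0⟩ := hz
      exact ⟨r, neg_eq_zero.mp hr0, (mem_roots'.mp hr).2⟩
  have he : W.Equation x (lam * x + n) := by
    rw [Affine.equation_iff]
    rw [eval_lineCubic] at hc
    linear_combination -hc
  have hP : W.Nonsingular x (lam * x + n) := Affine.equation_iff_nonsingular.mp he
  have h0 : pev (Affine.Point.some x (lam * x + n) hP) (torsFun p (Affine.Point.some x₀ y₀ h₀)) =
      0 := by
    rw [pev_some, ← el_pA_pB (torsFun p (Affine.Point.some x₀ y₀ h₀)), evalAt_el]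
    simpa [hg, lineRestrict] using hx
  have := (pev_torsFun_eq_zero_iff hp hT (Affine.Point.some_ne_zero h₀)
    (Affine.Point.some_ne_zero hP)).mp h0
  simp only [Affine.Point.some.injEq] at this
  obtain ⟨rfl, hy⟩ := this
  linear_combination hy

theorem eq_C_mul_pow_of_roots {P : K[X]} {r : K} (h : ∀ x, P.eval x = 0 → x = r) :
    ∃ c i, P = C c * (X - C r) ^ i := by
  rcases eq_or_ne P 0 with rfl | hP
  · exact ⟨0, 0, by simp⟩
  refine ⟨P.leadingCoeff, Multiset.card P.roots, ?_⟩
  conv_lhs => rw [(IsAlgClosed.splits P).eq_prod_roots]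
  rw [show (P.roots.map fun a => (X : K[X]) - C a) = P.roots.map fun _ => X - C r from
    Multiset.map_congr rfl fun a ha => by rw [h a (mem_roots'.mp ha).2],
    Multiset.map_const', Multiset.prod_replicate]

theorem y_ne_negY_of_torsion {p : ℕ} (hp : Odd p) {x₀ y₀ : K} {h₀ : W.Nonsingular x₀ y₀}
    (hT : p • Affine.Point.some x₀ y₀ h₀ = 0) : y₀ ≠ W.negY x₀ y₀ := by
  intro hy
  have h2 := Affine.Point.add_self_of_Y_eq (h₁ := h₀) hy
  obtain ⟨m, rfl⟩ := hp
  rw [succ_nsmul, mul_comm, mul_nsmul, two_nsmul, ← nsmul_add, h2, nsmul_zero, zero_add] at hT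
  exact Affine.Point.some_ne_zero h₀ hT

/-- The norm of `f_T` along every line. -/
theorem exists_lineNorm_torsFun {p : ℕ} (hp : Odd p) {x₀ y₀ : K} {h₀ : W.Nonsingular x₀ y₀}
    (hT : p • Affine.Point.some x₀ y₀ h₀ = 0) :
    ∃ σ : K, σ ^ 2 = 1 ∧ ∀ lam n : K,
      lineNorm W lam n (torsFun p (Affine.Point.some x₀ y₀ h₀)) =
        σ * (y₀ - lam * x₀ - n) ^ p := by
  have hp0 : p ≠ 0 := hp.pos.ne'
  set T := Affine.Point.some x₀ y₀ h₀ with hTdef
  set f := torsFun p T with hf
  have hψ : 2 * y₀ + W.a₁ * x₀ + W.a₃ ≠ 0 := fun h => y_ne_negY_of_torsion hp hT (by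
    rw [Affine.negY]; linear_combination h)
  have hff : f * conj W f =
      Affine.CoordinateRing.mk W (C (C (-1) * (X - C x₀) ^ p)) := by
    rw [hf, conj_torsFun hp hT (Affine.Point.some_ne_zero h₀), mul_neg, hTdef,
      torsFun_mul_neg hT, Affine.CoordinateRing.XClass]
    simp [map_pow]
  -- for a fixed slope
  have hline : ∀ lam : K, ∃ c : K, c ≠ 0 ∧
      (∀ n, lineNorm W lam n f = c * (n - (y₀ - lam * x₀)) ^ p) ∧
      (∀ n, lineNorm W lam n (conj W f) =
        -c⁻¹ * (n - (y₀ - lam * x₀) + (2 * y₀ + W.a₁ * x₀ + W.a₃)) ^ p) := by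
    intro lam
    set ν₀ := y₀ - lam * x₀ with hν₀
    set ψ := 2 * y₀ + W.a₁ * x₀ + W.a₃ with hψdef
    set Pf : K[X] := lineNorm W (C lam) X f with hPf
    set Pc : K[X] := lineNorm W (C lam) X (conj W f) with hPc
    have evf : ∀ (g : W.CoordinateRing) (n : K),
        (lineNorm W (C lam) (X : K[X]) g).eval n = lineNorm W lam n g := by
      intro g n
      have := map_lineNorm W (Polynomial.aeval n) (C lam) (X : K[X]) g
      simpa [coe_aeval_eq_eval] using this
    have hprod : Pf * Pc = C (-1) * ((X - C ν₀) ^ p * (X - C (ν₀ - ψ)) ^ p) := by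
      rw [hPf, hPc, ← lineNorm_mul, hff, lineNorm_mk_C_smul_pow, ← mul_pow]
      have he : -(lineCubic W (C lam) (X : K[X])).eval (algebraMap K K[X] x₀) =
          (X - C ν₀) * (X - C (ν₀ - ψ)) := by
        have heq : y₀ ^ 2 + W.a₁ * x₀ * y₀ + W.a₃ * y₀ =
            x₀ ^ 3 + W.a₂ * x₀ ^ 2 + W.a₄ * x₀ + W.a₆ := (W.equation_iff _ _).mp h₀.left
        have heqC := congrArg (C : K → K[X]) heq
        simp only [map_add, map_mul, map_pow] at heqC
        simp only [lineCubic, cubPoly, hν₀, hψdef, Polynomial.algebraMap_eq, eval_add,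
          eval_mul, eval_pow, eval_X, eval_C]
        simp only [map_sub, map_add, map_mul, map_ofNat]
        linear_combination heqC
      rw [he, Polynomial.algebraMap_eq, map_neg, C_1]
      ring
    have hne : Pf * Pc ≠ 0 := by
      rw [hprod]
      exact mul_ne_zero (by simp)
        (mul_ne_zero (pow_ne_zero _ (X_sub_C_ne_zero _)) (pow_ne_zero _ (X_sub_C_ne_zero _)))
    have rf : ∀ n, Pf.eval n = 0 → n = ν₀ := fun n hn => by
      rw [hPf, evf] at hn
      exact lineNorm_torsFun_eq_zero hp0 hT hn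
    have rc : ∀ n, Pc.eval n = 0 → n = ν₀ - ψ := fun n hn => by
      rw [hPc, evf, lineNorm_conj] at hn
      have := lineNorm_torsFun_eq_zero hp0 hT hn
      rw [hν₀, hψdef]
      simp only [Algebra.algebraMap_self, RingHom.id_apply] at this
      linear_combination -this
    obtain ⟨c, i, hi⟩ := eq_C_mul_pow_of_roots rf
    obtain ⟨c', j, hj⟩ := eq_C_mul_pow_of_roots rc
    have hcc : c ≠ 0 ∧ c' ≠ 0 := by
      constructor <;> rintro rfl <;> simp [hi, hj] at hne
    have hdiff : ν₀ ≠ ν₀ - ψ := fun h => hψ (by linear_combination h)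
    have key : ∀ (a : K) (k l : ℕ), a ≠ 0 → rootMultiplicity ν₀
        (C a * ((X - C ν₀) ^ k * (X - C (ν₀ - ψ)) ^ l)) = k := by
      intro a k l ha
      have hr : ¬IsRoot ((X - C (ν₀ - ψ)) ^ l : K[X]) ν₀ := by
        rw [IsRoot.def, eval_pow, eval_sub, eval_X, eval_C]
        exact pow_ne_zero _ (sub_ne_zero.mpr hdiff)
      rw [rootMultiplicity_mul (mul_ne_zero (C_ne_zero.mpr ha)
        (mul_ne_zero (pow_ne_zero _ (X_sub_C_ne_zero _)) (pow_ne_zero _ (X_sub_C_ne_zero _)))),
        rootMultiplicity_C, rootMultiplicity_mul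
          (mul_ne_zero (pow_ne_zero _ (X_sub_C_ne_zero _)) (pow_ne_zero _ (X_sub_C_ne_zero _))),
        rootMultiplicity_X_sub_C_pow, rootMultiplicity_eq_zero hr, zero_add, add_zero]
    have key' : ∀ (a : K) (k l : ℕ), a ≠ 0 → rootMultiplicity (ν₀ - ψ)
        (C a * ((X - C ν₀) ^ k * (X - C (ν₀ - ψ)) ^ l)) = l := by
      intro a k l ha
      have hr : ¬IsRoot ((X - C ν₀) ^ k : K[X]) (ν₀ - ψ) := by
        rw [IsRoot.def, eval_pow, eval_sub, eval_X, eval_C]
        exact pow_ne_zero _ (sub_ne_zero.mpr hdiff.symm)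
      rw [rootMultiplicity_mul (mul_ne_zero (C_ne_zero.mpr ha)
        (mul_ne_zero (pow_ne_zero _ (X_sub_C_ne_zero _)) (pow_ne_zero _ (X_sub_C_ne_zero _)))),
        rootMultiplicity_C, rootMultiplicity_mul
          (mul_ne_zero (pow_ne_zero _ (X_sub_C_ne_zero _)) (pow_ne_zero _ (X_sub_C_ne_zero _))),
        rootMultiplicity_X_sub_C_pow, rootMultiplicity_eq_zero hr, zero_add, zero_add]
    have e : C (c * c') * ((X - C ν₀) ^ i * (X - C (ν₀ - ψ)) ^ j) =
        C (-1) * ((X - C ν₀) ^ p * (X - C (ν₀ - ψ)) ^ p) := by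
      rw [← hprod, hi, hj, map_mul]; ring
    have hi' := congrArg (rootMultiplicity ν₀) e
    have hj' := congrArg (rootMultiplicity (ν₀ - ψ)) e
    rw [key _ _ _ (mul_ne_zero hcc.1 hcc.2), key _ _ _ (by simp)] at hi'
    rw [key' _ _ _ (mul_ne_zero hcc.1 hcc.2), key' _ _ _ (by simp)] at hj'
    rw [hi'] at e hi
    rw [hj'] at e hj
    have hm : c * c' = -1 := C_injective (mul_right_cancel₀
      (mul_ne_zero (pow_ne_zero _ (X_sub_C_ne_zero _)) (pow_ne_zero _ (X_sub_C_ne_zero _))) e)
    have hc' : c' = -c⁻¹ := by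
      have := hcc.1
      field_simp
      linear_combination hm
    refine ⟨c, hcc.1, fun n => ?_, fun n => ?_⟩
    · rw [← evf f n, ← hPf, hi]; simp
    · rw [← evf _ n, ← hPc, hj, hc']
      simp [hψdef]
      left; ring
  choose c hc0 hcf hcc using hline
  -- `c` does not depend on the slope
  let Q : K[X] := lineNorm W X (C (y₀ + 1) - X * C x₀) f
  have hQ : ∀ lam, Q.eval lam = c lam := by
    intro lam
    have := map_lineNorm W (Polynomial.aeval lam) (X : K[X]) (C (y₀ + 1) - X * C x₀) f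
    simp only [coe_aeval_eq_eval, eval_sub, eval_C, eval_X, eval_mul] at this
    rw [show Q.eval lam = _ from this, hcf]
    rw [show y₀ + 1 - lam * x₀ - (y₀ - lam * x₀) = 1 by ring, one_pow, mul_one]
  have hconst : ∀ lam, c lam = c 0 := by
    intro lam
    have hdeg : Q.degree ≤ 0 := by
      by_contra hd
      obtain ⟨x, hx⟩ := IsAlgClosed.exists_root Q (fun h => hd h.le)
      exact hc0 x (by rw [← hQ]; exact hx)
    rw [← hQ, ← hQ, eq_C_of_degree_le_zero hdeg]
    simp
  have hsq : c 0 * c 0 = 1 := by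
    -- compare the two descriptions of the norm of the conjugate
    have h1 := hcc 0 (y₀ - 0 * x₀ - (2 * y₀ + W.a₁ * x₀ + W.a₃) + 1)
    rw [lineNorm_conj] at h1
    simp only [Algebra.algebraMap_self, RingHom.id_apply] at h1
    rw [hcf, hconst (-0 - W.a₁)] at h1
    ring_nf at h1
    rw [hp.neg_one_pow] at h1
    field_simp [hc0 0] at h1
    linear_combination -h1
  refine ⟨-c 0, by rw [neg_sq, sq, hsq], fun lam n => ?_⟩
  rw [hcf, hconst, show n - (y₀ - lam * x₀) = -(y₀ - lam * x₀ - n) by ring, hp.neg_pow]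
  ring

/-- Reciprocity with a line through two points. -/
theorem pev_mul_pev_torsFun {p : ℕ} {x₀ y₀ : K} {h₀ : W.Nonsingular x₀ y₀} {σ : K}
    (hσ : ∀ lam n : K, lineNorm W lam n (torsFun p (Affine.Point.some x₀ y₀ h₀)) =
      σ * (y₀ - lam * x₀ - n) ^ p)
    {A B : W.Point} (hA : A ≠ 0) (hB : B ≠ 0) (hAB : A + B ≠ 0) :
    pev A (torsFun p (Affine.Point.some x₀ y₀ h₀)) *
        pev B (torsFun p (Affine.Point.some x₀ y₀ h₀)) *
        pev (-(A + B)) (torsFun p (Affine.Point.some x₀ y₀ h₀)) =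
      σ * pev (Affine.Point.some x₀ y₀ h₀) (chord A B) ^ p := by
  rcases A with _ | ⟨x₁, y₁, h₁⟩
  · exact absurd rfl hA
  rcases B with _ | ⟨x₂, y₂, h₂⟩
  · exact absurd rfl hB
  have hxy : ¬(x₁ = x₂ ∧ y₁ = W.negY x₂ y₂) := fun h => hAB (Affine.Point.add_of_Y_eq h.1 h.2)
  set f := torsFun p (Affine.Point.some x₀ y₀ h₀)
  have hn := lineNorm_eq_prod W (lineCubic_eq_slope W h₁.left h₂.left hxy) f
  rw [hσ] at hn
  have hy₂ : W.slope x₁ x₂ y₁ y₂ * x₂ + (y₁ - W.slope x₁ x₂ y₁ y₂ * x₁) = y₂ := by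
    by_cases hx : x₁ = x₂
    · obtain rfl := hx
      rw [Affine.Y_eq_of_Y_ne h₁.left h₂.left rfl fun h => hxy ⟨rfl, h⟩]
      ring
    · rw [Affine.slope_of_X_ne hx]
      have : x₁ - x₂ ≠ 0 := sub_ne_zero.mpr hx
      field_simp
      ring
  have ev : ∀ (x y : K) (h : W.Nonsingular x y),
      W.slope x₁ x₂ y₁ y₂ * x + (y₁ - W.slope x₁ x₂ y₁ y₂ * x₁) = y →
      (lineRestrict W (W.slope x₁ x₂ y₁ y₂) (y₁ - W.slope x₁ x₂ y₁ y₂ * x₁) f).eval x =
        pev (Affine.Point.some x y h) f := by
    intro x y h hy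
    rw [pev_some]
    conv_rhs => rw [← el_pA_pB f, evalAt_el]
    rw [← hy]
    simp [lineRestrict]
  rw [Affine.Point.add_some hxy, Affine.Point.neg_some]
  rw [← ev x₁ y₁ h₁ (by ring), ← ev x₂ y₂ h₂ hy₂,
    ← ev _ _ _ (by simp only [Affine.addY, Affine.negAddY, Affine.negY_negY]; ring), ← hn]
  simp only [chord, if_neg hxy, pev_some, lineElt, evalAt_el, eval_neg, eval_add, eval_mul,
    eval_C, eval_X, eval_one, one_mul]
  ring

end Torsion

end FLTAgent.EllTorsion

end
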