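import Fermat.Agent.EllTorsion.CoordTop

/-!
# Lines, Miller functions and functions with divisor `p(T) - p(O)`

Chords and verticals satisfy the relation `ptIdeal_mul` between ideals of points; iterating it
gives Miller's functions (`miller`, `ptIdeal_pow`) and, for a `p`-torsion point `T`, the unique
normalised `torsFun p T` with divisor `p(T) - p(O)` (`torsFun_spec`), with its product relation
(`torsFun_mul`), conjugate (`conj_torsFun`) and zero locus (`pev_torsFun_eq_zero_iff`).
-/

noncomputable section

open WeierstrassCurve Polynomial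
open scoped Polynomial.Bivariate

namespace FLTAgent.EllTorsion


variable {K : Type*} [Field K] [DecidableEq K] {W : Affine K}

/-- The abscissa of a point (`0` at infinity). -/
def px : W.Point → K
  | .zero => 0
  | .some x _ _ => x

/-- The ordinate of a point (`0` at infinity). -/
def py : W.Point → K
  | .zero => 0
  | .some _ y _ => y

/-- The ideal of a point. -/
def ptIdeal : W.Point → Ideal W.CoordinateRing
  | .zero => ⊤
  | .some x y _ => Affine.CoordinateRing.XYIdeal W x (C y)

/-- Evaluation at a point (`0` at infinity). -/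
def pev : W.Point → W.CoordinateRing → K
  | .zero => fun _ => 0
  | .some _ _ h => evalAt h.left

/-- The vertical line through a point, as a function (`1` at infinity). -/
def vert : W.Point → W.CoordinateRing
  | .zero => 1
  | .some x _ _ => Affine.CoordinateRing.XClass W x

/-- The line through two points, as a function. -/
def chord : W.Point → W.Point → W.CoordinateRing
  | .zero, Q => vert Q
  | P, .zero => vert P
  | .some x₁ y₁ _, .some x₂ y₂ _ =>
    if x₁ = x₂ ∧ y₁ = W.negY x₂ y₂ then Affine.CoordinateRing.XClass W x₁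
    else lineElt W (W.slope x₁ x₂ y₁ y₂) (y₁ - W.slope x₁ x₂ y₁ y₂ * x₁)

omit [DecidableEq K] in
@[simp] theorem pev_some {x y : K} (h : W.Nonsingular x y) (f : W.CoordinateRing) :
    pev (Affine.Point.some x y h) f = evalAt h.left f := rfl

omit [DecidableEq K] in
@[simp] theorem ptIdeal_zero : ptIdeal (0 : W.Point) = ⊤ := rfl

omit [DecidableEq K] in
@[simp] theorem vert_zero : vert (0 : W.Point) = 1 := rfl

omit [DecidableEq K] in
theorem vert_some {x y : K} (h : W.Nonsingular x y) :
    vert (Affine.Point.some x y h) = Affine.CoordinateRing.XClass W x := rfl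

theorem chord_zero_left (Q : W.Point) : chord 0 Q = vert Q := by cases Q <;> rfl

theorem chord_zero_right (P : W.Point) : chord P 0 = vert P := by cases P <;> rfl

omit [DecidableEq K] in
theorem normalised_vert (P : W.Point) : Normalised (vert P) := by
  rcases P with _ | ⟨x, y, h⟩
  · rw [← Affine.Point.zero_def, vert_zero]
    exact normalised_one
  · rw [vert_some]
    exact normalised_XClass x

theorem normalised_chord (P Q : W.Point) : Normalised (chord P Q) := by
  rcases P with _ | ⟨x₁, y₁, h₁⟩ <;> rcases Q with _ | ⟨x₂, y₂, h₂⟩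
  · rw [← Affine.Point.zero_def, chord_zero_left]; exact normalised_vert _
  · rw [← Affine.Point.zero_def, chord_zero_left]; exact normalised_vert _
  · rw [← Affine.Point.zero_def, chord_zero_right]; exact normalised_vert _
  · simp only [chord]
    split_ifs
    · exact normalised_XClass x₁
    · exact normalised_lineElt _ _

omit [DecidableEq K] in
theorem lineElt_eq_YClass (lam x₁ y₁ : K) : lineElt W lam (y₁ - lam * x₁) =
    Affine.CoordinateRing.YClass W (Affine.linePolynomial x₁ y₁ lam) := by
  rw [lineElt, el_eq, Affine.CoordinateRing.YClass, map_one, map_one, one_mul, map_sub, C_neg,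
    map_neg, Affine.linePolynomial]
  rw [show C lam * (X - C x₁) + C y₁ = C lam * X + C y₁ - C (lam * x₁) by
    rw [map_mul]; ring]
  simp only [map_sub, map_add]
  ring

/-- The fundamental relation between points and lines. -/
theorem ptIdeal_mul (P Q : W.Point) :
    ptIdeal P * ptIdeal Q * Ideal.span {vert (P + Q)} =
      Ideal.span {chord P Q} * ptIdeal (P + Q) := by
  rcases P with _ | ⟨x₁, y₁, h₁⟩
  · rw [← Affine.Point.zero_def, zero_add]
    rw [chord_zero_left]
    rw [show ptIdeal (0 : W.Point) = ⊤ from rfl, Ideal.top_mul, mul_comm]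
  rcases Q with _ | ⟨x₂, y₂, h₂⟩
  · rw [← Affine.Point.zero_def, add_zero]
    rw [chord_zero_right]
    rw [show ptIdeal (0 : W.Point) = ⊤ from rfl, Ideal.mul_top, mul_comm]
  by_cases hxy : x₁ = x₂ ∧ y₁ = W.negY x₂ y₂
  · obtain ⟨hx, hy⟩ := hxy
    rw [Affine.Point.add_of_Y_eq hx hy]
    subst hx hy
    simp only [ptIdeal, chord, vert, and_self, if_true]
    rw [Ideal.span_singleton_one, Ideal.mul_top, Ideal.mul_top]
    exact Affine.CoordinateRing.XYIdeal_neg_mul h₂
  · rw [Affine.Point.add_some hxy]
    simp only [ptIdeal, chord, vert, if_neg hxy, lineElt_eq_YClass]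
    rw [mul_comm _ (Ideal.span _)]
    exact Affine.CoordinateRing.XYIdeal_mul_XYIdeal h₁.left h₂.left hxy

/-- Miller's numerator and denominator for `k(P) - (kP) - (k-1)O`. -/
def miller (P : W.Point) : ℕ → W.CoordinateRing × W.CoordinateRing
  | 0 => (1, 1)
  | k + 1 => ((miller P k).1 * chord (k • P) P, (miller P k).2 * vert ((k + 1) • P))

theorem normalised_miller (P : W.Point) (k : ℕ) :
    Normalised (miller P k).1 ∧ Normalised (miller P k).2 := by
  induction k with
  | zero => exact ⟨normalised_one, normalised_one⟩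
  | succ k ih => exact ⟨ih.1.mul (normalised_chord _ _), ih.2.mul (normalised_vert _)⟩

theorem ptIdeal_pow (P : W.Point) (k : ℕ) :
    ptIdeal P ^ k * Ideal.span {(miller P k).2} =
      Ideal.span {(miller P k).1} * ptIdeal (k • P) := by
  induction k with
  | zero =>
    simp only [miller, pow_zero, zero_nsmul]
    rw [show ptIdeal (0 : W.Point) = ⊤ from rfl, Ideal.span_singleton_one, Ideal.mul_top,
      Ideal.one_eq_top, Ideal.top_mul]
  | succ k ih =>
    simp only [miller, ← Ideal.span_singleton_mul_span_singleton]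
    rw [pow_succ, succ_nsmul]
    calc ptIdeal P ^ k * ptIdeal P *
          (Ideal.span {(miller P k).2} * Ideal.span {vert (k • P + P)})
        = ptIdeal P ^ k * Ideal.span {(miller P k).2} *
            (ptIdeal P * Ideal.span {vert (k • P + P)}) := by ring
      _ = Ideal.span {(miller P k).1} *
            (ptIdeal (k • P) * ptIdeal P * Ideal.span {vert (k • P + P)}) := by rw [ih]; ring
      _ = _ := by rw [ptIdeal_mul]; ring

/-- `f` is the normalised function with divisor `p(T) - p(O)`. -/
def IsTorsFun (p : ℕ) (T : W.Point) (f : W.CoordinateRing) : Prop :=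
  Normalised f ∧ Ideal.span {f} = ptIdeal T ^ p

theorem exists_isTorsFun {p : ℕ} {T : W.Point} (hT : p • T = 0) :
    ∃ f, IsTorsFun p T f := by
  have h := ptIdeal_pow T p
  rw [hT, show ptIdeal (0 : W.Point) = ⊤ from rfl, Ideal.mul_top] at h
  obtain ⟨hn, hd⟩ := normalised_miller T p
  have hmem : (miller T p).1 ∈ ptIdeal T ^ p * Ideal.span {(miller T p).2} := by
    rw [h]; exact Ideal.mem_span_singleton_self _
  have hle : ptIdeal T ^ p * Ideal.span {(miller T p).2} ≤ Ideal.span {(miller T p).2} :=
    Ideal.mul_le_right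
  obtain ⟨f, hf⟩ := Ideal.mem_span_singleton'.mp (hle hmem)
  refine ⟨f, ?_, ?_⟩
  · have hf0 : f ≠ 0 := by
      rintro rfl
      exact hn.ne_zero (by rw [← hf, zero_mul])
    have := (top_mul hf0 hd.ne_zero).2
    rw [hf, hn, hd, mul_one] at this
    exact this.symm
  · rw [← hf, ← Ideal.span_singleton_mul_span_singleton] at h
    refine ((Ideal.span_singleton_mul_right_inj hd.ne_zero).mp ?_).symm
    rw [mul_comm, h, mul_comm]

open scoped Classical in
/-- The normalised function with divisor `p(T) - p(O)`. -/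
def torsFun (p : ℕ) (T : W.Point) : W.CoordinateRing :=
  if h : ∃ f, IsTorsFun p T f then h.choose else 1

theorem torsFun_spec {p : ℕ} {T : W.Point} (hT : p • T = 0) : IsTorsFun p T (torsFun p T) := by
  rw [torsFun, dif_pos (exists_isTorsFun hT)]
  exact (exists_isTorsFun hT).choose_spec

omit [DecidableEq K] in
theorem IsTorsFun.unique {p : ℕ} {T : W.Point} {f g : W.CoordinateRing} (hf : IsTorsFun p T f)
    (hg : IsTorsFun p T g) : f = g :=
  hf.1.eq_of_span hg.1 (hf.2.trans hg.2.symm)

/-- Cancel a point ideal. -/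
theorem eq_of_span_mul_ptIdeal {a b : W.CoordinateRing} (ha : Normalised a) (hb : Normalised b)
    {P : W.Point} (h : Ideal.span {a} * ptIdeal P = Ideal.span {b} * ptIdeal P) : a = b := by
  refine ha.eq_of_span hb ?_
  have hP := ptIdeal_mul P (-P)
  rw [add_neg_cancel, show vert (0 : W.Point) = 1 from rfl,
    show ptIdeal (0 : W.Point) = ⊤ from rfl, Ideal.span_singleton_one, Ideal.mul_top,
    Ideal.mul_top] at hP
  have h2 : Ideal.span {a} * Ideal.span {chord P (-P)} =
      Ideal.span {b} * Ideal.span {chord P (-P)} := by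
    rw [← hP, ← mul_assoc, ← mul_assoc, h]
  rw [mul_comm _ (Ideal.span {chord P (-P)}), mul_comm _ (Ideal.span {chord P (-P)})] at h2
  exact (Ideal.span_singleton_mul_right_inj (normalised_chord P (-P)).ne_zero).mp h2

/-- The product relation between functions attached to torsion points. -/
theorem torsFun_mul {p : ℕ} {S T : W.Point} (hS : p • S = 0) (hT : p • T = 0) :
    torsFun p S * torsFun p T * vert (S + T) ^ p = chord S T ^ p * torsFun p (S + T) := by
  obtain ⟨n₁, e₁⟩ := torsFun_spec hS
  obtain ⟨n₂, e₂⟩ := torsFun_spec hT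
  obtain ⟨n₃, e₃⟩ := torsFun_spec (show p • (S + T) = 0 by rw [nsmul_add, hS, hT, add_zero])
  refine ((n₁.mul n₂).mul ((normalised_vert _).pow p)).eq_of_span
    (((normalised_chord _ _).pow p).mul n₃) ?_
  simp only [← Ideal.span_singleton_mul_span_singleton, ← Ideal.span_singleton_pow, e₁, e₂, e₃,
    ← mul_pow, ptIdeal_mul]

theorem torsFun_mul_neg {p : ℕ} {x y : K} {h : W.Nonsingular x y}
    (hT : p • Affine.Point.some x y h = 0) :
    torsFun p (Affine.Point.some x y h) * torsFun p (-Affine.Point.some x y h) =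
      Affine.CoordinateRing.XClass W x ^ p := by
  have hn : p • (-Affine.Point.some x y h) = 0 := by rw [neg_nsmul, hT, neg_zero]
  have h0 : torsFun p (0 : W.Point) = 1 := by
    refine (torsFun_spec (nsmul_zero p)).unique ⟨normalised_one, ?_⟩
    rw [show ptIdeal (0 : W.Point) = ⊤ from rfl, Ideal.span_singleton_one, ← Ideal.one_eq_top,
      one_pow]
  have := torsFun_mul hT hn
  rw [add_neg_cancel, show vert (0 : W.Point) = 1 from rfl, one_pow, mul_one, h0, mul_one] at this
  rw [this, Affine.Point.neg_some, chord, if_pos ⟨rfl, (W.negY_negY x y).symm⟩]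

theorem map_conj_ptIdeal_le (P : W.Point) :
    Ideal.map (conj W) (ptIdeal P) ≤ ptIdeal (-P) := by
  rcases P with _ | ⟨x, y, h⟩
  · exact le_top
  rw [Affine.Point.neg_some]
  simp only [ptIdeal, Affine.CoordinateRing.XYIdeal, Ideal.map_span, Set.image_pair]
  refine Ideal.span_le.mpr fun g hg => ?_
  rcases hg with rfl | hg
  · refine Ideal.mem_span_pair.mpr ⟨1, 0, ?_⟩
    rw [Affine.CoordinateRing.XClass, mk_C_eq_el, conj_el]
    simp
  · rw [Set.mem_singleton_iff] at hg
    subst hg
    refine Ideal.mem_span_pair.mpr ⟨-Affine.CoordinateRing.mk W (C (C W.a₁)), -1, ?_⟩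
    simp only [Affine.CoordinateRing.XClass, Affine.CoordinateRing.YClass, conj,
      AdjoinRoot.lift_mk, eval₂_X, eval₂_C, ← AdjoinRoot.mk_C, Affine.negPolynomial,
      Affine.negY, map_sub, map_neg, map_add, map_mul]
    ring

theorem torsFun_neg_dvd_conj {p : ℕ} {T : W.Point} (hT : p • T = 0) :
    torsFun p (-T) ∣ conj W (torsFun p T) := by
  rw [← Ideal.mem_span_singleton, (torsFun_spec (by rw [neg_nsmul, hT, neg_zero])).2]
  refine Ideal.pow_right_mono (map_conj_ptIdeal_le T) p ?_
  rw [← Ideal.map_pow, ← (torsFun_spec hT).2]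
  exact Ideal.mem_map_of_mem _ (Ideal.mem_span_singleton_self _)

theorem natDegree_top_torsFun_neg_le {p : ℕ} {T : W.Point} (hT : p • T = 0) :
    (top (torsFun p (-T))).natDegree ≤ (top (torsFun p T)).natDegree := by
  obtain ⟨u, hu⟩ := torsFun_neg_dvd_conj hT
  have hf := (torsFun_spec hT).1
  have hc : conj W (torsFun p T) ≠ 0 := fun hz =>
    hf.ne_zero (by rw [← conj_conj (torsFun p T), hz, map_zero])
  have hu0 : u ≠ 0 := by rintro rfl; exact hc (by rw [hu, mul_zero])
  rw [← (top_conj hf.ne_zero).1, hu,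
    (top_mul (torsFun_spec (by rw [neg_nsmul, hT, neg_zero])).1.ne_zero hu0).1]
  exact Nat.le_add_right _ _

theorem natDegree_top_torsFun {p : ℕ} {T : W.Point} (hT : p • T = 0) (h0 : T ≠ 0) :
    (top (torsFun p T)).natDegree = p := by
  rcases T with _ | ⟨x, y, h⟩
  · exact absurd rfl h0
  have hn' : p • (-Affine.Point.some x y h) = 0 := by rw [neg_nsmul, hT, neg_zero]
  have h1 := natDegree_top_torsFun_neg_le hT
  have h2 := natDegree_top_torsFun_neg_le hn'
  rw [neg_neg] at h2
  have hprod := congrArg (fun f => (top f).natDegree) (torsFun_mul_neg hT)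
  simp only [(top_mul (torsFun_spec hT).1.ne_zero (torsFun_spec hn').1.ne_zero).1,
    Affine.CoordinateRing.XClass, ← map_pow] at hprod
  rw [top_mk_C, natDegree_expand, natDegree_pow, natDegree_X_sub_C, mul_one] at hprod
  omega

/-- For odd `p`, conjugation sends the function of `T` to minus that of `-T`. -/
theorem conj_torsFun {p : ℕ} (hp : Odd p) {T : W.Point} (hT : p • T = 0) (h0 : T ≠ 0) :
    conj W (torsFun p T) = -torsFun p (-T) := by
  obtain ⟨u, hu⟩ := torsFun_neg_dvd_conj hT
  have hf := (torsFun_spec hT).1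
  have hg := (torsFun_spec (T := -T) (show p • (-T) = 0 by rw [neg_nsmul, hT, neg_zero])).1
  have hc : conj W (torsFun p T) ≠ 0 := fun hz =>
    hf.ne_zero (by rw [← conj_conj (torsFun p T), hz, map_zero])
  have hu0 : u ≠ 0 := by rintro rfl; exact hc (by rw [hu, mul_zero])
  obtain ⟨d1, l1⟩ := top_conj hf.ne_zero
  obtain ⟨d2, l2⟩ := top_mul hg.ne_zero hu0
  rw [hu] at d1 l1
  rw [d2, natDegree_top_torsFun hT h0, natDegree_top_torsFun (by rw [neg_nsmul, hT, neg_zero])
    (neg_ne_zero.mpr h0)] at d1
  rw [l2, hg, hf, natDegree_top_torsFun hT h0, hp.neg_one_pow, one_mul, mul_one] at l1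
  obtain ⟨a, b, rfl⟩ := exists_el u
  have hb : b = 0 := by
    by_contra hb
    have := le_natDegree_top (W := W) (a := a) hb
    omega
  subst hb
  rw [top_el, map_zero, zero_mul, add_zero] at d1 l1
  rw [natDegree_expand] at d1
  obtain ⟨c, rfl⟩ := natDegree_eq_zero.mp (show a.natDegree = 0 by omega)
  rw [expand_C, leadingCoeff_C] at l1
  rw [hu, l1, ← mk_C_eq_el, C_neg, C_1, C_neg, C_1, map_neg, map_one, mul_neg_one]

omit [DecidableEq K] in
theorem pev_eq_zero_of_mem {P : W.Point} {g : W.CoordinateRing} (hg : g ∈ ptIdeal P) :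
    pev P g = 0 := by
  rcases P with _ | ⟨x, y, h⟩
  · rfl
  simp only [ptIdeal, Affine.CoordinateRing.XYIdeal] at hg
  obtain ⟨u, v, rfl⟩ := Ideal.mem_span_pair.mp hg
  simp [Affine.CoordinateRing.XClass, Affine.CoordinateRing.YClass, evalAt]

/-- The function of `T` vanishes only at `T`. -/
theorem pev_torsFun_eq_zero_iff {p : ℕ} (hp : p ≠ 0) {T U : W.Point} (hT : p • T = 0)
    (h0 : T ≠ 0) (hU : U ≠ 0) : pev U (torsFun p T) = 0 ↔ U = T := by
  obtain ⟨hn, hs⟩ := torsFun_spec hT
  constructor
  · intro hz
    by_contra hne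
    rcases T with _ | ⟨x, y, h⟩
    · exact h0 rfl
    rcases U with _ | ⟨x', y', h'⟩
    · exact hU rfl
    obtain ⟨g, hg, hg'⟩ : ∃ g ∈ ptIdeal (Affine.Point.some x y h),
        pev (Affine.Point.some x' y' h') g ≠ 0 := by
      by_cases hx : x' = x
      · refine ⟨Affine.CoordinateRing.YClass W (C y), Ideal.subset_span (by simp), ?_⟩
        simp only [Affine.CoordinateRing.YClass, pev_some, evalAt, AdjoinRoot.lift_mk, eval₂_sub,
          eval₂_X, eval₂_C, coe_evalRingHom, eval_C, ne_eq, sub_eq_zero]
        intro hy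
        exact hne (by subst hx hy; rfl)
      · refine ⟨Affine.CoordinateRing.XClass W x, Ideal.subset_span (by simp), ?_⟩
        simp only [Affine.CoordinateRing.XClass, pev_some, evalAt, AdjoinRoot.lift_mk,
          eval₂_C, coe_evalRingHom, eval_sub, eval_X, eval_C, ne_eq, sub_eq_zero]
        exact hx
    obtain ⟨v, hv⟩ := Ideal.mem_span_singleton.mp (hs ▸ Ideal.pow_mem_pow hg p)
    refine hg' ((pow_eq_zero_iff hp).mp ?_)
    rw [pev_some] at hz ⊢
    rw [← map_pow, hv, map_mul, hz, zero_mul]
  · rintro rfl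
    exact pev_eq_zero_of_mem (Ideal.pow_le_self hp (hs ▸ Ideal.mem_span_singleton_self _))

end FLTAgent.EllTorsion

end
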