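import Fermat.Agent.EllTorsion.MulXChar0
import Mathlib.FieldTheory.IsAlgClosed.AlgebraicClosure
import Mathlib.Algebra.CharP.Algebra

/-!
# Mathlib's division polynomials compute `x(n P)` over any field

The three-term identities between `Φ` and `ΨSq` (`StepIdentities`) hold in characteristic zero, so
for the universal Weierstrass curve, so over every ring (`stepIdentities`). Over a field they
show by induction that `[Φₙ(x) : ΨSqₙ(x)]` represents `x(n P)` (`xRepIs_nsmul`).
-/

noncomputable section

open WeierstrassCurve Polynomial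

namespace FLTAgent.EllTorsion

section Transfer

variable {R S : Type*} [CommRing R] [CommRing S] (W : WeierstrassCurve R) (f : R →+* S)

theorem map_C_map : (W.map C).map (mapRingHom f) = (W.map f).map C := by
  ext <;> simp

theorem map_pairA (F G F' G' : R[X]) : (pairA W F G F' G').map f =
    pairA (W.map f) (F.map f) (G.map f) (F'.map f) (G'.map f) := by
  rw [← coe_mapRingHom, pairA, map_asmA, map_C_map, pairA]
  simp

theorem map_pairB (F G F' G' : R[X]) : (pairB W F G F' G').map f =
    pairB (W.map f) (F.map f) (G.map f) (F'.map f) (G'.map f) := by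
  rw [← coe_mapRingHom, pairB, map_asmB, map_C_map, pairB]
  simp

/-- The three-term identities between the division polynomials. -/
def StepIdentities (n : ℕ) : Prop :=
  pairA W (W.Φ (n + 1 : ℕ)) (W.ΨSq (n + 1 : ℕ)) X 1 = W.Φ (n + 2 : ℕ) * W.Φ n ∧
    pairB W (W.Φ (n + 1 : ℕ)) (W.ΨSq (n + 1 : ℕ)) X 1 =
      W.Φ (n + 2 : ℕ) * W.ΨSq n + W.ΨSq (n + 2 : ℕ) * W.Φ n

variable {W}

theorem StepIdentities.map {n : ℕ} (h : StepIdentities W n) :
    StepIdentities (W.map f) n := by
  constructor
  · have := congrArg (Polynomial.map f) h.1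
    simpa only [map_pairA, Polynomial.map_mul, ← map_Φ, ← map_ΨSq, Polynomial.map_X,
      Polynomial.map_one] using this
  · have := congrArg (Polynomial.map f) h.2
    simpa only [map_pairB, Polynomial.map_mul, Polynomial.map_add, ← map_Φ, ← map_ΨSq,
      Polynomial.map_X, Polynomial.map_one] using this

theorem StepIdentities.of_injective {n : ℕ} (hf : Function.Injective f)
    (h : StepIdentities (W.map f) n) : StepIdentities W n := by
  constructor
  · refine Polynomial.map_injective f hf ?_
    simpa only [map_pairA, Polynomial.map_mul, ← map_Φ, ← map_ΨSq, Polynomial.map_X,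
      Polynomial.map_one] using h.1
  · refine Polynomial.map_injective f hf ?_
    simpa only [map_pairB, Polynomial.map_mul, Polynomial.map_add, ← map_Φ, ← map_ΨSq,
      Polynomial.map_X, Polynomial.map_one] using h.2

end Transfer

section Universal

theorem stepIdentities_of_charZero {K : Type*} [Field K] [IsAlgClosed K] [CharZero K]
    (W : Affine K) [W.IsElliptic] (n : ℕ) : StepIdentities W n := by
  classical
  have h := isMulBy_Φ_ΨSq (W := W)
  obtain ⟨h1, h2, -⟩ := IsMulBy.relation (k := n + 2) (l := n) (i := n + 1) (j := 1) (by ring)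
    (by ring) (h (n + 1)) isMulBy_one
    (degree_ΨSq_lt W (n + 1) (h (n + 1)).monic (h (n + 1)).natDegree_eq) (by simp)
    (h (n + 2)) (h n)
  exact ⟨h1.symm, h2.symm⟩

/-- The universal Weierstrass curve. -/
def univCurve : WeierstrassCurve (MvPolynomial (Fin 5) ℤ) :=
  ⟨MvPolynomial.X 0, MvPolynomial.X 1, MvPolynomial.X 2, MvPolynomial.X 3, MvPolynomial.X 4⟩

theorem univCurve_Δ_ne_zero : univCurve.Δ ≠ 0 := by
  intro h
  have := congrArg (MvPolynomial.eval (![0, 0, 0, 0, 1] : Fin 5 → ℤ)) h
  rw [← map_Δ, map_zero] at this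
  revert this
  simp [univCurve, Δ, b₂, b₄, b₆, b₈, WeierstrassCurve.map]

theorem stepIdentities {R : Type*} [CommRing R] (W : WeierstrassCurve R) (n : ℕ) :
    StepIdentities W n := by
  let φ : MvPolynomial (Fin 5) ℤ →+* R :=
    (MvPolynomial.aeval ![W.a₁, W.a₂, W.a₃, W.a₄, W.a₆]).toRingHom
  have hW : univCurve.map φ = W := by ext <;> simp [univCurve, φ]
  rw [← hW]
  refine StepIdentities.map φ ?_
  let L := AlgebraicClosure (FractionRing (MvPolynomial (Fin 5) ℤ))
  let ι : MvPolynomial (Fin 5) ℤ →+* L :=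
    (algebraMap (FractionRing (MvPolynomial (Fin 5) ℤ)) L).comp
      (algebraMap (MvPolynomial (Fin 5) ℤ) (FractionRing (MvPolynomial (Fin 5) ℤ)))
  have hι : Function.Injective ι :=
    (algebraMap (FractionRing (MvPolynomial (Fin 5) ℤ)) L).injective.comp
      (IsFractionRing.injective _ _)
  have : CharZero L := charZero_of_injective_ringHom hι
  have : (univCurve.map ι).IsElliptic := by
    rw [isElliptic_iff, map_Δ, isUnit_iff_ne_zero]
    exact fun h => univCurve_Δ_ne_zero (hι (by rw [h, map_zero]))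
  exact StepIdentities.of_injective ι hι (stepIdentities_of_charZero _ n)

end Universal

section Field

variable {K : Type*} [Field K] [DecidableEq K] {W : Affine K} [W.IsElliptic]

omit [DecidableEq K] in
theorem eval_pair_stepIdentities (n : ℕ) (x : K) :
    (pairA W (W.Φ (n + 1 : ℕ)) (W.ΨSq (n + 1 : ℕ)) X 1).eval x =
        (W.Φ (n + 2 : ℕ)).eval x * (W.Φ n).eval x ∧
      (pairB W (W.Φ (n + 1 : ℕ)) (W.ΨSq (n + 1 : ℕ)) X 1).eval x =
        (W.Φ (n + 2 : ℕ)).eval x * (W.ΨSq n).eval x +
          (W.ΨSq (n + 2 : ℕ)).eval x * (W.Φ n).eval x ∧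
      (pairD (W.Φ (n + 1 : ℕ)) (W.ΨSq (n + 1 : ℕ)) X 1).eval x =
        (W.ΨSq (n + 2 : ℕ)).eval x * (W.ΨSq n).eval x := by
  obtain ⟨h1, h2⟩ := stepIdentities W n
  refine ⟨(congrArg (Polynomial.eval x) h1).trans eval_mul,
    (congrArg (Polynomial.eval x) h2).trans (eval_add.trans (congrArg₂ (· + ·) eval_mul eval_mul)),
    ?_⟩
  have h := X_mul_ΨSq_sub_Φ_sq W ((n + 1 : ℕ) : ℤ)
  rw [show ((n + 1 : ℕ) : ℤ) + 1 = (n + 2 : ℕ) by push_cast; ring,
    show ((n + 1 : ℕ) : ℤ) - 1 = (n : ℕ) by push_cast; ring] at h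
  refine (congrArg (Polynomial.eval x) (?_ : _ = _)).trans eval_mul
  rw [pairD_eq]
  linear_combination h

theorem eval_Φ_ΨSq_ne_zero_nat (n : ℕ) (x : K) :
    ¬((W.Φ n).eval x = 0 ∧ (W.ΨSq n).eval x = 0) := by
  induction n using Nat.twoStepInduction with
  | zero => simp
  | one => simp
  | more n _ ih =>
    obtain ⟨h1, h2, h3⟩ := eval_pair_stepIdentities (W := W) n x
    rintro ⟨ha, hb⟩
    refine pair_eval_ne_zero (W := W) (F' := X) (G' := 1) ih (by simp) ?_
    rw [h1, h2, h3, ha, hb]
    simp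

theorem xRepIs_nsmul (n : ℕ) {x y : K} (h : W.Nonsingular x y) :
    XRepIs (n • Affine.Point.some x y h) ((W.Φ n).eval x) ((W.ΨSq n).eval x) := by
  induction n using Nat.twoStepInduction with
  | zero => simpa using xRepIs_zero
  | one => simpa using xRepIs_some h
  | more n ih1 ih2 =>
    set P := Affine.Point.some x y h with hP
    have hxrep : XRepIs ((n + 2) • P) (((n + 2) • P).xRep 0) (((n + 2) • P).xRep 1) :=
      ⟨1, one_ne_zero, by ext i; fin_cases i <;> simp⟩
    obtain ⟨c, hc, e1, e2, e3⟩ := ih2.addSub (xRepIs_some h)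
      (by rwa [← hP, ← succ_nsmul])
      (show XRepIs ((n + 1) • P - P) _ _ by rwa [succ_nsmul, add_sub_cancel_right])
    obtain ⟨h1, h2, h3⟩ := eval_pair_stepIdentities (W := W) n x
    simp only [eval_pairA, eval_X, eval_one] at h1
    simp only [eval_pairB, eval_X, eval_one] at h2
    simp only [eval_pairD, eval_X, eval_one] at h3
    rw [h1] at e1; rw [h2] at e2; rw [h3] at e3
    obtain ⟨ha, hb⟩ := sym_cancel (c := c) (eval_Φ_ΨSq_ne_zero_nat n x) e1 e2 e3
    exact ⟨c, hc, by ext i; fin_cases i <;> simp [ha, hb]⟩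

end Field

end FLTAgent.EllTorsion

end
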