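import Fermat.Agent.EllTorsion.AddSub
import Mathlib.AlgebraicGeometry.EllipticCurve.DivisionPolynomial.Degree
import Mathlib.FieldTheory.IsAlgClosed.Basic

/-!
# Polynomials computing `x(n P)` over an algebraically closed field: tools

`pairA`, `pairB`, `pairD` evaluate the addition-and-subtraction map on two fractions `F/G`,
`F'/G'`; `XRepIs P a b` says that `[a : b]` represents `x(P)`, with its compatibility with
addition and subtraction (`XRepIs.addSub`) and criteria for identifying polynomials from their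
values (`triple_eq_of_proportional`).
-/

noncomputable section

open WeierstrassCurve Polynomial

namespace FLTAgent.EllTorsion

section Prelim

variable {R : Type*} [CommRing R] (W : WeierstrassCurve R)

/-- `asmA` for a pair of fractions `F/G`, `F'/G'`. -/
def pairA (F G F' G' : R[X]) : R[X] := asmA (W.map C) (F * F') (F * G' + G * F') (G * G')

/-- `asmB` for a pair of fractions `F/G`, `F'/G'`. -/
def pairB (F G F' G' : R[X]) : R[X] := asmB (W.map C) (F * F') (F * G' + G * F') (G * G')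

/-- `asmD` for a pair of fractions `F/G`, `F'/G'`. -/
def pairD (F G F' G' : R[X]) : R[X] := asmD (F * F') (F * G' + G * F') (G * G')

theorem pairD_eq (F G F' G' : R[X]) : pairD F G F' G' = (F * G' - G * F') ^ 2 := by
  simp only [pairD, asmD]; ring

theorem map_map_C_evalRingHom (x : R) : (W.map C).map (evalRingHom x) = W := by
  ext <;> simp

theorem eval_pairA (F G F' G' : R[X]) (x : R) : (pairA W F G F' G').eval x =
    asmA W (F.eval x * F'.eval x) (F.eval x * G'.eval x + G.eval x * F'.eval x)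
      (G.eval x * G'.eval x) := by
  have := map_asmA (W.map C) (evalRingHom x) (F * F') (F * G' + G * F') (G * G')
  simpa [pairA, map_map_C_evalRingHom] using this

theorem eval_pairB (F G F' G' : R[X]) (x : R) : (pairB W F G F' G').eval x =
    asmB W (F.eval x * F'.eval x) (F.eval x * G'.eval x + G.eval x * F'.eval x)
      (G.eval x * G'.eval x) := by
  have := map_asmB (W.map C) (evalRingHom x) (F * F') (F * G' + G * F') (G * G')
  simpa [pairB, map_map_C_evalRingHom] using this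

theorem eval_pairD (F G F' G' : R[X]) (x : R) : (pairD F G F' G').eval x =
    asmD (F.eval x * F'.eval x) (F.eval x * G'.eval x + G.eval x * F'.eval x)
      (G.eval x * G'.eval x) := by
  simp [pairD, asmD]

theorem monic_pairA [Nontrivial R] {F G F' G' : R[X]} (hF : F.Monic) (hF' : F'.Monic)
    (hG : G.degree < F.degree) (hG' : G'.degree < F'.degree) :
    (pairA W F G F' G').Monic ∧
      (pairA W F G F' G').natDegree = 2 * (F.natDegree + F'.natDegree) := by
  set N : ℕ := F.natDegree + F'.natDegree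
  have hFd : F.degree = F.natDegree := degree_eq_natDegree hF.ne_zero
  have hFd' : F'.degree = F'.natDegree := degree_eq_natDegree hF'.ne_zero
  have hs : (F * F').Monic := hF.mul hF'
  have hsd : (F * F').degree = (N : WithBot ℕ) := by
    rw [hF'.degree_mul, hFd, hFd', ← Nat.cast_add]
  have lt_of : ∀ p q : R[X], p.degree ≤ F.degree → q.degree < F'.degree →
      (p * q).degree < N := by
    intro p q hp hq
    rcases eq_or_ne q 0 with rfl | hq0
    · simp
    rcases eq_or_ne p 0 with rfl | hp0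
    · simp
    refine lt_of_le_of_lt (degree_mul_le _ _) ?_
    rw [degree_eq_natDegree hp0, hFd, Nat.cast_le] at hp
    rw [degree_eq_natDegree hq0, hFd', Nat.cast_lt] at hq
    rw [degree_eq_natDegree hp0, degree_eq_natDegree hq0, ← Nat.cast_add, Nat.cast_lt]
    omega
  have lt_of' : ∀ p q : R[X], p.degree < F.degree → q.degree ≤ F'.degree →
      (p * q).degree < N := by
    intro p q hp hq
    rcases eq_or_ne q 0 with rfl | hq0
    · simp
    rcases eq_or_ne p 0 with rfl | hp0
    · simp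
    refine lt_of_le_of_lt (degree_mul_le _ _) ?_
    rw [degree_eq_natDegree hp0, hFd, Nat.cast_lt] at hp
    rw [degree_eq_natDegree hq0, hFd', Nat.cast_le] at hq
    rw [degree_eq_natDegree hp0, degree_eq_natDegree hq0, ← Nat.cast_add, Nat.cast_lt]
    omega
  have ht : (F * G' + G * F').degree < N :=
    lt_of_le_of_lt (degree_add_le _ _) (max_lt (lt_of _ _ le_rfl hG') (lt_of' _ _ hG le_rfl))
  have hu : (G * G').degree < N := lt_of _ _ hG.le hG'
  have key : ∀ (c : R) (p q : R[X]), p.degree ≤ N → q.degree < N →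
      (C c * p * q).degree < (2 * N : ℕ) := by
    intro c p q hp hq
    rcases eq_or_ne (C c * p * q) 0 with h0 | h0
    · rw [h0, degree_zero]; exact WithBot.bot_lt_coe _
    have hp0 : p ≠ 0 := by rintro rfl; simp at h0
    have hq0 : q ≠ 0 := by rintro rfl; simp at h0
    rw [degree_eq_natDegree h0, Nat.cast_lt]
    rw [degree_eq_natDegree hp0, Nat.cast_le] at hp
    rw [degree_eq_natDegree hq0, Nat.cast_lt] at hq
    have h1 := natDegree_mul_le (p := C c * p) (q := q)
    have h2 := natDegree_C_mul_le c p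
    omega
  have e : pairA W F G F' G' = (F * F') ^ 2 - (C W.b₄ * (F * F') * (G * G') +
      C W.b₆ * (F * G' + G * F') * (G * G') + C W.b₈ * (G * G') * (G * G')) := by
    simp only [pairA, asmA, map_b₄, map_b₆, map_b₈]
    ring
  have h2 : ((F * F') ^ 2).degree = (2 * N : ℕ) := by
    rw [sq, hs.degree_mul, hsd, ← Nat.cast_add, two_mul]
  have hlt : (C W.b₄ * (F * F') * (G * G') + C W.b₆ * (F * G' + G * F') * (G * G') +
      C W.b₈ * (G * G') * (G * G')).degree < ((F * F') ^ 2).degree := by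
    rw [h2]
    exact lt_of_le_of_lt (degree_add_le _ _) (max_lt (lt_of_le_of_lt (degree_add_le _ _)
      (max_lt (key _ _ _ hsd.le hu) (key _ _ _ ht.le hu))) (key _ _ _ hu.le hu))
  rw [e]
  refine ⟨(hs.pow 2).sub_of_left hlt, ?_⟩
  refine natDegree_eq_of_degree_eq_some ?_
  rw [degree_sub_eq_left_of_degree_lt hlt, h2]

end Prelim

section Field

variable {K : Type*} [Field K] [DecidableEq K] {W : Affine K}

omit [DecidableEq K] in
theorem sym_ne_zero {f g f' g' : K} (h : ¬(f = 0 ∧ g = 0)) (h' : ¬(f' = 0 ∧ g' = 0)) :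
    ¬(f * f' = 0 ∧ f * g' + g * f' = 0 ∧ g * g' = 0) := by
  rintro ⟨h1, h2, h3⟩
  rcases mul_eq_zero.mp h1 with hf | hf
  · have hg : g ≠ 0 := fun hg => h ⟨hf, hg⟩
    have hg' : g' = 0 := (mul_eq_zero.mp h3).resolve_left hg
    rw [hf, zero_mul, zero_add] at h2
    exact h' ⟨(mul_eq_zero.mp h2).resolve_left hg, hg'⟩
  · have hg' : g' ≠ 0 := fun hg => h' ⟨hf, hg⟩
    have hg : g = 0 := (mul_eq_zero.mp h3).resolve_right hg'
    rw [hf, mul_zero, add_zero] at h2
    exact h ⟨(mul_eq_zero.mp h2).resolve_right hg', hg⟩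

omit [DecidableEq K] in
theorem sym_cancel {a b A B f g c : K} (hfg : ¬(f = 0 ∧ g = 0)) (h1 : a * f = c * (A * f))
    (h2 : a * g + b * f = c * (A * g + B * f)) (h3 : b * g = c * (B * g)) :
    a = c * A ∧ b = c * B := by
  have e1 : (a - c * A) * f = 0 := by linear_combination h1
  have e3 : (b - c * B) * g = 0 := by linear_combination h3
  by_cases hf : f = 0
  · have hg : g ≠ 0 := fun hg => hfg ⟨hf, hg⟩
    subst hf
    have e2 : (a - c * A) * g = 0 := by linear_combination h2
    exact ⟨sub_eq_zero.mp ((mul_eq_zero.mp e2).resolve_right hg),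
      sub_eq_zero.mp ((mul_eq_zero.mp e3).resolve_right hg)⟩
  · have ha : a - c * A = 0 := (mul_eq_zero.mp e1).resolve_right hf
    have e2 : (b - c * B) * f = 0 := by linear_combination h2 - g * ha
    exact ⟨sub_eq_zero.mp ha, sub_eq_zero.mp ((mul_eq_zero.mp e2).resolve_right hf)⟩

/-- `![a, b]` is a homogeneous representative of `x(P)`. -/
def XRepIs (P : W.Point) (a b : K) : Prop := ∃ c : K, c ≠ 0 ∧ P.xRep = c • ![a, b]

theorem xRepIs_zero : XRepIs (0 : W.Point) 1 0 := ⟨1, one_ne_zero, by simp⟩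

theorem xRepIs_some {x y : K} (h : W.Nonsingular x y) : XRepIs (Affine.Point.some x y h) x 1 :=
  ⟨1, one_ne_zero, by simp⟩

theorem XRepIs.ne_zero {P : W.Point} {a b : K} (h : XRepIs P a b) : ¬(a = 0 ∧ b = 0) := by
  rintro ⟨rfl, rfl⟩
  obtain ⟨c, -, h⟩ := h
  exact Affine.Point.xRep_ne_zero P (by rw [h]; ext i; fin_cases i <;> simp)

theorem XRepIs.eq_zero_iff {P : W.Point} {a b : K} (h : XRepIs P a b) : P = 0 ↔ b = 0 := by
  obtain ⟨c, hc, h⟩ := h
  rcases P with _ | ⟨x, y, hP⟩
  · have h1 := congrFun h 1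
    simp only [← Affine.Point.zero_def, Affine.Point.xRep_zero, Pi.smul_apply, smul_eq_mul,
      Matrix.cons_val_one, Matrix.cons_val_fin_one] at h1
    simp [← Affine.Point.zero_def, (mul_eq_zero.mp h1.symm).resolve_left hc]
  · have h1 := congrFun h 1
    simp only [Affine.Point.xRep_some, Pi.smul_apply, smul_eq_mul, Matrix.cons_val_one,
      Matrix.cons_val_fin_one] at h1
    have hb : b ≠ 0 := by rintro rfl; simp at h1
    simp [hb, Affine.Point.some_ne_zero]

theorem XRepIs.mul_eq {x y a b : K} {h : W.Nonsingular x y}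
    (hr : XRepIs (Affine.Point.some x y h) a b) : x * b = a := by
  obtain ⟨c, hc, hr⟩ := hr
  have h0 : x = c * a := by simpa using congrFun hr 0
  have h1 : (1 : K) = c * b := by simpa using congrFun hr 1
  rw [h0]
  linear_combination -a * h1

theorem XRepIs.sym2x {P Q : W.Point} {a b a' b' : K} (hP : XRepIs P a b) (hQ : XRepIs Q a' b') :
    ∃ c : K, c ≠ 0 ∧ P.sym2x Q = c • ![a * a', a * b' + b * a', b * b'] := by
  obtain ⟨c, hc, hP⟩ := hP
  obtain ⟨d, hd, hQ⟩ := hQ
  refine ⟨c * d, mul_ne_zero hc hd, ?_⟩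
  simp only [Affine.Point.sym2x, hP, hQ]
  ext i
  fin_cases i <;> simp <;> ring

variable [W.IsElliptic]

/-- Coordinates of `P + Q` and `P - Q` in terms of those of `P` and `Q`. -/
theorem XRepIs.addSub {P Q : W.Point} {a b a' b' f g f' g' : K} (hP : XRepIs P a b)
    (hQ : XRepIs Q a' b') (hs : XRepIs (P + Q) f g) (hd : XRepIs (P - Q) f' g') :
    ∃ c : K, c ≠ 0 ∧ f * f' = c * asmA W (a * a') (a * b' + b * a') (b * b') ∧
      f * g' + g * f' = c * asmB W (a * a') (a * b' + b * a') (b * b') ∧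
      g * g' = c * asmD (a * a') (a * b' + b * a') (b * b') := by
  obtain ⟨c₁, hc₁, e₁⟩ := hP.sym2x hQ
  obtain ⟨c₂, hc₂, e₂⟩ := hs.sym2x hd
  obtain ⟨c₃, hc₃, e₃⟩ := sym2x_add_sub P Q
  rw [e₁, e₂] at e₃
  have hsm : c₁ • ![a * a', a * b' + b * a', b * b'] =
      ![c₁ * (a * a'), c₁ * (a * b' + b * a'), c₁ * (b * b')] := by
    ext i; fin_cases i <;> simp
  rw [hsm, eval_addSubMap] at e₃
  refine ⟨c₃ * c₁ ^ 2 / c₂, div_ne_zero (mul_ne_zero hc₃ (pow_ne_zero 2 hc₁)) hc₂, ?_, ?_, ?_⟩
  · have h0 : c₂ * (f * f') =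
        c₃ * asmA W (c₁ * (a * a')) (c₁ * (a * b' + b * a')) (c₁ * (b * b')) := by
      simpa using congrFun e₃ 0
    field_simp
    rw [show f * f' * c₂ = c₂ * (f * f') by ring, h0]
    simp only [asmA]; ring
  · have h0 : c₂ * (f * g' + g * f') =
        c₃ * asmB W (c₁ * (a * a')) (c₁ * (a * b' + b * a')) (c₁ * (b * b')) := by
      simpa using congrFun e₃ 1
    field_simp
    rw [show (f * g' + g * f') * c₂ = c₂ * (f * g' + g * f') by ring, h0]
    simp only [asmB]; ring
  · have h0 : c₂ * (g * g') =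
        c₃ * asmD (c₁ * (a * a')) (c₁ * (a * b' + b * a')) (c₁ * (b * b')) := by
      simpa using congrFun e₃ 2
    field_simp
    rw [show g * g' * c₂ = c₂ * (g * g') by ring, h0]
    simp only [asmD]; ring

end Field

section AlgClosed

variable {K : Type*} [Field K] [IsAlgClosed K]

theorem isCoprime_of_forall_eval {p q : K[X]} (h : ∀ x, ¬(p.eval x = 0 ∧ q.eval x = 0)) :
    IsCoprime p q := by
  refine isCoprime_of_dvd p q ?_ ?_
  · rintro ⟨rfl, rfl⟩; exact h 0 ⟨eval_zero, eval_zero⟩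
  · intro d hd hd0 hp hq
    obtain ⟨x, hx⟩ := IsAlgClosed.exists_root d (fun hdeg => hd (isUnit_iff_degree_eq_zero.mpr hdeg))
    exact h x ⟨eval_eq_zero_of_dvd_of_eval_eq_zero hp hx,
      eval_eq_zero_of_dvd_of_eval_eq_zero hq hx⟩

theorem eval_ne_zero_of_isCoprime {p q : K[X]} (h : IsCoprime p q) (x : K) :
    ¬(p.eval x = 0 ∧ q.eval x = 0) := by
  rintro ⟨hp, hq⟩
  obtain ⟨a, b, hab⟩ := h
  simpa [hp, hq] using congrArg (Polynomial.eval x) hab

/-- Triples of polynomials that are proportional everywhere are equal once normalised. -/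
theorem triple_eq_of_proportional {u₀ u₁ u₂ w₀ w₁ w₂ : K[X]}
    (hu : ∀ x, ¬(u₀.eval x = 0 ∧ u₁.eval x = 0 ∧ u₂.eval x = 0))
    (h : ∀ x, ∃ c : K, c ≠ 0 ∧ w₀.eval x = c * u₀.eval x ∧ w₁.eval x = c * u₁.eval x ∧
      w₂.eval x = c * u₂.eval x) (hu₀ : u₀.Monic) (hw₀ : w₀.Monic) :
    w₀ = u₀ ∧ w₁ = u₁ ∧ w₂ = u₂ := by
  have h01 : w₀ * u₁ = w₁ * u₀ := Polynomial.funext fun x => by
    obtain ⟨c, -, e0, e1, -⟩ := h x; simp only [eval_mul, e0, e1]; ring
  have h02 : w₀ * u₂ = w₂ * u₀ := Polynomial.funext fun x => by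
    obtain ⟨c, -, e0, -, e2⟩ := h x; simp only [eval_mul, e0, e2]; ring
  have hdvd : u₀ ∣ w₀ := by
    obtain ⟨g, hg⟩ := (IsPrincipalIdealRing.principal (Ideal.span {u₀, u₁, u₂} : Ideal K[X])).principal
    rw [Ideal.submodule_span_eq] at hg
    have hmem : ∀ v ∈ ({u₀, u₁, u₂} : Set K[X]), g ∣ v := fun v hv =>
      Ideal.mem_span_singleton.mp (hg ▸ Ideal.subset_span hv)
    have hunit : IsUnit g := by
      by_contra hn
      rcases eq_or_ne g 0 with rfl | hg0
      · exact hu₀.ne_zero (zero_dvd_iff.mp (hmem u₀ (by simp)))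
      obtain ⟨x, hx⟩ := IsAlgClosed.exists_root g
        (fun hdeg => hn (isUnit_iff_degree_eq_zero.mpr hdeg))
      exact hu x ⟨eval_eq_zero_of_dvd_of_eval_eq_zero (hmem u₀ (by simp)) hx,
        eval_eq_zero_of_dvd_of_eval_eq_zero (hmem u₁ (by simp)) hx,
        eval_eq_zero_of_dvd_of_eval_eq_zero (hmem u₂ (by simp)) hx⟩
    have h1 : (1 : K[X]) ∈ Ideal.span {u₀, u₁, u₂} := by
      rw [hg]; exact Ideal.mem_span_singleton.mpr (isUnit_iff_dvd_one.mp hunit)
    rw [Ideal.mem_span_insert] at h1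
    obtain ⟨a, z, hz, h1⟩ := h1
    obtain ⟨b, c, rfl⟩ := Ideal.mem_span_pair.mp hz
    exact ⟨a * w₀ + b * w₁ + c * w₂, by linear_combination w₀ * h1 + b * h01 + c * h02⟩
  obtain ⟨r, hr⟩ := hdvd
  have h1 : w₁ = r * u₁ := mul_right_cancel₀ hu₀.ne_zero (by rw [← h01, hr]; ring)
  have h2 : w₂ = r * u₂ := mul_right_cancel₀ hu₀.ne_zero (by rw [← h02, hr]; ring)
  have hroot : ∀ x, r.eval x ≠ 0 := by
    intro x hx
    obtain ⟨c, hc, e0, e1, e2⟩ := h x
    refine hu x ⟨?_, ?_, ?_⟩
    · simpa [hr, hx, hc] using e0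
    · simpa [h1, hx, hc] using e1
    · simpa [h2, hx, hc] using e2
  have hdeg : r.degree = 0 := by
    by_contra hd
    obtain ⟨x, hx⟩ := IsAlgClosed.exists_root r hd
    exact hroot x hx
  have hr1 : r = 1 :=
    (hu₀.of_mul_monic_left (hr ▸ hw₀)).natDegree_eq_zero.mp (natDegree_eq_of_degree_eq_some hdeg)
  subst hr1
  exact ⟨by rw [hr, mul_one], by rw [h1, one_mul], by rw [h2, one_mul]⟩

end AlgClosed

end FLTAgent.EllTorsion

end
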