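import Fermat.Agent.EllTorsion.LineNorm

/-!
# The Weil pairing on odd torsion, by Miller's formula

`wPair p S T` is the square of Miller's expression `f_S(T)/f_T(S)`. For odd `p` it is alternating
(`wPair_swap`) and additive in the second variable away from the degenerate positions
(`wPair_add_right`, `wPair_mul_eq_one`), by reciprocity with lines (`exists_reciprocity`).
-/

noncomputable section

open WeierstrassCurve Polynomial
open scoped Polynomial.Bivariate

namespace FLTAgent.EllTorsion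

variable {K : Type*} [Field K] [DecidableEq K] {W : Affine K}

omit [DecidableEq K] in
theorem exists_some_of_ne_zero {P : W.Point} (hP : P ≠ 0) :
    ∃ x y, ∃ h : W.Nonsingular x y, P = Affine.Point.some x y h := by
  rcases P with _ | ⟨x, y, h⟩
  · exact absurd rfl hP
  · exact ⟨x, y, h, rfl⟩

omit [DecidableEq K] in
theorem pev_mul {P : W.Point} (hP : P ≠ 0) (f g : W.CoordinateRing) :
    pev P (f * g) = pev P f * pev P g := by
  obtain ⟨x, y, h, rfl⟩ := exists_some_of_ne_zero hP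
  exact map_mul _ f g

omit [DecidableEq K] in
theorem pev_pow {P : W.Point} (hP : P ≠ 0) (f : W.CoordinateRing) (n : ℕ) :
    pev P (f ^ n) = pev P f ^ n := by
  obtain ⟨x, y, h, rfl⟩ := exists_some_of_ne_zero hP
  exact map_pow _ f n

omit [DecidableEq K] in
theorem pev_neg {P : W.Point} (hP : P ≠ 0) (f : W.CoordinateRing) :
    pev P (-f) = -pev P f := by
  obtain ⟨x, y, h, rfl⟩ := exists_some_of_ne_zero hP
  exact map_neg _ f

omit [DecidableEq K] in
theorem pev_conj {P : W.Point} (hP : P ≠ 0) (f : W.CoordinateRing) :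
    pev P (conj W f) = pev (-P) f := by
  obtain ⟨x, y, h, rfl⟩ := exists_some_of_ne_zero hP
  rw [Affine.Point.neg_some, pev_some, pev_some]
  exact evalAt_conj h.left ((W.nonsingular_neg ..).mpr h).left f

omit [DecidableEq K] in
theorem pev_vert {P Q : W.Point} (hP : P ≠ 0) (hQ : Q ≠ 0) :
    pev P (vert Q) = px P - px Q := by
  obtain ⟨x, y, h, rfl⟩ := exists_some_of_ne_zero hP
  obtain ⟨x', y', h', rfl⟩ := exists_some_of_ne_zero hQ
  rw [vert_some, pev_some, Affine.CoordinateRing.XClass, mk_C_eq_el, evalAt_el]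
  simp [px]

omit [DecidableEq K] in
theorem eq_or_eq_neg_of_px_eq {P Q : W.Point} (hP : P ≠ 0) (hQ : Q ≠ 0) (h : px P = px Q) :
    P = Q ∨ P = -Q := by
  obtain ⟨x, y, hn, rfl⟩ := exists_some_of_ne_zero hP
  obtain ⟨x', y', hn', rfl⟩ := exists_some_of_ne_zero hQ
  exact Affine.Point.X_eq_iff.mp h

omit [DecidableEq K] in
theorem px_neg (P : W.Point) : px (-P) = px P := by
  rcases P with _ | ⟨x, y, h⟩ <;> rfl

variable {p : ℕ}

theorem neg_torsion {S : W.Point} (hS : p • S = 0) : p • (-S) = 0 := by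
  rw [neg_nsmul, hS, neg_zero]

theorem torsFun_mul_neg' {S : W.Point} (hS : p • S = 0) (h0 : S ≠ 0) :
    torsFun p S * torsFun p (-S) = vert S ^ p := by
  obtain ⟨x, y, h, rfl⟩ := exists_some_of_ne_zero h0
  rw [vert_some]
  exact torsFun_mul_neg hS

theorem ne_neg_of_torsion (hp : Odd p) {S : W.Point} (hS : p • S = 0) (h0 : S ≠ 0) : S ≠ -S := by
  intro h
  have h2 : S + S = 0 := eq_neg_iff_add_eq_zero.mp h
  obtain ⟨m, rfl⟩ := hp
  rw [succ_nsmul, mul_comm, mul_nsmul, two_nsmul, ← nsmul_add, h2, nsmul_zero, zero_add] at hS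
  exact h0 hS

theorem pev_torsFun_neg (hp : Odd p) {S U : W.Point} (hS : p • S = 0) (h0 : S ≠ 0) (hU : U ≠ 0) :
    pev U (torsFun p (-S)) = -pev (-U) (torsFun p S) := by
  rw [show torsFun p (-S) = -conj W (torsFun p S) by rw [conj_torsFun hp hS h0, neg_neg],
    pev_neg hU, pev_conj hU]

/-- `f_S(U) f_S(-U) = (x(S) - x(U))^p`. -/
theorem pev_mul_pev_neg (hp : Odd p) {S U : W.Point} (hS : p • S = 0) (h0 : S ≠ 0) (hU : U ≠ 0) :
    pev U (torsFun p S) * pev (-U) (torsFun p S) = (px S - px U) ^ p := by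
  have h := congrArg (pev U) (torsFun_mul_neg' hS h0)
  rw [pev_mul hU, pev_pow hU, pev_vert hU h0, pev_torsFun_neg hp hS h0 hU] at h
  rw [show px S - px U = -(px U - px S) by ring, hp.neg_pow]
  linear_combination -h

/-- `f_T(S) f_{-T}(S) = (x(S) - x(T))^p`. -/
theorem pev_torsFun_mul_neg {S T : W.Point} (hT : p • T = 0) (hT0 : T ≠ 0) (hS0 : S ≠ 0) :
    pev S (torsFun p T) * pev S (torsFun p (-T)) = (px S - px T) ^ p := by
  have h := congrArg (pev S) (torsFun_mul_neg' hT hT0)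
  rwa [pev_mul hS0, pev_pow hS0, pev_vert hS0 hT0] at h

/-- The square of Miller's expression `f_S(T)/f_T(S)` for the Weil pairing. -/
def wPair (p : ℕ) (S T : W.Point) : K := (pev T (torsFun p S) / pev S (torsFun p T)) ^ 2

theorem wPair_swap (S T : W.Point) : wPair p T S = (wPair p S T)⁻¹ := by
  rw [wPair, wPair, ← inv_pow, inv_div]

theorem wPair_ne_zero (hp : p ≠ 0) {S T : W.Point} (hS : p • S = 0) (hS0 : S ≠ 0)
    (hT : p • T = 0) (hT0 : T ≠ 0) (hne : T ≠ S) : wPair p S T ≠ 0 :=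
  pow_ne_zero 2 (div_ne_zero (mt (pev_torsFun_eq_zero_iff hp hS hS0 hT0).mp hne)
    (mt (pev_torsFun_eq_zero_iff hp hT hT0 hS0).mp hne.symm))

theorem wPair_neg_right (hp : Odd p) {S T : W.Point} (hS : p • S = 0) (hS0 : S ≠ 0)
    (hT : p • T = 0) (hT0 : T ≠ 0) (h1 : T ≠ S) (h2 : T ≠ -S) :
    wPair p S (-T) = (wPair p S T)⁻¹ := by
  have hd : (px S - px T) ^ p ≠ 0 := by
    refine pow_ne_zero _ (sub_ne_zero.mpr fun h => ?_)
    rcases eq_or_eq_neg_of_px_eq hT0 hS0 h.symm with e | e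
    · exact h1 e
    · exact h2 e
  have ha := pev_mul_pev_neg hp hS hS0 hT0
  have hb := pev_torsFun_mul_neg hT hT0 hS0
  refine eq_inv_of_mul_eq_one_left ?_
  rw [wPair, wPair, ← mul_pow, div_mul_div_comm, mul_comm (pev (-T) _), ha,
    mul_comm (pev S (torsFun p (-T))), hb, div_self hd, one_pow]

omit [DecidableEq K] in
theorem sq_div_eq {x₁ x₂ x₃ y₁ y₂ y₃ : K} (b₁ : y₁ ≠ 0) (b₂ : y₂ ≠ 0) (b₃ : y₃ ≠ 0)
    (h : x₁ ^ 2 * x₂ ^ 2 * y₃ ^ 2 = x₃ ^ 2 * (y₁ ^ 2 * y₂ ^ 2)) :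
    (x₃ / y₃) ^ 2 = (x₁ / y₁) ^ 2 * (x₂ / y₂) ^ 2 := by
  field_simp
  linear_combination -h

omit [DecidableEq K] in
theorem sq_div_mul_eq_one {xA xB yA yB : K} (ha : yA ≠ 0) (hb : yB ≠ 0)
    (h : xA ^ 2 * xB ^ 2 = yA ^ 2 * yB ^ 2) : (xA / yA) ^ 2 * (xB / yB) ^ 2 = 1 := by
  field_simp
  linear_combination h

variable [IsAlgClosed K] [W.IsElliptic]

/-- Reciprocity for a line, in terms of points. -/
theorem exists_reciprocity (hp : Odd p) {S : W.Point} (hS : p • S = 0) (h0 : S ≠ 0) :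
    ∃ σ : K, σ ^ 2 = 1 ∧ ∀ A B : W.Point, A ≠ 0 → B ≠ 0 → A + B ≠ 0 →
      pev A (torsFun p S) * pev B (torsFun p S) * pev (-(A + B)) (torsFun p S) =
        σ * pev S (chord A B) ^ p := by
  obtain ⟨x, y, h, rfl⟩ := exists_some_of_ne_zero h0
  obtain ⟨σ, hσ, hn⟩ := exists_lineNorm_torsFun hp hS
  exact ⟨σ, hσ, fun A B hA hB hAB => pev_mul_pev_torsFun hn hA hB hAB⟩

theorem wPair_add_right (hp : Odd p) {S T₁ T₂ : W.Point} (hS : p • S = 0) (hS0 : S ≠ 0)
    (hT₁ : p • T₁ = 0) (hT₂ : p • T₂ = 0) (h₁ : T₁ ≠ 0) (h₂ : T₂ ≠ 0) (h₃ : T₁ + T₂ ≠ 0)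
    (e₁ : T₁ ≠ S) (e₂ : T₂ ≠ S) (e₃ : T₁ + T₂ ≠ S) (f₃ : T₁ + T₂ ≠ -S) :
    wPair p S (T₁ + T₂) = wPair p S T₁ * wPair p S T₂ := by
  obtain ⟨σ, hσ2, hσ⟩ := exists_reciprocity hp hS hS0
  have hp0 := hp.pos.ne'
  have hT₃ : p • (T₁ + T₂) = 0 := by rw [nsmul_add, hT₁, hT₂, add_zero]
  have r := hσ T₁ T₂ h₁ h₂ h₃
  have v := pev_mul_pev_neg hp hS hS0 h₃
  have m := congrArg (pev S) (torsFun_mul hT₁ hT₂)
  rw [pev_mul hS0, pev_mul hS0, pev_mul hS0, pev_pow hS0, pev_pow hS0, pev_vert hS0 h₃] at m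
  have nz : ∀ {U : W.Point}, U ≠ 0 → U ≠ S → pev U (torsFun p S) ≠ 0 := fun hU0 hU =>
    mt (pev_torsFun_eq_zero_iff hp0 hS hS0 hU0).mp hU
  have nz' : ∀ {U : W.Point}, p • U = 0 → U ≠ 0 → U ≠ S → pev S (torsFun p U) ≠ 0 :=
    fun hU hU0 hUS => mt (pev_torsFun_eq_zero_iff hp0 hU hU0 hS0).mp (Ne.symm hUS)
  have a₁ := nz h₁ e₁
  have a₂ := nz h₂ e₂
  have a₃ := nz h₃ e₃
  have a₄ : pev (-(T₁ + T₂)) (torsFun p S) ≠ 0 :=
    nz (neg_ne_zero.mpr h₃) (fun h => f₃ (neg_eq_iff_eq_neg.mp h))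
  have b₁ := nz' hT₁ h₁ e₁
  have b₂ := nz' hT₂ h₂ e₂
  have b₃ := nz' hT₃ h₃ e₃
  set x₁ := pev T₁ (torsFun p S)
  set x₂ := pev T₂ (torsFun p S)
  set x₃ := pev (T₁ + T₂) (torsFun p S)
  set x₄ := pev (-(T₁ + T₂)) (torsFun p S)
  set y₁ := pev S (torsFun p T₁)
  set y₂ := pev S (torsFun p T₂)
  set y₃ := pev S (torsFun p (T₁ + T₂))
  set l := pev S (chord T₁ T₂) ^ p
  set d := (px S - px (T₁ + T₂)) ^ p
  have key : x₁ * x₂ * y₃ = σ * (x₃ * (y₁ * y₂)) := by
    refine mul_right_cancel₀ a₄ ?_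
    linear_combination y₃ * r - σ * (y₁ * y₂) * v - σ * m
  have hk := congrArg (· ^ 2) key
  simp only [mul_pow, hσ2, one_mul] at hk
  exact sq_div_eq b₁ b₂ b₃ hk

/-- The degenerate case of additivity. -/
theorem wPair_mul_eq_one (hp : Odd p) {S A B : W.Point} (hS : p • S = 0) (hS0 : S ≠ 0)
    (hA : p • A = 0) (hB : p • B = 0) (hsum : A + B = -S) (hA0 : A ≠ 0) (hB0 : B ≠ 0)
    (a₁ : A ≠ S) (a₂ : A ≠ -S) (b₁ : B ≠ S) (b₂ : B ≠ -S) :
    wPair p S A * wPair p S B = 1 := by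
  obtain ⟨σ, hσ2, hσ⟩ := exists_reciprocity hp hS hS0
  have hp0 := hp.pos.ne'
  have hneg : -A + -B = S := by rw [← neg_add, hsum, neg_neg]
  have r := hσ (-A) (-B) (neg_ne_zero.mpr hA0) (neg_ne_zero.mpr hB0) (by rw [hneg]; exact hS0)
  rw [hneg] at r
  have nz : ∀ {U : W.Point}, U ≠ 0 → U ≠ S → pev U (torsFun p S) ≠ 0 := fun hU0 hU =>
    mt (pev_torsFun_eq_zero_iff hp0 hS hS0 hU0).mp hU
  have hnA := nz (neg_ne_zero.mpr hA0) (fun h => a₂ (neg_eq_iff_eq_neg.mp h))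
  have hnB := nz (neg_ne_zero.mpr hB0) (fun h => b₂ (neg_eq_iff_eq_neg.mp h))
  have hnS := nz (neg_ne_zero.mpr hS0) (ne_neg_of_torsion hp hS hS0).symm
  -- the product of a line and its conjugate is the product of three verticals
  have hLL : chord A B * chord (-A) (-B) = vert A * vert B * vert S := by
    have i₁ := ptIdeal_mul A B
    have i₂ := ptIdeal_mul (-A) (-B)
    rw [hsum] at i₁
    rw [hneg] at i₂
    have hv : ∀ P : W.Point, P ≠ 0 → ptIdeal P * ptIdeal (-P) = Ideal.span {vert P} := by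
      intro P hP
      have h := ptIdeal_mul P (-P)
      rw [add_neg_cancel, vert_zero, ptIdeal_zero, Ideal.span_singleton_one, Ideal.mul_top,
        Ideal.mul_top] at h
      obtain ⟨x, y, hn, rfl⟩ := exists_some_of_ne_zero hP
      rw [h, vert_some, Affine.Point.neg_some]
      rw [chord, if_pos ⟨rfl, (W.negY_negY x y).symm⟩]
    have hvn : vert (-S) = vert S := by
      obtain ⟨x, y, hn, rfl⟩ := exists_some_of_ne_zero hS0
      rfl
    rw [hvn] at i₁
    refine ((normalised_chord _ _).mul (normalised_chord _ _)).eq_of_span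
      (((normalised_vert _).mul (normalised_vert _)).mul (normalised_vert _)) ?_
    refine (Ideal.span_singleton_mul_right_inj (normalised_vert S).ne_zero).mp ?_
    simp only [← Ideal.span_singleton_mul_span_singleton]
    calc Ideal.span {vert S} * (Ideal.span {chord A B} * Ideal.span {chord (-A) (-B)})
        = (Ideal.span {chord A B} * ptIdeal (-S)) *
            (Ideal.span {chord (-A) (-B)} * ptIdeal S) := by rw [← hv S hS0]; ring
      _ = (ptIdeal A * ptIdeal (-A)) * (ptIdeal B * ptIdeal (-B)) *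
            (Ideal.span {vert S} * Ideal.span {vert S}) := by rw [← i₁, ← i₂]; ring
      _ = _ := by rw [hv A hA0, hv B hB0]; ring
  have m : pev S (torsFun p A) * pev S (torsFun p B) * pev S (chord (-A) (-B)) ^ p =
      (px S - px A) ^ p * (px S - px B) ^ p * -pev (-S) (torsFun p S) := by
    have h := torsFun_mul hA hB
    have hvn : vert (-S) = vert S := by
      obtain ⟨x, y, hn, rfl⟩ := exists_some_of_ne_zero hS0
      rfl
    rw [hsum, hvn] at h
    have h' : torsFun p A * torsFun p B * chord (-A) (-B) ^ p =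
        (vert A * vert B) ^ p * torsFun p (-S) := by
      refine mul_right_cancel₀ (pow_ne_zero p (normalised_vert S).ne_zero) ?_
      calc torsFun p A * torsFun p B * chord (-A) (-B) ^ p * vert S ^ p
          = (torsFun p A * torsFun p B * vert S ^ p) * chord (-A) (-B) ^ p := by ring
        _ = (chord A B * chord (-A) (-B)) ^ p * torsFun p (-S) := by rw [h]; ring
        _ = _ := by rw [hLL]; ring
    have := congrArg (pev S) h'
    rw [pev_mul hS0, pev_mul hS0, pev_mul hS0, pev_pow hS0, pev_pow hS0, pev_mul hS0,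
      pev_vert hS0 hA0, pev_vert hS0 hB0, pev_torsFun_neg hp hS hS0 hS0, mul_pow] at this
    exact this
  have va := pev_mul_pev_neg hp hS hS0 hA0
  have vb := pev_mul_pev_neg hp hS hS0 hB0
  have ya : pev S (torsFun p A) ≠ 0 := mt (pev_torsFun_eq_zero_iff hp0 hA hA0 hS0).mp a₁.symm
  have yb : pev S (torsFun p B) ≠ 0 := mt (pev_torsFun_eq_zero_iff hp0 hB hB0 hS0).mp b₁.symm
  set xA := pev A (torsFun p S)
  set xB := pev B (torsFun p S)
  set yA := pev S (torsFun p A)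
  set yB := pev S (torsFun p B)
  set c := pev S (chord (-A) (-B)) ^ p
  have hc : c ≠ 0 := by
    intro hc
    rw [hc, mul_zero] at r
    exact mul_ne_zero (mul_ne_zero hnA hnB) hnS r
  have key : σ * (xA * xB) = -(yA * yB) := by
    refine mul_right_cancel₀ hc ?_
    linear_combination -(xA * xB) * r + pev (-B) (torsFun p S) * xB * pev (-S) (torsFun p S) * va +
      (px S - px A) ^ p * pev (-S) (torsFun p S) * vb + m
  have hk := congrArg (· ^ 2) key
  simp only [mul_pow, hσ2, one_mul, neg_sq] at hk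
  exact sq_div_mul_eq_one ya yb hk

end FLTAgent.EllTorsion

end
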