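import Fermat.Agent.EllTorsion.Card
import Fermat.Agent.EllTorsion.Pairing
import Mathlib.Order.Filter.Cofinite

/-!
# Rational functions on an elliptic curve, as functions of points up to finitely many points

`IsRat φ`: `φ` agrees with `(A + B Y) / D` off a finite set. The class is stable under field
operations and negation, and contains the coordinates of `k Q` (`isRat_nsmul_coords`).
Multiplication by a nonzero integer has finite fibres (`tendsto_nsmul`).
-/

noncomputable section

open WeierstrassCurve Polynomial Filter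

namespace FLTAgent.EllTorsion

variable {K : Type*} [Field K] [DecidableEq K] {W : Affine K}

omit [DecidableEq K] in
theorem finite_px_eq (x : K) : {Q : W.Point | px Q = x}.Finite := by
  classical
  by_cases h : ∃ P : W.Point, P ≠ 0 ∧ px P = x
  · obtain ⟨P, hP, hx⟩ := h
    refine Set.Finite.subset (Set.toFinite ({0, P, -P} : Set W.Point)) fun Q hQ => ?_
    rcases eq_or_ne Q 0 with h0 | h0
    · exact Or.inl h0
    · rcases eq_or_eq_neg_of_px_eq h0 hP (hQ.trans hx.symm) with e | e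
      · exact Or.inr (Or.inl e)
      · exact Or.inr (Or.inr e)
  · refine Set.Finite.subset (Set.finite_singleton (0 : W.Point)) fun Q hQ => ?_
    exact by_contra fun h0 => h ⟨Q, h0, hQ⟩

omit [DecidableEq K] in
theorem tendsto_px : Tendsto (px : W.Point → K) cofinite cofinite :=
  Tendsto.cofinite_of_finite_preimage_singleton fun x => finite_px_eq x

omit [DecidableEq K] in
theorem eventually_eval_px_ne_zero {d : K[X]} (hd : d ≠ 0) :
    ∀ᶠ Q : W.Point in cofinite, d.eval (px Q) ≠ 0 :=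
  tendsto_px.eventually ((finite_setOfPred_isRoot hd).eventually_cofinite_notMem)

omit [DecidableEq K] in
theorem eventually_ne' (R : W.Point) : ∀ᶠ Q : W.Point in cofinite, Q ≠ R :=
  (Set.finite_singleton R).eventually_cofinite_notMem

omit [DecidableEq K] in
theorem tendsto_neg' : Tendsto (fun Q : W.Point => -Q) cofinite cofinite :=
  neg_injective.tendsto_cofinite

theorem tendsto_add_const (T : W.Point) : Tendsto (fun Q : W.Point => Q + T) cofinite cofinite :=
  (add_left_injective T).tendsto_cofinite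

omit [DecidableEq K] in
theorem equation_of_ne_zero {P : W.Point} (hP : P ≠ 0) : W.Equation (px P) (py P) := by
  obtain ⟨x, y, h, rfl⟩ := exists_some_of_ne_zero hP
  exact h.left

omit [DecidableEq K] in
theorem py_neg {P : W.Point} (hP : P ≠ 0) : py (-P) = W.negY (px P) (py P) := by
  obtain ⟨x, y, h, rfl⟩ := exists_some_of_ne_zero hP
  rfl

omit [DecidableEq K] in
theorem pev_eq {P : W.Point} (hP : P ≠ 0) (f : W.CoordinateRing) :
    pev P f = (pA f).eval (px P) + (pB f).eval (px P) * py P := by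
  obtain ⟨x, y, h, rfl⟩ := exists_some_of_ne_zero hP
  conv_lhs => rw [← el_pA_pB f, pev_some, evalAt_el]
  rfl

/-- A function on points which agrees with a rational function off a finite set. -/
def IsRat (φ : W.Point → K) : Prop :=
  ∃ a b d : K[X], d ≠ 0 ∧ ∀ᶠ Q in cofinite,
    φ Q * d.eval (px Q) = a.eval (px Q) + b.eval (px Q) * py Q

namespace IsRat

variable {φ ψ : W.Point → K}

omit [DecidableEq K] in
theorem congr (h : IsRat φ) (he : ∀ᶠ Q in cofinite, ψ Q = φ Q) : IsRat ψ := by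
  obtain ⟨a, b, d, hd, h⟩ := h
  refine ⟨a, b, d, hd, ?_⟩
  filter_upwards [h, he] with Q hQ hQ'
  rw [hQ', hQ]

omit [DecidableEq K] in
theorem const (c : K) : IsRat (fun _ : W.Point => c) :=
  ⟨C c, 0, 1, one_ne_zero, .of_forall fun Q => by simp⟩

omit [DecidableEq K] in
theorem px : IsRat (px : W.Point → K) :=
  ⟨X, 0, 1, one_ne_zero, .of_forall fun Q => by simp⟩

omit [DecidableEq K] in
theorem py : IsRat (py : W.Point → K) :=
  ⟨0, 1, 1, one_ne_zero, .of_forall fun Q => by simp⟩

omit [DecidableEq K] in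
theorem add (hφ : IsRat φ) (hψ : IsRat ψ) : IsRat (fun Q => φ Q + ψ Q) := by
  obtain ⟨a, b, d, hd, h⟩ := hφ
  obtain ⟨a', b', d', hd', h'⟩ := hψ
  refine ⟨a * d' + a' * d, b * d' + b' * d, d * d', mul_ne_zero hd hd', ?_⟩
  filter_upwards [h, h'] with Q hQ hQ'
  simp only [eval_mul, eval_add]
  linear_combination d'.eval (EllTorsion.px Q) * hQ + d.eval (EllTorsion.px Q) * hQ'

omit [DecidableEq K] in
theorem neg (hφ : IsRat φ) : IsRat (fun Q => -φ Q) := by
  obtain ⟨a, b, d, hd, h⟩ := hφ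
  refine ⟨-a, -b, d, hd, ?_⟩
  filter_upwards [h] with Q hQ
  simp only [eval_neg]
  linear_combination -hQ

omit [DecidableEq K] in
theorem sub (hφ : IsRat φ) (hψ : IsRat ψ) : IsRat (fun Q => φ Q - ψ Q) := by
  simpa [sub_eq_add_neg] using hφ.add hψ.neg

omit [DecidableEq K] in
theorem mul (hφ : IsRat φ) (hψ : IsRat ψ) : IsRat (fun Q => φ Q * ψ Q) := by
  obtain ⟨a, b, d, hd, h⟩ := hφ
  obtain ⟨a', b', d', hd', h'⟩ := hψ
  refine ⟨a * a' + b * b' * (X ^ 3 + C W.a₂ * X ^ 2 + C W.a₄ * X + C W.a₆),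
    a * b' + b * a' - b * b' * (C W.a₁ * X + C W.a₃), d * d', mul_ne_zero hd hd', ?_⟩
  filter_upwards [h, h', eventually_ne' 0] with Q hQ hQ' h0
  have he := (W.equation_iff _ _).mp (equation_of_ne_zero h0)
  simp only [eval_mul, eval_add, eval_sub, eval_pow, eval_C, eval_X]
  linear_combination (ψ Q * d'.eval (EllTorsion.px Q)) * hQ +
    (a.eval (EllTorsion.px Q) + b.eval (EllTorsion.px Q) * EllTorsion.py Q) * hQ' +
    (b.eval (EllTorsion.px Q) * b'.eval (EllTorsion.px Q)) * he

omit [DecidableEq K] in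
theorem comp_neg (hφ : IsRat φ) : IsRat (fun Q => φ (-Q)) := by
  obtain ⟨a, b, d, hd, h⟩ := hφ
  refine ⟨a - b * (C W.a₁ * X + C W.a₃), -b, d, hd, ?_⟩
  filter_upwards [tendsto_neg'.eventually h, eventually_ne' 0] with Q hQ h0
  rw [px_neg, py_neg h0, Affine.negY] at hQ
  simp only [eval_mul, eval_add, eval_sub, eval_neg, eval_C, eval_X]
  linear_combination hQ

omit [DecidableEq K] in
theorem inv [Infinite W.Point] (hφ : IsRat φ) (hne : ∀ᶠ Q in cofinite, φ Q ≠ 0) :
    IsRat (fun Q => (φ Q)⁻¹) := by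
  obtain ⟨a, b, d, hd, h⟩ := hφ
  set L : K[X] := C W.a₁ * X + C W.a₃ with hL
  set N : K[X] := a ^ 2 - a * b * L - b ^ 2 * (X ^ 3 + C W.a₂ * X ^ 2 + C W.a₄ * X + C W.a₆)
    with hN
  have hprod : ∀ᶠ Q : W.Point in cofinite, N.eval (EllTorsion.px Q) =
      φ Q * d.eval (EllTorsion.px Q) *
        (a.eval (EllTorsion.px Q) - b.eval (EllTorsion.px Q) * L.eval (EllTorsion.px Q) -
          b.eval (EllTorsion.px Q) * EllTorsion.py Q) := by
    filter_upwards [h, eventually_ne' 0] with Q hQ h0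
    have he := (W.equation_iff _ _).mp (equation_of_ne_zero h0)
    rw [hQ]
    simp only [hN, hL, eval_mul, eval_add, eval_sub, eval_pow, eval_C, eval_X]
    linear_combination b.eval (EllTorsion.px Q) ^ 2 * he
  have hN0 : N ≠ 0 := by
    intro h0
    obtain ⟨Q, h1, h2, h3, h4, h5, h6⟩ :=
      (hprod.and (hne.and ((tendsto_neg'.eventually h).and ((tendsto_neg'.eventually hne).and
        ((eventually_eval_px_ne_zero hd).and (eventually_ne' 0)))))).exists
    rw [h0, eval_zero] at h1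
    rw [px_neg, py_neg h6, Affine.negY] at h3
    refine mul_ne_zero (mul_ne_zero h2 h5) ?_ h1.symm
    have h7 := mul_ne_zero h4 h5
    rw [h3] at h7
    simp only [hL, eval_add, eval_mul, eval_C, eval_X]
    intro h8; apply h7; linear_combination h8
  refine ⟨d * (a - b * L), -(d * b), N, hN0, ?_⟩
  filter_upwards [hprod, hne] with Q hQ h0
  rw [hQ]
  simp only [eval_mul, eval_sub, eval_neg]
  field_simp
  ring

omit [DecidableEq K] in
theorem div [Infinite W.Point] (hφ : IsRat φ) (hψ : IsRat ψ)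
    (hne : ∀ᶠ Q in cofinite, ψ Q ≠ 0) : IsRat (fun Q => φ Q / ψ Q) := by
  simpa [div_eq_mul_inv] using hφ.mul (hψ.inv hne)

end IsRat

omit [DecidableEq K] in
theorem poly_eq_zero_of_eventually [Infinite W.Point] {r : K[X]} {F : W.Point → W.Point}
    (hF : Tendsto F cofinite cofinite) (h : ∀ᶠ Q in cofinite, r.eval (px (F Q)) = 0) : r = 0 := by
  by_contra hr
  obtain ⟨Q, h1, h2⟩ := (h.and (hF.eventually (eventually_eval_px_ne_zero hr))).exists
  exact h2 h1

theorem px_add {A B : W.Point} (hA : A ≠ 0) (hB : B ≠ 0) (hAB : A + B ≠ 0) :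
    px (A + B) = W.addX (px A) (px B) (W.slope (px A) (px B) (py A) (py B)) := by
  obtain ⟨x₁, y₁, h₁, rfl⟩ := exists_some_of_ne_zero hA
  obtain ⟨x₂, y₂, h₂, rfl⟩ := exists_some_of_ne_zero hB
  rw [Affine.Point.add_some fun h => hAB (Affine.Point.add_of_Y_eq h.1 h.2)]
  rfl

theorem py_add {A B : W.Point} (hA : A ≠ 0) (hB : B ≠ 0) (hAB : A + B ≠ 0) :
    py (A + B) = W.addY (px A) (px B) (py A) (W.slope (px A) (px B) (py A) (py B)) := by
  obtain ⟨x₁, y₁, h₁, rfl⟩ := exists_some_of_ne_zero hA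
  obtain ⟨x₂, y₂, h₂, rfl⟩ := exists_some_of_ne_zero hB
  rw [Affine.Point.add_some fun h => hAB (Affine.Point.add_of_Y_eq h.1 h.2)]
  rfl

theorem pev_chord {S A B : W.Point} (hS : S ≠ 0) (hA : A ≠ 0) (hB : B ≠ 0) (hAB : A + B ≠ 0) :
    pev S (chord A B) = py S - W.slope (px A) (px B) (py A) (py B) * px S -
      (py A - W.slope (px A) (px B) (py A) (py B) * px A) := by
  obtain ⟨x₁, y₁, h₁, rfl⟩ := exists_some_of_ne_zero hA
  obtain ⟨x₂, y₂, h₂, rfl⟩ := exists_some_of_ne_zero hB
  obtain ⟨x₀, y₀, h₀, rfl⟩ := exists_some_of_ne_zero hS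
  have hxy : ¬(x₁ = x₂ ∧ y₁ = W.negY x₂ y₂) := fun h =>
    hAB (Affine.Point.add_of_Y_eq h.1 h.2)
  simp only [chord, if_neg hxy, lineElt, pev_some, evalAt_el, eval_neg, eval_add, eval_mul, eval_C, eval_X, eval_one, px, py]
  ring

section Nsmul

variable [IsAlgClosed K] [CharZero K] [W.IsElliptic]

instance infinite_point : Infinite W.Point :=
  Infinite.of_surjective (px : W.Point → K) fun x => by
    obtain ⟨y, h⟩ := exists_nonsingular (W := W) x
    exact ⟨Affine.Point.some x y h, rfl⟩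

theorem finite_torsion_set {n : ℕ} (hn : n ≠ 0) : {Q : W.Point | n • Q = 0}.Finite := by
  have : Finite (Submodule.torsionBy ℤ W.Point n) :=
    Nat.finite_of_card_ne_zero
      (natCard_torsionBy (W := W) n ((Nat.cast_ne_zero (R := K)).mpr hn) ▸ pow_ne_zero 2 hn)
  refine (Set.toFinite (Submodule.torsionBy ℤ W.Point n : Set W.Point)).subset fun Q hQ => ?_
  rw [SetLike.mem_coe, Submodule.mem_torsionBy_iff, natCast_zsmul]
  exact hQ

theorem tendsto_nsmul {n : ℕ} (hn : n ≠ 0) :
    Tendsto (fun Q : W.Point => n • Q) cofinite cofinite := by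
  refine Tendsto.cofinite_of_finite_preimage_singleton fun R => ?_
  by_cases h : ∃ P, n • P = R
  · obtain ⟨P, hP⟩ := h
    refine ((finite_torsion_set (W := W) hn).image (· + P)).subset fun Q hQ => ?_
    refine ⟨Q - P, ?_, sub_add_cancel Q P⟩
    simp only [Set.mem_ofPred_eq, nsmul_sub, hP, sub_eq_zero]
    exact hQ
  · exact Set.finite_empty.subset fun Q hQ => absurd ⟨Q, hQ⟩ h

theorem eventually_nsmul_ne {n : ℕ} (hn : n ≠ 0) (R : W.Point) :
    ∀ᶠ Q : W.Point in cofinite, n • Q ≠ R :=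
  (tendsto_nsmul hn).eventually (eventually_ne' R)

theorem eventually_px_nsmul_ne {k : ℕ} (hk : 2 ≤ k) :
    ∀ᶠ Q : W.Point in cofinite, px (k • Q) ≠ px Q := by
  filter_upwards [eventually_nsmul_ne (show k + 1 ≠ 0 by omega) 0,
    eventually_nsmul_ne (show k - 1 ≠ 0 by omega) 0, eventually_nsmul_ne (show k ≠ 0 by omega) 0,
    eventually_ne' 0] with Q h1 h2 h3 h4 h
  rcases eq_or_eq_neg_of_px_eq h3 h4 h with e | e
  · obtain ⟨j, rfl⟩ : ∃ j, k = j + 1 := ⟨k - 1, by omega⟩
    rw [succ_nsmul, add_eq_right] at e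
    exact h2 (by simpa using e)
  · exact h1 (by rw [succ_nsmul, e, neg_add_cancel])

/-- The slope of the line through `kQ` and `Q` is rational in `Q`. -/
theorem isRat_slope {k : ℕ} (hk : 1 ≤ k) (hx : IsRat fun Q : W.Point => px (k • Q))
    (hy : IsRat fun Q : W.Point => py (k • Q)) :
    IsRat fun Q : W.Point => W.slope (px (k • Q)) (px Q) (py (k • Q)) (py Q) := by
  rcases eq_or_lt_of_le hk with rfl | hk2
  · have hne : ∀ᶠ Q : W.Point in cofinite, py Q - W.negY (px Q) (py Q) ≠ 0 := by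
      filter_upwards [eventually_nsmul_ne two_ne_zero 0, eventually_ne' 0] with Q h2 h0 h
      obtain ⟨x, y, hn, rfl⟩ := exists_some_of_ne_zero h0
      exact h2 (by rw [two_nsmul]; exact Affine.Point.add_self_of_Y_eq (sub_eq_zero.mp h))
    have hden : IsRat fun Q : W.Point => py Q - W.negY (px Q) (py Q) := by
      simp only [Affine.negY]
      exact IsRat.py.sub ((IsRat.py.neg.sub ((IsRat.const W.a₁).mul IsRat.px)).sub (IsRat.const W.a₃))
    have hnum : IsRat fun Q : W.Point =>
        3 * (px Q * px Q) + 2 * W.a₂ * px Q + W.a₄ - W.a₁ * py Q :=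
      ((((IsRat.const 3).mul (IsRat.px.mul IsRat.px)).add
        ((IsRat.const (2 * W.a₂)).mul IsRat.px)).add (IsRat.const W.a₄)).sub
        ((IsRat.const W.a₁).mul IsRat.py)
    refine (hnum.div hden hne).congr ?_
    filter_upwards [hne] with Q hQ
    rw [one_nsmul, Affine.slope_of_Y_ne rfl (sub_ne_zero.mp hQ)]
    ring
  · have hne : ∀ᶠ Q : W.Point in cofinite, px (k • Q) - px Q ≠ 0 :=
      (eventually_px_nsmul_ne hk2).mono fun Q h => sub_ne_zero.mpr h
    refine ((hy.sub IsRat.py).div (hx.sub IsRat.px) hne).congr ?_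
    filter_upwards [hne] with Q hQ
    rw [Affine.slope_of_X_ne (sub_ne_zero.mp hQ)]

theorem isRat_nsmul_coords (k : ℕ) (hk : 1 ≤ k) :
    IsRat (fun Q : W.Point => px (k • Q)) ∧ IsRat (fun Q : W.Point => py (k • Q)) := by
  induction k, hk using Nat.le_induction with
  | base => simp only [one_nsmul]; exact ⟨IsRat.px, IsRat.py⟩
  | succ k hk ih =>
    have hs := isRat_slope hk ih.1 ih.2
    have hX : IsRat fun Q : W.Point =>
        W.addX (px (k • Q)) (px Q) (W.slope (px (k • Q)) (px Q) (py (k • Q)) (py Q)) := by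
      simp only [Affine.addX, sq]
      exact (((((hs.mul hs).add ((IsRat.const W.a₁).mul hs)).sub (IsRat.const W.a₂)).sub
        ih.1).sub IsRat.px)
    have hY : IsRat fun Q : W.Point => W.addY (px (k • Q)) (px Q) (py (k • Q))
        (W.slope (px (k • Q)) (px Q) (py (k • Q)) (py Q)) := by
      simp only [Affine.addY, Affine.negAddY, Affine.negY]
      exact ((((hs.mul (hX.sub ih.1)).add ih.2).neg.sub
        ((IsRat.const W.a₁).mul hX)).sub (IsRat.const W.a₃))
    have hgen : ∀ᶠ Q : W.Point in cofinite, k • Q ≠ 0 ∧ Q ≠ 0 ∧ k • Q + Q ≠ 0 := by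
      filter_upwards [eventually_nsmul_ne (show k ≠ 0 by omega) 0, eventually_ne' 0,
        eventually_nsmul_ne (show k + 1 ≠ 0 by omega) 0] with Q h1 h2 h3
      exact ⟨h1, h2, by rwa [succ_nsmul] at h3⟩
    constructor
    · refine hX.congr ?_
      filter_upwards [hgen] with Q hQ
      rw [succ_nsmul, px_add hQ.1 hQ.2.1 hQ.2.2]
    · refine hY.congr ?_
      filter_upwards [hgen] with Q hQ
      rw [succ_nsmul, py_add hQ.1 hQ.2.1 hQ.2.2]

end Nsmul

end FLTAgent.EllTorsion

end
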